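import Mathlib

/-!
# Commuting families of operators: kernels and common eigenvectors
-/

set_option autoImplicit false

noncomputable section

namespace Fermat.Agent.Newform

variable {V W : Type*} [AddCommGroup V] [Module ℂ V] [AddCommGroup W] [Module ℂ W]
  [FiniteDimensional ℂ V] {ι : Type*}

omit [FiniteDimensional ℂ V] in
theorem pow_succ_apply (A : Module.End ℂ V) (n : ℕ) (v : V) :
    (A ^ (n + 1)) v = (A ^ n) (A v) := by
  rw [pow_succ, Module.End.mul_apply]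

/-- If an equivariant map sends some `x` to a nonzero vector killed by the commuting family, the
family has a nonzero common kernel vector in the source. -/
theorem exists_common_kernel (A : ι → Module.End ℂ V) (hA : ∀ i j, Commute (A i) (A j))
    (Φ : V →ₗ[ℂ] W) (A' : ι → Module.End ℂ W) (hΦ : ∀ i v, Φ (A i v) = A' i (Φ v))
    {x : V} (hx : Φ x ≠ 0) (hker : ∀ i, A' i (Φ x) = 0) :
    ∃ v : V, v ≠ 0 ∧ ∀ i, A i v = 0 := by
  classical
  have hAA : ∀ i j v, A i (A j v) = A j (A i v) := fun i j v => LinearMap.congr_fun (hA i j).eq v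
  let P : Submodule ℂ V → Prop := fun Z =>
    (∀ i, ∀ z ∈ Z, A i z ∈ Z ∧ Φ (A i z) = 0) ∧ ∃ z ∈ Z, Φ z ≠ 0
  have hY : P (⨅ i, LinearMap.ker (Φ.comp (A i))) := by
    refine ⟨fun i z hz => ?_, x, ?_, hx⟩
    · simp only [Submodule.mem_iInf, LinearMap.mem_ker, LinearMap.comp_apply] at hz ⊢
      exact ⟨fun j => by rw [hAA, hΦ, hz, map_zero], hz i⟩
    · simp only [Submodule.mem_iInf, LinearMap.mem_ker, LinearMap.comp_apply]
      exact fun i => by rw [hΦ, hker]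
  obtain ⟨Z, hZP, hmin⟩ := WellFounded.has_min
    (wellFounded_lt (α := Submodule ℂ V)) {Z | P Z} ⟨_, hY⟩
  obtain ⟨hinv, z₀, hz₀, hΦz₀⟩ := hZP
  have hnil : ∀ i, ∃ n, ∀ z ∈ Z, (A i ^ n) z = 0 := by
    intro i
    obtain ⟨n, hn⟩ := WellFounded.has_min (wellFounded_lt (α := Submodule ℂ V))
      (Set.range fun n : ℕ => Z.map (A i ^ n)) (Set.range_nonempty _)
    obtain ⟨⟨n, rfl⟩, hn⟩ := hn
    refine ⟨n, ?_⟩
    have hle : Z.map (A i ^ (n + 1)) ≤ Z.map (A i ^ n) := by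
      rintro _ ⟨z, hz, rfl⟩
      exact ⟨A i z, (hinv i z hz).1, (pow_succ_apply _ _ _).symm⟩
    have heq : Z.map (A i ^ (n + 1)) = Z.map (A i ^ n) :=
      eq_of_le_of_not_lt hle (hn _ ⟨n + 1, rfl⟩)
    obtain ⟨w, hw, hwz⟩ : (A i ^ n) z₀ ∈ Z.map (A i ^ (n + 1)) :=
      heq ▸ Submodule.mem_map_of_mem hz₀
    set Z' := Z ⊓ LinearMap.ker (A i ^ n) with hZ'
    have hP' : P Z' := by
      refine ⟨fun j z hz => ?_, z₀ - A i w, ?_, ?_⟩
      · refine ⟨⟨(hinv j z hz.1).1, ?_⟩, (hinv j z hz.1).2⟩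
        have hz2 : (A i ^ n) z = 0 := hz.2
        have hc := LinearMap.congr_fun ((hA i j).pow_left n).eq z
        simp only [Module.End.mul_apply] at hc
        show (A i ^ n) (A j z) = 0
        rw [hc, hz2, map_zero]
      · refine ⟨sub_mem hz₀ (hinv i w hw).1, ?_⟩
        show (A i ^ n) (z₀ - A i w) = 0
        rw [map_sub, ← pow_succ_apply, ← hwz, sub_self]
      · rwa [map_sub, (hinv i w hw).2, sub_zero]
    have : Z' = Z := eq_of_le_of_not_lt inf_le_left (hmin Z' hP')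
    intro z hz
    exact (this.symm ▸ hz : z ∈ Z').2
  -- a minimal nonzero invariant subspace of `Z`
  let Q : Submodule ℂ V → Prop := fun U => (∀ i, ∀ u ∈ U, A i u ∈ U) ∧ U ≤ Z ∧ U ≠ ⊥
  have hZQ : Q Z := ⟨fun i u hu => (hinv i u hu).1, le_rfl, fun h => by
    rw [h] at hz₀; exact hΦz₀ (by simp [(Submodule.mem_bot ℂ).mp hz₀])⟩
  obtain ⟨U, ⟨hUinv, hUZ, hU0⟩, hUmin⟩ := WellFounded.has_min
    (wellFounded_lt (α := Submodule ℂ V)) {U | Q U} ⟨Z, hZQ⟩
  obtain ⟨u, hu, hu0⟩ := Submodule.exists_mem_ne_zero_of_ne_bot hU0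
  refine ⟨u, hu0, fun i => ?_⟩
  by_contra hne
  have hQ : Q (U.map (A i)) := by
    refine ⟨?_, ?_, ?_⟩
    · rintro j _ ⟨w, hw, rfl⟩
      exact ⟨A j w, hUinv j w hw, (hAA j i w).symm⟩
    · rintro _ ⟨w, hw, rfl⟩
      exact hUZ (hUinv i w hw)
    · intro h
      have := Submodule.mem_map_of_mem (f := A i) hu
      rw [h] at this
      exact hne ((Submodule.mem_bot ℂ).mp this)
  have hle : U.map (A i) ≤ U := by rintro _ ⟨w, hw, rfl⟩; exact hUinv i w hw
  have heq : U.map (A i) = U := eq_of_le_of_not_lt hle (hUmin _ hQ)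
  obtain ⟨n, hn⟩ := hnil i
  have hiter : ∀ m, U.map (A i ^ m) = U := by
    intro m
    induction m with
    | zero => exact Submodule.map_id U
    | succ m ih => rw [pow_succ', Module.End.mul_eq_comp, Submodule.map_comp, ih, heq]
  have := hiter n ▸ hu
  obtain ⟨w, hw, hwu⟩ := this
  exact hu0 (by rw [← hwu, hn w (hUZ hw)])

/-- A commuting family preserving a nonzero subspace has a common eigenvector in it. -/
theorem exists_common_eigenvector (A : ι → Module.End ℂ V) (hA : ∀ i j, Commute (A i) (A j))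
    {Z₀ : Submodule ℂ V} (hne : Z₀ ≠ ⊥) (hinv : ∀ i, ∀ z ∈ Z₀, A i z ∈ Z₀) :
    ∃ v ∈ Z₀, v ≠ 0 ∧ ∀ i, ∃ c : ℂ, A i v = c • v := by
  classical
  obtain ⟨Z, ⟨hZinv, hZle, hZ0⟩, hmin⟩ := WellFounded.has_min (wellFounded_lt (α := Submodule ℂ V))
    {U | (∀ i, ∀ u ∈ U, A i u ∈ U) ∧ U ≤ Z₀ ∧ U ≠ ⊥} ⟨Z₀, hinv, le_rfl, hne⟩
  obtain ⟨v, hv, hv0⟩ := Submodule.exists_mem_ne_zero_of_ne_bot hZ0
  refine ⟨v, hZle hv, hv0, fun i => ?_⟩
  have : Nontrivial Z := (Submodule.nontrivial_iff_ne_bot).mpr hZ0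
  obtain ⟨c, hc⟩ := Module.End.exists_eigenvalue ((A i).restrict (hZinv i))
  obtain ⟨w, hw⟩ := hc.exists_hasEigenvector
  refine ⟨c, ?_⟩
  set E := Z ⊓ LinearMap.ker (A i - c • 1) with hE
  have hwE : (w : V) ∈ E := by
    refine ⟨w.2, ?_⟩
    have := congrArg Subtype.val hw.apply_eq_smul
    simp only [LinearMap.coe_restrict_apply, Submodule.coe_smul] at this
    simp [this]
  have hEinv : ∀ j, ∀ z ∈ E, A j z ∈ E := by
    intro j z hz
    refine ⟨hZinv j z hz.1, ?_⟩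
    have hz2 : A i z = c • z := by simpa [sub_eq_zero] using hz.2
    have hc := LinearMap.congr_fun (hA i j).eq z
    simp only [Module.End.mul_apply] at hc
    simp [hc, hz2]
  have hE0 : E ≠ ⊥ := fun h => hw.2 <| Subtype.ext <| by
    rw [h] at hwE; simpa using hwE
  have : E = Z :=
    eq_of_le_of_not_lt inf_le_left (hmin E ⟨hEinv, inf_le_left.trans hZle, hE0⟩)
  have hvE : v ∈ E := this.symm ▸ hv
  simpa [sub_eq_zero] using hvE.2

end Fermat.Agent.Newform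

end
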