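import Fermat.Agent.Newform.Degeneracy
import Fermat.Agent.Newform.LinAlg
import Fermat.Agent.Hecke.Duality
import Fermat.Agent.MFCore.Integral
import Fermat.Prelude.Def_CuspForm_Newforms

/-!
# Multiplicity one for newforms of weight two
-/

set_option autoImplicit false

noncomputable section

open CongruenceSubgroup ModularFormClass
open scoped MatrixGroups

namespace Fermat.Agent.Newform

variable {N M : ℕ}

theorem finiteDimensional_S2 (N : ℕ) [NeZero N] :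
    FiniteDimensional ℂ (CuspForm (Gamma0 N) 2) :=
  MFCore.finiteDimensional_cuspForm_Gamma0 N 2

/-- If `h` is killed by `T_ℓ - a ℓ` for good `ℓ ∉ S` and `a₁(h) = 0`, all coefficients at exponents
prime to `N` and to `S` vanish. -/
theorem qCoeff_eq_zero_of_eigen (h : CuspForm (Gamma0 N) 2) (S : Set ℕ) (a : ℕ → ℂ)
    (he : ∀ (ℓ : ℕ) (hℓ : ℓ.Prime) (hℓN : ¬ ℓ ∣ N), ℓ ∉ S →
      CuspForm.heckeTLin 2 hℓ hℓN h = a ℓ • h)
    (h1 : qCoeff ⇑h 1 = 0) (n : ℕ) (hn : ∀ p : ℕ, p.Prime → (p ∣ N ∨ p ∈ S) → ¬ p ∣ n) :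
    qCoeff ⇑h n = 0 := by
  induction n using Nat.strong_induction_on with
  | _ n ih =>
    rcases lt_or_ge n 2 with hn2 | hn2
    · interval_cases n
      · exact Hecke.qCoeff_zero_index h
      · exact h1
    obtain ⟨ℓ, hℓ, m, rfl⟩ : ∃ ℓ, ℓ.Prime ∧ ∃ m, n = m * ℓ := by
      obtain ⟨ℓ, hℓ, hd⟩ := Nat.exists_prime_and_dvd (show n ≠ 1 by omega)
      exact ⟨ℓ, hℓ, n / ℓ, (Nat.div_mul_cancel hd).symm⟩
    have hℓN : ¬ ℓ ∣ N := fun h' => hn ℓ hℓ (Or.inl h') (dvd_mul_left ℓ m)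
    have hℓS : ℓ ∉ S := fun h' => hn ℓ hℓ (Or.inr h') (dvd_mul_left ℓ m)
    have hm : m < m * ℓ := by
      rcases Nat.eq_zero_or_pos m with rfl | hm
      · simp at hn2
      · nlinarith [hℓ.two_le]
    have key := congrArg (fun F : CuspForm (Gamma0 N) 2 => qCoeff ⇑F m) (he ℓ hℓ hℓN hℓS)
    simp only [Hecke.qCoeff_heckeTLin_two, Hecke.qCoeff_smul] at key
    rw [ih m hm (fun p hp hc hd => hn p hp hc (hd.mul_right _)), mul_zero] at key
    have h2 : (if ℓ ∣ m then (ℓ : ℂ) * qCoeff ⇑h (m / ℓ) else 0) = 0 := by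
      split_ifs with hd
      · rw [ih (m / ℓ) (lt_of_le_of_lt (Nat.div_le_self m ℓ) hm)
          (fun p hp hc hd' => hn p hp hc ((hd'.trans (Nat.div_dvd_of_dvd hd)).mul_right _)),
            mul_zero]
      · rfl
    rwa [h2, add_zero] at key

/-- Such a form also vanishes at exponents prime to the level only. -/
theorem qCoeff_eq_zero_of_eigen_finite [NeZero N] (h : CuspForm (Gamma0 N) 2) (S : Finset ℕ)
    (a : ℕ → ℂ)
    (he : ∀ (ℓ : ℕ) (hℓ : ℓ.Prime) (hℓN : ¬ ℓ ∣ N), ℓ ∉ S →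
      CuspForm.heckeTLin 2 hℓ hℓN h = a ℓ • h)
    (h1 : qCoeff ⇑h 1 = 0) :
    (∀ n, (∀ p ∈ N.primeFactors, ¬ p ∣ n) → qCoeff ⇑h n = 0) ∧
      h ∈ LinearMap.range (oldMap N 2) := by
  classical
  set P := (N.primeFactors ∪ S).filter Nat.Prime with hP
  have hPpr : ∀ p ∈ P, p.Prime := fun p hp => (Finset.mem_filter.mp hp).2
  have hvan : ∀ n, (∀ p ∈ P, ¬ p ∣ n) → qCoeff ⇑h n = 0 := fun n hn =>
    qCoeff_eq_zero_of_eigen h ↑S a he h1 n fun p hp hc => hn p <| Finset.mem_filter.mpr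
      ⟨Finset.mem_union.mpr <| hc.imp (fun h' => Nat.mem_primeFactors.mpr ⟨hp, h', NeZero.ne N⟩) id,
        hp⟩
  refine ⟨fun n hn => qCoeff_eq_zero_of_primes h P hPpr hvan n fun p hp hpN => hn p ?_,
    mem_range_oldMap h P hPpr hvan⟩
  exact Nat.mem_primeFactors.mpr ⟨hPpr p hp, hpN, NeZero.ne N⟩

/-- An eigenform raised to level `L` is an eigenvector of `T_ℓ`, `ℓ ∤ L`. -/
theorem isNormalizedEigenform_heckeT {f : CuspForm (Gamma0 N) 2} [NeZero N]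
    (hf : f.IsNormalizedEigenform) (L : ℕ) [NeZero L] (h : N * 1 ∣ L) {ℓ : ℕ} (hℓ : ℓ.Prime)
    (hℓL : ¬ ℓ ∣ L) :
    CuspForm.heckeTLin 2 hℓ hℓL (degen L N 1 2 h f) = qCoeff ⇑f ℓ • degen L N 1 2 h f := by
  have hℓN : ¬ ℓ ∣ N := fun h' => hℓL (h'.trans (by simpa using h))
  rw [heckeTLin_degen h hℓ hℓL hℓN, Hecke.heckeTLin_eigenform hf hℓ hℓN, map_smul]

/-- **Strong multiplicity one for coefficients**: eigenforms of levels dividing `L` agreeing at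
almost all primes agree at every prime not dividing `L`. -/
theorem qCoeff_eq_of_agree_outside_finite {L : ℕ} [NeZero L] [NeZero N] [NeZero M] (hN : N ∣ L)
    (hM : M ∣ L) {f : CuspForm (Gamma0 N) 2} {g : CuspForm (Gamma0 M) 2}
    (hf : f.IsNormalizedEigenform) (hg : g.IsNormalizedEigenform) (S : Finset ℕ)
    (h : ∀ ℓ : ℕ, ℓ.Prime → ¬ ℓ ∣ L → ℓ ∉ S → qCoeff ⇑f ℓ = qCoeff ⇑g ℓ)
    {ℓ : ℕ} (hℓ : ℓ.Prime) (hℓL : ¬ ℓ ∣ L) : qCoeff ⇑f ℓ = qCoeff ⇑g ℓ := by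
  set F := degen L N 1 2 (by simpa using hN) f
  set G := degen L M 1 2 (by simpa using hM) g
  have := (qCoeff_eq_zero_of_eigen_finite (F - G) S (fun q => qCoeff ⇑f q)
    (fun q hq hqL hqS => by
      rw [map_sub, isNormalizedEigenform_heckeT hf L _ hq hqL,
        isNormalizedEigenform_heckeT hg L _ hq hqL, ← h q hq hqL hqS, smul_sub])
    (by simp only [Hecke.qCoeff_sub, F, G, qCoeff_degen_one]; rw [hf.qCoeff_one,
      hg.qCoeff_one, sub_self])).1 ℓ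
    fun p hp hd => hℓL <| (Nat.prime_dvd_prime_iff_eq (Nat.prime_of_mem_primeFactors hp) hℓ).mp hd ▸
      Nat.dvd_of_mem_primeFactors hp
  simpa only [Hecke.qCoeff_sub, F, G, qCoeff_degen_one, sub_eq_zero] using this

/-- A common eigenvector of the `T_ℓ` (good `ℓ ∉ S`) yields a normalised eigenform with the same
eigenvalues there. -/
theorem exists_eigenform_of_eigenvector [NeZero N] (S : Set ℕ) (a : ℕ → ℂ)
    {v : CuspForm (Gamma0 N) 2} (hv : v ≠ 0)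
    (he : ∀ (ℓ : ℕ) (hℓ : ℓ.Prime) (hℓN : ¬ ℓ ∣ N), ℓ ∉ S →
      CuspForm.heckeTLin 2 hℓ hℓN v = a ℓ • v) :
    ∃ g : CuspForm (Gamma0 N) 2, g.IsNormalizedEigenform ∧
      ∀ ℓ : ℕ, ℓ.Prime → ¬ ℓ ∣ N → ℓ ∉ S → qCoeff ⇑g ℓ = a ℓ := by
  classical
  have := finiteDimensional_S2 N
  let Z : Submodule ℂ (CuspForm (Gamma0 N) 2) :=
    ⨅ (ℓ : ℕ) (hℓ : ℓ.Prime) (hℓN : ¬ ℓ ∣ N) (_ : ℓ ∉ S),
      LinearMap.ker (CuspForm.heckeTLin 2 hℓ hℓN - a ℓ • 1)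
  have hmem : ∀ z, z ∈ Z ↔ ∀ (ℓ : ℕ) (hℓ : ℓ.Prime) (hℓN : ¬ ℓ ∣ N), ℓ ∉ S →
      CuspForm.heckeTLin 2 hℓ hℓN z = a ℓ • z := fun z => by
    simp [Z, Submodule.mem_iInf, sub_eq_zero]
  have hcomm : ∀ s t : CuspForm.heckeAlgebra N 2 ∅,
      Commute (s : Module.End ℂ (CuspForm (Gamma0 N) 2))
          (t : Module.End ℂ (CuspForm (Gamma0 N) 2)) :=
    fun s t => congrArg Subtype.val (mul_comm s t)
  obtain ⟨w, hwZ, hw0, hw⟩ := exists_common_eigenvector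
    (fun t : CuspForm.heckeAlgebra N 2 ∅ => (t : Module.End ℂ (CuspForm (Gamma0 N) 2))) hcomm
    (Z₀ := Z) (fun hZ => hv ((Submodule.mem_bot ℂ).mp (hZ ▸ (hmem v).mpr he))) fun t z hz => by
      refine (hmem _).mpr fun ℓ hℓ hℓN hℓS => ?_
      have hc := LinearMap.congr_fun
        (hcomm (CuspForm.heckeAlgebra.T hℓ hℓN (Set.notMem_empty _)) t).eq z
      simp only [Module.End.mul_apply, CuspForm.heckeAlgebra.coe_T] at hc
      rw [hc, (hmem z).mp hz ℓ hℓ hℓN hℓS, map_smul]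
  choose c hc using hw
  have huniq : ∀ {x y : ℂ}, x • w = y • w → x = y := fun h => smul_left_injective ℂ hw0 h
  let χ : CuspForm.heckeAlgebra N 2 ∅ →+* ℂ :=
    { toFun := c
      map_one' := huniq ((hc 1).symm.trans (by simp))
      map_mul' := fun s t => huniq ((hc (s * t)).symm.trans (by
        simp [hc t, hc s, smul_smul, mul_comm]))
      map_zero' := huniq ((hc 0).symm.trans (by simp))
      map_add' := fun s t => huniq ((hc (s + t)).symm.trans (by simp [hc s, hc t, add_smul])) }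
  have hev : Hecke.IsEigenvector χ w := hc
  obtain ⟨g, hg, hgev, -⟩ := hev.exists_normalizedEigenform hw0
  refine ⟨g, hg, fun ℓ hℓ hℓN hℓS => ?_⟩
  rw [← hgev.qCoeff_T hg.qCoeff_one hℓ hℓN]
  refine huniq ((hc _).symm.trans ?_)
  simp only [CuspForm.heckeAlgebra.coe_T]
  exact (hmem w).mp hwZ ℓ hℓ hℓN hℓS

/-- A nonzero old form which is an eigenvector for the good `T_ℓ` gives an eigenform of some level
`N/p` with the same eigenvalues. -/
theorem exists_eigenform_of_mem_range_oldMap [NeZero N] (S : Set ℕ) (a : ℕ → ℂ)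
    {h : CuspForm (Gamma0 N) 2} (hh : h ≠ 0)
    (he : ∀ (ℓ : ℕ) (hℓ : ℓ.Prime) (hℓN : ¬ ℓ ∣ N), ℓ ∉ S →
      CuspForm.heckeTLin 2 hℓ hℓN h = a ℓ • h)
    (hold : h ∈ LinearMap.range (oldMap N 2)) :
    ∃ p ∈ N.primeFactors, ∃ g : CuspForm (Gamma0 (N / p)) 2, g.IsNormalizedEigenform ∧
      ∀ ℓ : ℕ, ℓ.Prime → ¬ ℓ ∣ N → ℓ ∉ S → qCoeff ⇑g ℓ = a ℓ := by
  classical
  obtain ⟨x, rfl⟩ := hold
  have hne : ∀ p : N.primeFactors, NeZero (N / (p : ℕ)) := fun p => neZero_div p.2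
  have : ∀ p : N.primeFactors, FiniteDimensional ℂ (CuspForm (Gamma0 (N / (p : ℕ))) 2) :=
    fun p => finiteDimensional_S2 _
  let I := {ℓ : ℕ // ℓ.Prime ∧ ¬ ℓ ∣ N ∧ ℓ ∉ S}
  have hdiv : ∀ (i : I) (p : N.primeFactors), ¬ (i : ℕ) ∣ N / (p : ℕ) := fun i p h' =>
    i.2.2.1 (h'.trans (Nat.div_dvd_of_dvd (Nat.dvd_of_mem_primeFactors p.2)))
  let A : I → Module.End ℂ (OldSource N 2) := fun i =>
    LinearMap.pi fun p =>
      (CuspForm.heckeTLin 2 i.2.1 (hdiv i p) - a i • 1).comp (LinearMap.proj p)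
  have hA : ∀ i j, Commute (A i) (A j) := fun i j => LinearMap.ext fun y => funext fun p => by
    have hc := LinearMap.congr_fun
      (CuspForm.heckeTLin_comm 2 i.2.1 (hdiv i p) j.2.1 (hdiv j p)) (y p)
    simp only [Module.End.mul_apply] at hc
    simp [A, hc, smul_sub, smul_smul, mul_comm]
    abel
  obtain ⟨v, hv0, hv⟩ := exists_common_kernel A hA (oldMap N 2)
    (fun i => CuspForm.heckeTLin 2 i.2.1 i.2.2.1 - a i • 1)
    (fun i y => by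
      simp [A, oldMap, LinearMap.sum_apply, map_sum, heckeTLin_degen _ i.2.1 i.2.2.1 (hdiv i _),
        Finset.sum_sub_distrib])
    hh (fun i => by simp [he i i.2.1 i.2.2.1 i.2.2.2])
  obtain ⟨p, hp⟩ : ∃ p, v p ≠ 0 := by
    by_contra hall
    push Not at hall
    exact hv0 (funext hall)
  obtain ⟨g, hg, hga⟩ := exists_eigenform_of_eigenvector (S ∪ {ℓ | ℓ ∣ N}) a hp
    (fun ℓ hℓ hℓp hℓS => by
      rw [Set.mem_union, not_or] at hℓS
      have := congrFun (hv ⟨ℓ, hℓ, hℓS.2, hℓS.1⟩) p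
      simpa [A, sub_eq_zero] using this)
  refine ⟨p, p.2, g, hg, fun ℓ hℓ hℓN hℓS => hga ℓ hℓ (fun h' => ?_) ?_⟩
  · exact hdiv ⟨ℓ, hℓ, hℓN, hℓS⟩ p h'
  · simpa [hℓS] using hℓN

variable {f : CuspForm (Gamma0 N) 2}

/-- A newform's system of eigenvalues (away from any finite set) does not occur at a lower level. -/
theorem not_agree_outside_finite_of_isNewform [NeZero N] (hf : f.IsNewform) [NeZero M] (hMN : M ∣ N)
    (hne : M ≠ N) {g : CuspForm (Gamma0 M) 2} (hg : g.IsNormalizedEigenform) (S : Finset ℕ)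
    (h : ∀ ℓ : ℕ, ℓ.Prime → ¬ ℓ ∣ N → ℓ ∉ S → qCoeff ⇑f ℓ = qCoeff ⇑g ℓ) : False :=
  hf.2 M hMN hne ⟨g, hg, fun _ hℓ hℓN =>
    (qCoeff_eq_of_agree_outside_finite dvd_rfl hMN hf.1 hg S h hℓ hℓN).symm⟩

/-- **Multiplicity one**: a form with the eigenvalues of a newform at almost all good primes is a
multiple of the newform. -/
theorem eq_smul_of_isNewform [NeZero N] (hf : f.IsNewform) (S : Finset ℕ)
    {h : CuspForm (Gamma0 N) 2}
    (he : ∀ (ℓ : ℕ) (hℓ : ℓ.Prime) (hℓN : ¬ ℓ ∣ N), ℓ ∉ S →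
      CuspForm.heckeTLin 2 hℓ hℓN h = qCoeff ⇑f ℓ • h) :
    h = qCoeff ⇑h 1 • f := by
  set h' := h - qCoeff ⇑h 1 • f with hh'
  have he' : ∀ (ℓ : ℕ) (hℓ : ℓ.Prime) (hℓN : ¬ ℓ ∣ N), ℓ ∉ S →
      CuspForm.heckeTLin 2 hℓ hℓN h' = qCoeff ⇑f ℓ • h' := fun ℓ hℓ hℓN hℓS => by
    rw [hh', map_sub, map_smul, he ℓ hℓ hℓN hℓS, Hecke.heckeTLin_eigenform hf.1 hℓ hℓN, smul_sub,
      smul_comm]
  by_contra hne
  have hh0 : h' ≠ 0 := sub_ne_zero.mpr hne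
  obtain ⟨p, hp, g, hg, hga⟩ := exists_eigenform_of_mem_range_oldMap (↑S) _ hh0 he'
    (qCoeff_eq_zero_of_eigen_finite h' S _ he'
      (by rw [hh', Hecke.qCoeff_sub, Hecke.qCoeff_smul, hf.1.qCoeff_one, mul_one, sub_self])).2
  have := neZero_div hp
  exact not_agree_outside_finite_of_isNewform hf
    (Nat.div_dvd_of_dvd (Nat.dvd_of_mem_primeFactors hp))
    (Nat.div_lt_self (NeZero.pos N) (Nat.prime_of_mem_primeFactors hp).one_lt).ne hg S
    fun ℓ hℓ hℓN hℓS => (hga ℓ hℓ hℓN hℓS).symm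

/-- Two eigenforms of level `N`, one of which is a newform, agreeing at almost all primes are
equal. -/
theorem eq_of_isNewform [NeZero N] (hf : f.IsNewform) {g : CuspForm (Gamma0 N) 2}
    (hg : g.IsNormalizedEigenform) (S : Finset ℕ)
    (h : ∀ ℓ : ℕ, ℓ.Prime → ¬ ℓ ∣ N → ℓ ∉ S → qCoeff ⇑g ℓ = qCoeff ⇑f ℓ) : g = f := by
  have := eq_smul_of_isNewform hf S (h := g) fun ℓ hℓ hℓN hℓS => by
    rw [Hecke.heckeTLin_eigenform hg hℓ hℓN, h ℓ hℓ hℓN hℓS]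
  rwa [hg.qCoeff_one, one_smul] at this

/-- Every eigenform's good system of eigenvalues occurs in a newform of level dividing its level. -/
theorem exists_isNewform_goodEigensystem [NeZero N] (hf : f.IsNormalizedEigenform) :
    ∃ M : ℕ, M ∣ N ∧ ∃ g : CuspForm (Gamma0 M) 2, g.IsNewform ∧
      ∀ ℓ : ℕ, ℓ.Prime → ¬ ℓ ∣ N → qCoeff ⇑g ℓ = qCoeff ⇑f ℓ := by
  classical
  have hex : ∃ M, M ∣ N ∧ CuspForm.GoodEigensystemOccursAt f M :=
    ⟨N, dvd_rfl, CuspForm.GoodEigensystemOccursAt.refl hf⟩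
  obtain ⟨hMN, g, hg, hga⟩ := Nat.find_spec hex
  refine ⟨Nat.find hex, hMN, g, ⟨hg, fun M' hM' hne hocc => ?_⟩, hga⟩
  obtain ⟨g', hg', hga'⟩ := hocc
  have hlt : M' < Nat.find hex := lt_of_le_of_ne
    (Nat.le_of_dvd (Nat.pos_of_ne_zero fun h0 => NeZero.ne N (by simpa [h0] using hMN)) hM') hne
  exact Nat.find_min hex hlt ⟨hM'.trans hMN, g', hg', fun ℓ hℓ hℓN => by
    rw [hga' ℓ hℓ fun h' => hℓN (h'.trans hMN), hga ℓ hℓ hℓN]⟩

end Fermat.Agent.Newform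

end
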