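import Fermat.Agent.Newform.CuspFun
import Fermat.Prelude.Def_FLTPrelim_Modularity

/-!
# `q`-expansions: translations, the projection to exponents divisible by `p`, and `τ ↦ dτ`
-/

set_option autoImplicit false

noncomputable section

open UpperHalfPlane CongruenceSubgroup Function
open scoped MatrixGroups ModularForm Manifold

namespace Fermat.Agent.Newform

/-- `φ` is the sum of the `q`-series with coefficients `c`. -/
def HasQ (φ : ℍ → ℂ) (c : ℕ → ℂ) : Prop :=
  ∀ τ : ℍ, HasSum (fun n => c n * Periodic.qParam 1 τ ^ n) (φ τ)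

variable {k : ℤ} {φ ψ : ℍ → ℂ} {c c' : ℕ → ℂ}

theorem one_mem_strictPeriods (N : ℕ) :
    (1 : ℝ) ∈ (Gamma0 N : Subgroup (GL (Fin 2) ℝ)).strictPeriods := by
  simp

/-- A cusp form has its `q`-expansion. -/
theorem hasQ_cuspForm {N : ℕ} [NeZero N] (f : CuspForm (Gamma0 N) k) :
    HasQ ⇑f (fun n => ModularFormClass.qCoeff f n) :=
  fun τ => ModularForm.hasSum_qExpansion f one_pos (one_mem_strictPeriods N) τ

/-- Uniqueness of the `q`-expansion. -/
theorem HasQ.qCoeff_eq {N : ℕ} [NeZero N] {f : CuspForm (Gamma0 N) k} (h : HasQ ⇑f c) (n : ℕ) :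
    ModularFormClass.qCoeff f n = c n :=
  (ModularFormClass.qExpansion_coeff_unique one_pos (one_mem_strictPeriods N)
    (fun τ => by simpa [smul_eq_mul] using h τ) n).symm

theorem qCoeff_zero_cuspForm {N : ℕ} [NeZero N] (f : CuspForm (Gamma0 N) k) :
    ModularFormClass.qCoeff f 0 = 0 := by
  have h1 : (1 : ℝ) ∈ (Gamma0 N : Subgroup (GL (Fin 2) ℝ)).strictPeriods := one_mem_strictPeriods N
  rw [ModularFormClass.qCoeff, UpperHalfPlane.qExpansion_coeff_zero one_pos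
    (ModularFormClass.analyticAt_cuspFunction_zero f one_pos h1)
    (SlashInvariantFormClass.periodic_comp_ofComplex f h1)]
  exact (CuspFormClass.zero_at_infty f).valueAtInfty_eq_zero

theorem HasQ.congr (h : HasQ φ c) (hc : ∀ n, c n = c' n) : HasQ φ c' := by
  rwa [show c' = c from (funext hc).symm]

theorem hasQ_zero : HasQ (0 : ℍ → ℂ) (fun _ => 0) := fun τ => by simp [hasSum_zero]

theorem HasQ.add (h : HasQ φ c) (h' : HasQ ψ c') : HasQ (φ + ψ) (fun n => c n + c' n) :=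
  fun τ => by simpa [add_mul] using (h τ).add (h' τ)

theorem HasQ.sub (h : HasQ φ c) (h' : HasQ ψ c') : HasQ (φ - ψ) (fun n => c n - c' n) :=
  fun τ => by simpa [sub_mul] using (h τ).sub (h' τ)

theorem HasQ.smul (h : HasQ φ c) (r : ℂ) : HasQ (r • φ) (fun n => r * c n) :=
  fun τ => by simpa [mul_assoc] using (h τ).mul_left r

theorem HasQ.sum {ι : Type*} (s : Finset ι) {Φ : ι → ℍ → ℂ} {C : ι → ℕ → ℂ}
    (h : ∀ i ∈ s, HasQ (Φ i) (C i)) : HasQ (∑ i ∈ s, Φ i) (fun n => ∑ i ∈ s, C i n) := by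
  classical
  induction s using Finset.induction_on with
  | empty => simpa using hasQ_zero
  | @insert i t hi ih =>
    simp only [Finset.sum_insert hi]
    exact (h i (Finset.mem_insert_self _ _)).add (ih fun j hj => h j (Finset.mem_insert_of_mem hj))

theorem slash_translate_apply (k : ℤ) (φ : ℍ → ℂ) (x : ℚ) (τ : ℍ) :
    ∃ τ' : ℍ, (τ' : ℂ) = τ + x ∧ (φ ∣[k] qm 1 x 0 1) τ = φ τ' := by
  obtain ⟨τ', h, h'⟩ := slash_qm_upper k φ (a := 1) (b := x) (d := 1) one_pos one_pos τ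
  exact ⟨τ', by simpa using h, by simpa using h'⟩

/-- Translation by `x` twists the coefficients by `e(n x)`. -/
theorem HasQ.translate (h : HasQ φ c) (k : ℤ) (x : ℚ) :
    HasQ (φ ∣[k] qm 1 x 0 1) (fun n => c n * Periodic.qParam 1 (x : ℂ) ^ n) := by
  intro τ
  obtain ⟨τ', hτ', hv⟩ := slash_translate_apply k φ x τ
  rw [hv]
  have hs := h τ'
  have hq : Periodic.qParam 1 (τ' : ℂ) = Periodic.qParam 1 (x : ℂ) * Periodic.qParam 1 (τ : ℂ) := by
    simp only [hτ', Periodic.qParam, ← Complex.exp_add]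
    congr 1
    ring
  simpa [hq, mul_pow, mul_assoc] using hs

/-- The projection onto exponents divisible by `p`. -/
def avgU (k : ℤ) (p : ℕ) (φ : ℍ → ℂ) : ℍ → ℂ :=
  (p : ℂ)⁻¹ • ∑ j ∈ Finset.range p, φ ∣[k] qm 1 ((j : ℚ) / p) 0 1

theorem sum_zeta_pow {p : ℕ} (hp : 0 < p) (n : ℕ) :
    ∑ j ∈ Finset.range p, Periodic.qParam 1 (((j : ℚ) / p : ℚ) : ℂ) ^ n =
      if p ∣ n then (p : ℂ) else 0 := by
  have hz := Complex.isPrimitiveRoot_exp p hp.ne'
  set ζ := Complex.exp (2 * Real.pi * Complex.I / p) with hζ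
  have h1 : ∀ j : ℕ, Periodic.qParam 1 (((j : ℚ) / p : ℚ) : ℂ) ^ n = (ζ ^ n) ^ j := by
    intro j
    rw [hζ, ← pow_mul, mul_comm n j, pow_mul, ← Complex.exp_nat_mul, Periodic.qParam]
    congr 2
    push_cast
    ring
  simp only [h1]
  split_ifs with hd
  · have : ζ ^ n = 1 := (hz.pow_eq_one_iff_dvd n).mpr hd
    simp [this]
  · have hne : ζ ^ n ≠ 1 := fun h => hd ((hz.pow_eq_one_iff_dvd n).mp h)
    rw [geom_sum_eq hne, ← pow_mul, mul_comm, pow_mul, hz.pow_eq_one, one_pow, sub_self, zero_div]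

/-- `avgU p` keeps the coefficients of index divisible by `p`. -/
theorem HasQ.avgU (h : HasQ φ c) (k : ℤ) {p : ℕ} (hp : 0 < p) :
    HasQ (avgU k p φ) (fun n => if p ∣ n then c n else 0) := by
  refine ((HasQ.sum (Finset.range p) fun (j : ℕ) _ => h.translate k ((j : ℚ) / p)).smul (p : ℂ)⁻¹
    ).congr fun n => ?_
  rw [← Finset.mul_sum, sum_zeta_pow hp]
  have : (p : ℂ) ≠ 0 := by exact_mod_cast hp.ne'
  split_ifs <;> simp [this, mul_comm (c n)]

theorem IsCuspFun.avgU (h : IsCuspFun k φ) (p : ℕ) : IsCuspFun k (avgU k p φ) :=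
  (IsCuspFun.sum _ fun (j : ℕ) _ => h.slash_qm 1 ((j : ℚ) / p) 0 1).smul _

/-- The expansion of `φ ∣[k] diag(d, 1)`. -/
theorem HasQ.dilate (h : HasQ φ c) (k : ℤ) {d : ℕ} (hd : 0 < d) :
    HasQ (φ ∣[k] qm d 0 0 1)
      (fun n => if d ∣ n then (d : ℂ) ^ (k - 1) * c (n / d) else 0) := by
  intro τ
  obtain ⟨τ', hτ', hv⟩ := slash_qm_upper k φ (a := (d : ℚ)) (b := 0) (d := 1)
    (by exact_mod_cast hd) one_pos τ
  rw [hv]
  have hq : ∀ n, Periodic.qParam 1 (τ' : ℂ) ^ n = Periodic.qParam 1 (τ : ℂ) ^ (d * n) := by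
    intro n
    rw [pow_mul, hτ']
    congr 1
    simp only [Periodic.qParam, ← Complex.exp_nat_mul]
    congr 1
    push_cast
    ring
  have hs := (h τ').mul_left ((d : ℂ) ^ (k - 1))
  have hinj : Injective fun n : ℕ => d * n := fun a b hab => Nat.eq_of_mul_eq_mul_left hd hab
  have hsupp : ∀ m ∉ Set.range (fun n : ℕ => d * n),
      (if d ∣ m then (d : ℂ) ^ (k - 1) * c (m / d) else 0) * Periodic.qParam 1 (τ : ℂ) ^ m = 0 := by
    intro m hm
    rw [if_neg, zero_mul]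
    rintro ⟨n, rfl⟩
    exact hm ⟨n, rfl⟩
  rw [← hinj.hasSum_iff hsupp]
  simpa [Function.comp_def, hq, Nat.mul_div_cancel_left _ hd, mul_assoc] using hs

end Fermat.Agent.Newform

end
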