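import Fermat.Agent.Newform.MainLemma
import Fermat.Prelude.Thm_ModularForm_heckeT_slash_eq_self_of_mem_Gamma0
import Fermat.Prelude.Thm_ModularForm_sturm_bound_Gamma0

/-!
# The main lemma for an arbitrary finite set of primes

A cusp form on `Γ₀(M)` supported on multiples of a prime `ℓ ∤ M` vanishes; hence primes not
dividing the level do not contribute to the main lemma.
-/

set_option autoImplicit false

noncomputable section

open UpperHalfPlane CongruenceSubgroup ModularGroup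
open scoped MatrixGroups ModularForm Manifold

namespace Fermat.Agent.Newform

variable {k : ℤ} {φ : ℍ → ℂ}

theorem HasQ.fun_eq {ψ : ℍ → ℂ} {c : ℕ → ℂ} (h : HasQ φ c) (h' : HasQ ψ c) : φ = ψ :=
  funext fun τ => (h τ).unique (h' τ)

theorem slash_SL_inv_of_slash_eq {γ : SL(2, ℤ)} (h : φ ∣[k] γ = φ) : φ ∣[k] γ⁻¹ = φ := by
  conv_lhs => rw [← h]
  rw [← SlashAction.slash_mul, mul_inv_cancel, SlashAction.slash_one]

theorem slash_T_zpow_of_slash_T (h : φ ∣[k] T = φ) (j : ℤ) : φ ∣[k] (T ^ j) = φ := by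
  induction j using Int.induction_on with
  | zero => simp
  | succ j ih => rw [zpow_add_one, SlashAction.slash_mul, ih, h]
  | pred j ih => rw [zpow_sub_one, SlashAction.slash_mul, ih, slash_SL_inv_of_slash_eq h]

theorem T_zpow_mem_Gamma0 (M : ℕ) (j : ℤ) : T ^ j ∈ Gamma0 M := by
  rw [mem_Gamma0_iff, (T_zpow_apply j).2.2.1]
  exact dvd_zero _

/-- Averaging over `τ ↦ τ + j/p` sends level `M` to any multiple of `M` and `p²`. -/
theorem avgU_slash_eq_self {M M' p : ℕ} (hp : 0 < p) (hM : M ∣ M') (hp2 : p ^ 2 ∣ M')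
    (h : ∀ γ ∈ Gamma0 M, φ ∣[k] γ = φ) {γ : SL(2, ℤ)} (hγ : γ ∈ Gamma0 M') :
    avgU k p φ ∣[k] γ = avgU k p φ := by
  have hp' : NeZero p := ⟨hp.ne'⟩
  have hc := mem_Gamma0_iff.mp hγ
  obtain ⟨e, he⟩ : (p : ℤ) ^ 2 ∣ γ 1 0 :=
    (show ((p : ℤ) ^ 2) ∣ (M' : ℤ) from by exact_mod_cast hp2).trans hc
  have hd := det_SL γ
  have had : ((γ 0 0 : ℤ) : ZMod p) * (γ 1 1 : ℤ) = 1 := by
    have := congrArg (Int.cast : ℤ → ZMod p) hd
    rw [he] at this
    simpa using this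
  set perm : ZMod p ≃ ZMod p :=
    { toFun := fun x => x * ((γ 1 1 : ℤ) : ZMod p) ^ 2
      invFun := fun x => x * ((γ 0 0 : ℤ) : ZMod p) ^ 2
      left_inv := fun x => by
        simp only
        rw [mul_assoc, ← mul_pow, mul_comm ((γ 1 1 : ℤ) : ZMod p), had, one_pow, mul_one]
      right_inv := fun x => by
        simp only
        rw [mul_assoc, ← mul_pow, had, one_pow, mul_one] } with hperm
  have key : ∀ x : ZMod p, (φ ∣[k] qm 1 ((x.val : ℚ) / p) 0 1) ∣[k] γ =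
      φ ∣[k] qm 1 (((perm x).val : ℚ) / p) 0 1 := by
    intro x
    set j : ℤ := (x.val : ℤ) with hj
    set j' : ℤ := ((perm x).val : ℤ) with hj'
    obtain ⟨f, hf⟩ : (p : ℤ) ∣ j * γ 1 1 - j' * γ 0 0 := by
      rw [← ZMod.intCast_zmod_eq_zero_iff_dvd]
      push_cast
      rw [hj, hj', Int.cast_natCast, Int.cast_natCast, ZMod.natCast_zmod_val, ZMod.natCast_zmod_val,
        hperm]
      simp only [Equiv.coe_fn_mk]
      linear_combination (-(x * ((γ 1 1 : ℤ) : ZMod p))) * had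
    have hdet : (γ 0 0 + j * p * e) * (γ 1 1 - p * e * j') -
        (γ 0 1 + f - j * j' * e) * γ 1 0 = 1 := by
      rw [he] at hd ⊢
      linear_combination hd + (p : ℤ) * e * hf
    set γ' := slMk _ _ _ _ hdet with hγ'
    have hmem : γ' ∈ Gamma0 M := by
      rw [mem_Gamma0_iff]
      exact (Int.natCast_dvd_natCast.mpr hM).trans hc
    have hdQ : ((γ 0 0 : ℤ) : ℚ) * (γ 1 1 : ℤ) - (γ 0 1 : ℤ) * (γ 1 0 : ℤ) = 1 := by
      exact_mod_cast hd
    have e1 : qm 1 ((x.val : ℚ) / p) 0 1 * (γ : GL (Fin 2) ℝ) =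
        (γ' : GL (Fin 2) ℝ) * qm 1 (((perm x).val : ℚ) / p) 0 1 := by
      have hdet' : ((γ 0 0 + j * p * e : ℤ) : ℚ) * ((γ 1 1 - p * e * j' : ℤ) : ℚ) -
          ((γ 0 1 + f - j * j' * e : ℤ) : ℚ) * ((γ 1 0 : ℤ) : ℚ) = 1 := by exact_mod_cast hdet
      rw [hγ', ← qm_slMk hdet, qm_SL γ, qm_mul (by simp) (by rw [hdQ]; exact one_ne_zero),
        qm_mul (by rw [hdet']; exact one_ne_zero) (by simp)]
      have hjq : ((j : ℤ) : ℚ) = (x.val : ℚ) := by simp [hj]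
      have hjq' : ((j' : ℤ) : ℚ) = ((perm x).val : ℚ) := by simp [hj']
      have heq : ((γ 1 0 : ℤ) : ℚ) = (p : ℚ) ^ 2 * e := by exact_mod_cast he
      have hfq : (j : ℚ) * (γ 1 1 : ℤ) - (j' : ℚ) * (γ 0 0 : ℤ) = (p : ℚ) * f := by
        exact_mod_cast hf
      simp only [hjq, hjq'] at hfq
      congr 1 <;> push_cast [hjq, hjq', heq] <;> field_simp <;>
        first | ring1 | linear_combination hfq
    rw [ModularForm.SL_slash _ γ, ← SlashAction.slash_mul, e1, SlashAction.slash_mul,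
      ← ModularForm.SL_slash, h γ' hmem]
  have hsum : ∀ F : ℕ → ℍ → ℂ, ∑ j ∈ Finset.range p, F j = ∑ x : ZMod p, F x.val := by
    intro F
    refine Finset.sum_nbij' (fun j : ℕ => (j : ZMod p)) (fun x : ZMod p => x.val)
      (fun _ _ => Finset.mem_univ _) (fun x _ => Finset.mem_range.mpr x.val_lt) (fun j hj => ?_)
      (fun x _ => ZMod.natCast_zmod_val x) (fun j hj => ?_)
    · exact ZMod.val_cast_of_lt (Finset.mem_range.mp hj)
    · rw [ZMod.val_cast_of_lt (Finset.mem_range.mp hj)]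
  rw [avgU, hsum, ModularForm.SL_smul_slash, SlashAction.sum_slash, Finset.sum_congr rfl fun x _ =>
    key x, Equiv.sum_comp perm fun x : ZMod p => φ ∣[k] qm 1 ((x.val : ℚ) / p) 0 1]

theorem projU_slash_eq_self {M : ℕ} (h : ∀ γ ∈ Gamma0 M, φ ∣[k] γ = φ) :
    ∀ {l : List ℕ}, (∀ p ∈ l, 0 < p) → ∀ {M' : ℕ}, M ∣ M' → (∀ p ∈ l, p ^ 2 ∣ M') →
      ∀ γ ∈ Gamma0 M', projU k l φ ∣[k] γ = projU k l φ
  | [], _, _, hM, _ => fun γ hγ => h γ <| mem_Gamma0_iff.mpr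
      ((Int.natCast_dvd_natCast.mpr hM).trans (mem_Gamma0_iff.mp hγ))
  | p :: l, hl, M', hM, hl2 => fun γ hγ => by
    have ih := projU_slash_eq_self h (fun q hq => hl q (List.mem_cons_of_mem _ hq)) hM
      fun q hq => hl2 q (List.mem_cons_of_mem _ hq)
    rw [projU, sub_eq_add_neg, SlashAction.add_slash, SlashAction.neg_slash,
      avgU_slash_eq_self (hl p (List.mem_cons_self ..)) dvd_rfl (hl2 p (List.mem_cons_self ..))
        ih hγ,
      ih γ hγ]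

/-- A cusp form supported on multiples of a prime not dividing the level vanishes. -/
theorem eq_zero_of_supported_on_prime {M : ℕ} [NeZero M] (f : CuspForm (Gamma0 M) k) {ℓ : ℕ}
    (hℓ : ℓ.Prime) (hℓM : ¬ ℓ ∣ M)
    (h : ∀ n, ¬ ℓ ∣ n → ModularFormClass.qCoeff f n = 0) : f = 0 := by
  have hℓq : (ℓ : ℚ) ≠ 0 := by exact_mod_cast hℓ.ne_zero
  have hℓpos : (0 : ℚ) < ℓ := by exact_mod_cast hℓ.pos
  -- `f` is invariant under `τ ↦ τ + 1/ℓ`
  have htrans : (f : ℍ → ℂ) ∣[k] qm 1 (1 / (ℓ : ℚ)) 0 1 = f := by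
    refine HasQ.fun_eq (((hasQ_cuspForm f).translate k (1 / (ℓ : ℚ))).congr fun n => ?_)
      (hasQ_cuspForm f)
    by_cases hn : ℓ ∣ n
    · obtain ⟨m, rfl⟩ := hn
      have : Function.Periodic.qParam 1 (((1 / (ℓ : ℚ)) : ℚ) : ℂ) ^ (ℓ * m) = 1 := by
        have hz : (ℓ : ℂ) ≠ 0 := by exact_mod_cast hℓ.ne_zero
        rw [pow_mul, Function.Periodic.qParam, ← Complex.exp_nat_mul]
        have : (ℓ : ℂ) * (2 * Real.pi * Complex.I * (((1 / (ℓ : ℚ)) : ℚ) : ℂ) / ((1 : ℝ) : ℂ)) =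
            2 * Real.pi * Complex.I := by
          push_cast; field_simp
        rw [this, Complex.exp_two_pi_mul_I, one_pow]
      rw [this, mul_one]
    · rw [h n hn, zero_mul]
  set ψ : ℍ → ℂ := (f : ℍ → ℂ) ∣[k] qm 1 0 0 (ℓ : ℚ) with hψ
  have hψT : ψ ∣[k] T = ψ := by
    rw [hψ, ModularForm.SL_slash _ T, ← SlashAction.slash_mul, qm_SL T]
    have e : qm 1 0 0 (ℓ : ℚ) * qm (T 0 0 : ℤ) (T 0 1 : ℤ) (T 1 0 : ℤ) (T 1 1 : ℤ) =
        qm 1 (1 / (ℓ : ℚ)) 0 1 * qm 1 0 0 (ℓ : ℚ) := by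
      obtain ⟨h1, h2, h3, h4⟩ := T_zpow_apply 1
      rw [zpow_one] at h1 h2 h3 h4
      rw [h1, h2, h3, h4, qm_mul (by simpa using hℓq) (by simp),
        qm_mul (by simp) (by simpa using hℓq)]
      congr 1 <;> simp [hℓq]
    rw [e, SlashAction.slash_mul, htrans]
  have hψinv : ∀ γ ∈ Gamma0 M, ψ ∣[k] γ = ψ := by
    intro γ hγ
    obtain ⟨i, j, hij⟩ := exists_T_mul_mul_T_mem hℓ (dvd_refl ℓ) (x := γ)
      (by simp [Nat.div_self hℓ.pos])
    set γ₀ := T ^ (i * ((ℓ / ℓ : ℕ) : ℤ)) * γ * T ^ (j * ((ℓ / ℓ : ℕ) : ℤ)) with hγ₀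
    have hmem : γ₀ ∈ Gamma0 M :=
      mul_mem (mul_mem (T_zpow_mem_Gamma0 M _) hγ) (T_zpow_mem_Gamma0 M _)
    obtain ⟨b', hb'⟩ : (ℓ : ℤ) ∣ γ₀ 0 1 := hij
    have hd := det_SL γ₀
    have hd' : γ₀ 0 0 * γ₀ 1 1 - b' * ((ℓ : ℤ) * γ₀ 1 0) = 1 := by rw [hb'] at hd; linarith
    set γ₁ := slMk (γ₀ 0 0) b' ((ℓ : ℤ) * γ₀ 1 0) (γ₀ 1 1) hd' with hγ₁
    have hmem1 : γ₁ ∈ Gamma0 M := by
      rw [mem_Gamma0_iff]
      exact dvd_mul_of_dvd_right (mem_Gamma0_iff.mp hmem) _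
    have h0 : ψ ∣[k] γ₀ = ψ := by
      rw [hψ, ModularForm.SL_slash _ γ₀, ← SlashAction.slash_mul, qm_SL γ₀]
      have hdQ : ((γ₀ 0 0 : ℤ) : ℚ) * (γ₀ 1 1 : ℤ) - (γ₀ 0 1 : ℤ) * (γ₀ 1 0 : ℤ) = 1 := by
        exact_mod_cast hd
      have hdQ' : ((γ₀ 0 0 : ℤ) : ℚ) * (γ₀ 1 1 : ℤ) -
          (b' : ℤ) * (((ℓ : ℤ) * γ₀ 1 0 : ℤ) : ℚ) = 1 := by exact_mod_cast hd'
      have e : qm 1 0 0 (ℓ : ℚ) * qm (γ₀ 0 0 : ℤ) (γ₀ 0 1 : ℤ) (γ₀ 1 0 : ℤ) (γ₀ 1 1 : ℤ) =
          (γ₁ : GL (Fin 2) ℝ) * qm 1 0 0 (ℓ : ℚ) := by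
        rw [hγ₁, ← qm_slMk hd', qm_mul (by simpa using hℓq) (by rw [hdQ]; exact one_ne_zero),
          qm_mul (by rw [hdQ']; exact one_ne_zero) (by simpa using hℓq)]
        congr 1 <;> simp [hb', mul_comm]
      rw [e, SlashAction.slash_mul, ← ModularForm.SL_slash, cuspForm_slash_SL f hmem1]
    have e2 : γ = (T ^ (i * ((ℓ / ℓ : ℕ) : ℤ)))⁻¹ * γ₀ * (T ^ (j * ((ℓ / ℓ : ℕ) : ℤ)))⁻¹ := by
      rw [hγ₀]; group
    rw [e2, SlashAction.slash_mul, SlashAction.slash_mul, ← zpow_neg, ← zpow_neg,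
      slash_T_zpow_of_slash_T hψT, h0, slash_T_zpow_of_slash_T hψT]
  -- all `ψ(ℓ^j τ)` have level `M`
  set g : ℕ → ℍ → ℂ := fun j => ψ ∣[k] qm ((ℓ : ℚ) ^ j) 0 0 1 with hg
  have hg1 : g 1 = (ℓ : ℂ) ^ (k - 2) • (f : ℍ → ℂ) := by
    rw [hg, hψ]
    simp only [pow_one]
    rw [← SlashAction.slash_mul, qm_mul (by simpa using hℓq) (by simpa using hℓq)]
    simpa using slash_qm_scalar k hℓpos (f : ℍ → ℂ)
  have hrec : ∀ j, ModularForm.heckeT k ℓ (g (j + 1)) =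
      ((ℓ : ℂ) * (ℓ : ℂ) ^ (k - 2)) • g j + g (j + 2) := by
    intro j
    rw [ModularForm.heckeT_def]
    have hdiag : ModularForm.heckeDiagMatrix ℓ = qm (ℓ : ℚ) 0 0 1 := by
      apply Units.ext
      rw [ModularForm.val_heckeDiagMatrix hℓ.ne_zero, val_qm (by simpa using hℓq)]
      simp
    have hterm : ∀ i : ℕ, g (j + 1) ∣[k] ModularForm.heckeMatrix ℓ i = (ℓ : ℂ) ^ (k - 2) • g j := by
      intro i
      have hmat : ModularForm.heckeMatrix ℓ i = qm 1 (i : ℚ) 0 (ℓ : ℚ) := by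
        apply Units.ext
        rw [ModularForm.val_heckeMatrix hℓ.ne_zero, val_qm (by simpa using hℓq)]
        simp
      set t : ℤ := (ℓ : ℤ) ^ j * i with ht
      have e : qm ((ℓ : ℚ) ^ (j + 1)) 0 0 1 * qm 1 (i : ℚ) 0 (ℓ : ℚ) =
          qm (ℓ : ℚ) 0 0 (ℓ : ℚ) * qm 1 (t : ℚ) 0 1 * qm ((ℓ : ℚ) ^ j) 0 0 1 := by
        rw [qm_mul (by simp [hℓq]) (by simpa using hℓq), qm_mul (by simp [hℓq]) (by simp),
          qm_mul (by simp [hℓq]) (by simp [hℓq])]
        congr 1 <;> simp [ht, pow_succ']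
        ring
      have hT : qm 1 (t : ℚ) 0 1 = ((T ^ t : SL(2, ℤ)) : GL (Fin 2) ℝ) := by
        obtain ⟨h1, h2, h3, h4⟩ := T_zpow_apply t
        rw [qm_SL, h1, h2, h3, h4]
        simp
      rw [hmat, hg]
      simp only
      rw [← SlashAction.slash_mul, e, SlashAction.slash_mul, SlashAction.slash_mul,
        slash_qm_scalar k hℓpos, hT, ← ModularForm.SL_slash, ModularForm.SL_smul_slash,
        slash_T_zpow_of_slash_T hψT, smul_slash_qm k (by simp; positivity)]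
      simp
    rw [Finset.sum_congr rfl fun i _ => hterm i, Finset.sum_const, Finset.card_range,
      ← Nat.cast_smul_eq_nsmul ℂ, smul_smul, hdiag, hg]
    simp only
    congr 1
    rw [← SlashAction.slash_mul, qm_mul (by simp [hℓq]) (by simpa using hℓq)]
    simp [pow_succ]
  have hinv : ∀ j, ∀ γ ∈ Gamma0 M, g j ∣[k] γ = g j := by
    intro j
    induction j using Nat.strong_induction_on with
    | _ j ih =>
      match j with
      | 0 => intro γ hγ; simpa [hg, qm_one] using hψinv γ hγ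
      | 1 => intro γ hγ; rw [hg1, ModularForm.SL_smul_slash, cuspForm_slash_SL f hγ]
      | j + 2 =>
        intro γ hγ
        have hT := ModularForm.heckeT_slash_eq_self_of_mem_Gamma0 (N := M) k hℓ hℓM (f := g (j + 1))
          (by rintro _ ⟨δ, hδ, rfl⟩; exact ih (j + 1) (by omega) δ hδ) _ ⟨γ, hγ, rfl⟩
        change ModularForm.heckeT k ℓ (g (j + 1)) ∣[k] γ = ModularForm.heckeT k ℓ (g (j + 1)) at hT
        rw [hrec, SlashAction.add_slash, ModularForm.SL_smul_slash, ih j (by omega) γ hγ] at hT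
        exact add_left_cancel hT
  -- Sturm
  have hcusp : IsCuspFun k ψ := (IsCuspFun.of_cuspForm f).slash_qm _ _ _ _
  set B := (k * (Gamma0 M).index).toNat / 12 with hB
  set J := B + 1 with hJ
  let G := (hcusp.slash_qm ((ℓ : ℚ) ^ J) 0 0 1).toCuspForm (M := M) (hinv J)
  have hcoef : ∀ n ≤ B, ModularFormClass.qCoeff G n = 0 := by
    intro n hn
    have hψQ : HasQ ψ fun n => ModularFormClass.qCoeff (hcusp.toCuspForm (M := M) hψinv) n :=
      hasQ_cuspForm (hcusp.toCuspForm (M := M) hψinv)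
    have hd := hψQ.dilate k (d := ℓ ^ J) (pow_pos hℓ.pos _)
    have hG : HasQ ⇑G (fun n => if ℓ ^ J ∣ n then ((ℓ ^ J : ℕ) : ℂ) ^ (k - 1) *
        ModularFormClass.qCoeff (hcusp.toCuspForm (M := M) hψinv) (n / ℓ ^ J) else 0) := by
      simpa [G] using hd
    rw [hG.qCoeff_eq]
    split_ifs with hdvd
    · have : n = 0 := Nat.eq_zero_of_dvd_of_lt hdvd
        (lt_of_le_of_lt hn (lt_trans (by omega) (Nat.lt_pow_self hℓ.one_lt)))
      have h0 := qCoeff_zero_cuspForm (hcusp.toCuspForm (M := M) hψinv)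
      rw [IsCuspFun.coe_toCuspForm] at h0
      simp [this, h0]
    · rfl
  have hGz : (ModularFormClass.modularForm G : ModularForm (Gamma0 M) k) = 0 :=
    ModularForm.sturm_bound_Gamma0 M _ fun n hn => hcoef n hn
  have hz : (G : ℍ → ℂ) = 0 := by
    have := congrArg (fun F : ModularForm (Gamma0 M) k => (F : ℍ → ℂ)) hGz
    simpa using this
  have hψ0 : ψ = 0 := by
    simp only [G, IsCuspFun.coe_toCuspForm, SlashAction.slash_eq_zero_iff] at hz
    exact hz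
  rw [hψ, SlashAction.slash_eq_zero_iff] at hψ0
  exact DFunLike.coe_injective (by simpa using hψ0)

theorem qCoeff_zero_form {M : ℕ} [NeZero M] (n : ℕ) :
    ModularFormClass.qCoeff (0 : CuspForm (Gamma0 M) k) n = 0 := by
  refine HasQ.qCoeff_eq (c := fun _ => 0) ?_ n
  simpa using hasQ_zero

theorem qCoeff_eq_zero_of_not_dvd_level :
    ∀ (l : List ℕ), l.Nodup → (∀ q ∈ l, q.Prime) → ∀ {M : ℕ} [NeZero M]
      (f : CuspForm (Gamma0 M) k), (∀ q ∈ l, ¬ q ∣ M) →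
      (∀ n, (∀ q ∈ l, ¬ q ∣ n) → ModularFormClass.qCoeff f n = 0) → f = 0 := by
  intro l
  induction l with
  | nil =>
    intro _ _ M _ f _ h
    refine DFunLike.coe_injective (HasQ.fun_eq (hasQ_cuspForm f) (ψ := 0) ?_)
    exact hasQ_zero.congr fun n => by simp [h n (by simp)]
  | cons ℓ l ih =>
    intro hnd hpr M _ f hM h
    refine ih (List.nodup_cons.mp hnd).2 (fun q hq => hpr q (List.mem_cons_of_mem _ hq)) f
      (fun q hq => hM q (List.mem_cons_of_mem _ hq)) fun n hn => ?_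
    set M' := M * (l.map fun q => q ^ 2).prod with hM'
    have hℓ := hpr ℓ (List.mem_cons_self ..)
    have hprod : (l.map fun q => q ^ 2).prod ≠ 0 := by
      rw [Ne, List.prod_eq_zero_iff, List.mem_map]
      rintro ⟨q, hq, hq0⟩
      exact (hpr q (List.mem_cons_of_mem _ hq)).ne_zero (pow_eq_zero_iff two_ne_zero |>.mp hq0)
    have : NeZero M' := ⟨Nat.mul_ne_zero (NeZero.ne M) hprod⟩
    have hinv : ∀ γ ∈ Gamma0 M', projU k l (f : ℍ → ℂ) ∣[k] γ = projU k l (f : ℍ → ℂ) :=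
      projU_slash_eq_self (fun γ hγ => cuspForm_slash_SL f hγ)
        (fun q hq => (hpr q (List.mem_cons_of_mem _ hq)).pos) (dvd_mul_right _ _)
        fun q hq => (List.dvd_prod (List.mem_map_of_mem (f := fun q : ℕ => q ^ 2) hq)).trans
          (dvd_mul_left _ _)
    let F := ((IsCuspFun.of_cuspForm f).projU l).toCuspForm (M := M') hinv
    have hF : HasQ ⇑F (fun n => if ∀ p ∈ l, ¬ p ∣ n then ModularFormClass.qCoeff f n else 0) :=
      HasQ.projU (hasQ_cuspForm f) fun q hq => (hpr q (List.mem_cons_of_mem _ hq)).pos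
    have hℓM' : ¬ ℓ ∣ M' := by
      intro hd
      rcases hℓ.dvd_mul.mp hd with hd | hd
      · exact hM ℓ (List.mem_cons_self ..) hd
      · obtain ⟨a, ha, hda⟩ := (Prime.dvd_prod_iff hℓ.prime).mp hd
        obtain ⟨q, hq, rfl⟩ := List.mem_map.mp ha
        have := (Nat.prime_dvd_prime_iff_eq hℓ (hpr q (List.mem_cons_of_mem _ hq))).mp
          (hℓ.dvd_of_dvd_pow hda)
        exact (List.nodup_cons.mp hnd).1 (this ▸ hq)
    have hF0 : F = 0 := eq_zero_of_supported_on_prime F hℓ hℓM' fun m hm => by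
      rw [hF.qCoeff_eq]
      split_ifs with hc
      · exact h m fun q hq => by
          rcases List.mem_cons.mp hq with rfl | hq
          · exact hm
          · exact hc q hq
      · rfl
    have := hF.qCoeff_eq n
    rw [if_pos hn, hF0, qCoeff_zero_form] at this
    exact this.symm

/-- The coefficients of such a form vanish away from the primes of `P` dividing the level. -/
theorem qCoeff_eq_zero_of_primes {N : ℕ} [NeZero N] (f : CuspForm (Gamma0 N) k) (P : Finset ℕ)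
    (hP : ∀ p ∈ P, p.Prime)
    (h : ∀ n : ℕ, (∀ p ∈ P, ¬ p ∣ n) → ModularFormClass.qCoeff f n = 0) (n : ℕ)
    (hn : ∀ p ∈ P, p ∣ N → ¬ p ∣ n) : ModularFormClass.qCoeff f n = 0 := by
  classical
  set l := (P.filter (· ∣ N)).toList with hl
  have hmem : ∀ p, p ∈ l ↔ p ∈ P ∧ p ∣ N := fun p => by simp [hl]
  set M' := N * (l.map fun q => q ^ 2).prod with hM'
  have hprod : (l.map fun q => q ^ 2).prod ≠ 0 := by
    rw [Ne, List.prod_eq_zero_iff, List.mem_map]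
    rintro ⟨q, hq, hq0⟩
    exact (hP q ((hmem q).mp hq).1).ne_zero (pow_eq_zero_iff two_ne_zero |>.mp hq0)
  have : NeZero M' := ⟨Nat.mul_ne_zero (NeZero.ne N) hprod⟩
  let F := ((IsCuspFun.of_cuspForm f).projU l).toCuspForm (M := M')
    (projU_slash_eq_self (fun γ hγ => cuspForm_slash_SL f hγ)
      (fun q hq => (hP q ((hmem q).mp hq).1).pos) (dvd_mul_right _ _)
      fun q hq => (List.dvd_prod (List.mem_map_of_mem (f := fun q : ℕ => q ^ 2) hq)).trans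
        (dvd_mul_left _ _))
  have hF : HasQ ⇑F (fun n => if ∀ p ∈ l, ¬ p ∣ n then ModularFormClass.qCoeff f n else 0) :=
    HasQ.projU (hasQ_cuspForm f) fun q hq => (hP q ((hmem q).mp hq).1).pos
  have hF0 : F = 0 := by
    refine qCoeff_eq_zero_of_not_dvd_level (P.filter (¬ · ∣ N)).toList (Finset.nodup_toList _)
      (fun q hq => hP q (Finset.mem_filter.mp (Finset.mem_toList.mp hq)).1) F (fun q hq hd => ?_)
      fun m hm => ?_
    · obtain ⟨hqP, hqN⟩ := Finset.mem_filter.mp (Finset.mem_toList.mp hq)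
      have hqpr := hP q hqP
      rcases hqpr.dvd_mul.mp hd with hd | hd
      · exact hqN hd
      · obtain ⟨a, ha, hda⟩ := (Prime.dvd_prod_iff hqpr.prime).mp hd
        obtain ⟨p, hp, rfl⟩ := List.mem_map.mp ha
        obtain ⟨hpP, hpN⟩ := (hmem p).mp hp
        exact hqN ((Nat.prime_dvd_prime_iff_eq hqpr (hP p hpP)).mp (hqpr.dvd_of_dvd_pow hda) ▸ hpN)
    · rw [hF.qCoeff_eq]
      split_ifs with hc
      · refine h m fun p hp => ?_
        by_cases hpN : p ∣ N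
        · exact hc p ((hmem p).mpr ⟨hp, hpN⟩)
        · exact hm p (Finset.mem_toList.mpr (Finset.mem_filter.mpr ⟨hp, hpN⟩))
      · rfl
  have := hF.qCoeff_eq n
  rw [if_pos fun p hp => hn p ((hmem p).mp hp).1 ((hmem p).mp hp).2, hF0, qCoeff_zero_form] at this
  exact this.symm

/-- **Atkin–Lehner main lemma**. -/
theorem exists_sum_dilate {N : ℕ} [NeZero N] (f : CuspForm (Gamma0 N) k) (P : Finset ℕ)
    (hP : ∀ p ∈ P, p.Prime)
    (h : ∀ n : ℕ, (∀ p ∈ P, ¬ p ∣ n) → ModularFormClass.qCoeff f n = 0) :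
    ∃ g : ℕ → ℍ → ℂ, (∀ p ∈ P.filter (· ∣ N), IsCuspFun k (g p) ∧
        ∀ γ ∈ Gamma0 (N / p), g p ∣[k] γ = g p) ∧
      (f : ℍ → ℂ) = ∑ p ∈ P.filter (· ∣ N), g p ∣[k] qm (p : ℕ) 0 0 1 :=
  exists_sum_dilate_of_primes_dvd f _
    (fun p hp => ⟨hP p (Finset.mem_filter.mp hp).1, (Finset.mem_filter.mp hp).2⟩)
    fun n hn => qCoeff_eq_zero_of_primes f P hP h n
      fun p hp hpN => hn p (Finset.mem_filter.mpr ⟨hp, hpN⟩)

end Fermat.Agent.Newform

end
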