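import Mathlib

/-!
# Functions on `ℍ` vanishing at every rational cusp, and slashing by rational matrices
-/

set_option autoImplicit false

noncomputable section

open UpperHalfPlane CongruenceSubgroup Matrix.SpecialLinearGroup
open scoped MatrixGroups ModularForm Manifold

namespace Fermat.Agent.Newform

/-- The base change `GL₂(ℚ) → GL₂(ℝ)`. -/
def rgl : GL (Fin 2) ℚ →* GL (Fin 2) ℝ := Matrix.GeneralLinearGroup.map (Rat.castHom ℝ)

/-- The rational matrix `(a b; c d)` (junk value `1` if singular). -/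
def qgl (a b c d : ℚ) : GL (Fin 2) ℚ :=
  if h : a * d - b * c ≠ 0 then
    Matrix.GeneralLinearGroup.mkOfDetNeZero !![a, b; c, d] (by rwa [Matrix.det_fin_two_of])
  else 1

/-- The real matrix attached to rational `(a b; c d)`. -/
def qm (a b c d : ℚ) : GL (Fin 2) ℝ := rgl (qgl a b c d)

variable {a b c d a' b' c' d' : ℚ}

theorem val_qm (h : a * d - b * c ≠ 0) :
    ((qm a b c d : GL (Fin 2) ℝ) : Matrix (Fin 2) (Fin 2) ℝ) = !![(a : ℝ), b; c, d] := by
  ext i j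
  fin_cases i <;> fin_cases j <;>
    simp [qm, rgl, qgl, h, Matrix.GeneralLinearGroup.mkOfDetNeZero]

theorem qm_one : qm 1 0 0 1 = 1 := by
  apply Units.ext
  rw [val_qm (by norm_num)]
  ext i j
  fin_cases i <;> fin_cases j <;> simp

/-- Multiplication of `qm`. -/
theorem qm_mul (h : a * d - b * c ≠ 0) (h' : a' * d' - b' * c' ≠ 0) :
    qm a b c d * qm a' b' c' d' =
      qm (a * a' + b * c') (a * b' + b * d') (c * a' + d * c') (c * b' + d * d') := by
  have h'' : (a * a' + b * c') * (c * b' + d * d') - (a * b' + b * d') * (c * a' + d * c') ≠ 0 := by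
    have e : (a * a' + b * c') * (c * b' + d * d') - (a * b' + b * d') * (c * a' + d * c') =
        (a * d - b * c) * (a' * d' - b' * c') := by ring
    rw [e]; exact mul_ne_zero h h'
  apply Units.ext
  rw [Units.val_mul, val_qm h, val_qm h', val_qm h'']
  simp

theorem qm_SL (γ : SL(2, ℤ)) :
    (γ : GL (Fin 2) ℝ) = qm (γ 0 0 : ℤ) (γ 0 1 : ℤ) (γ 1 0 : ℤ) (γ 1 1 : ℤ) := by
  have h : ((γ 0 0 : ℤ) : ℚ) * (γ 1 1 : ℤ) - (γ 0 1 : ℤ) * (γ 1 0 : ℤ) ≠ 0 := by
    have := γ.det_coe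
    rw [Matrix.det_fin_two] at this
    norm_cast
    omega
  apply Units.ext
  rw [val_qm h]
  ext i j
  fin_cases i <;> fin_cases j <;> simp

/-- An element of `SL₂(ℤ)` with given entries. -/
def slMk (a b c d : ℤ) (h : a * d - b * c = 1) : SL(2, ℤ) :=
  ⟨!![a, b; c, d], by rw [Matrix.det_fin_two_of]; exact h⟩

theorem qm_slMk {a b c d : ℤ} (h : a * d - b * c = 1) :
    qm a b c d = (slMk a b c d h : GL (Fin 2) ℝ) := by
  rw [qm_SL]
  simp [slMk]

theorem val_det_qm (h : a * d - b * c ≠ 0) :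
    ((qm a b c d).det.val : ℝ) = (a * d - b * c : ℚ) := by
  rw [Matrix.GeneralLinearGroup.val_det_apply, val_qm h, Matrix.det_fin_two_of]
  push_cast
  ring

theorem σ_qm (h : 0 < a * d - b * c) : σ (qm a b c d) = .refl ℝ ℂ := by
  rw [σ, if_pos]
  rw [val_det_qm h.ne']
  exact_mod_cast h

/-- Slash of a scalar multiple of the identity. -/
theorem slash_qm_scalar (k : ℤ) {l : ℚ} (hl : 0 < l) (φ : ℍ → ℂ) :
    φ ∣[k] qm l 0 0 l = (l : ℂ) ^ (k - 2) • φ := by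
  have h : (0 : ℚ) < l * l - 0 * 0 := by simpa using mul_pos hl hl
  ext τ
  have hτ : qm l 0 0 l • τ = τ := by
    ext1
    rw [coe_smul_of_det_pos (by rw [val_det_qm h.ne']; exact_mod_cast h)]
    have : (l : ℂ) ≠ 0 := by exact_mod_cast hl.ne'
    simp [num, denom, val_qm h.ne']
    field_simp
  rw [ModularForm.slash_apply, σ_qm h, hτ, val_det_qm h.ne']
  have : (l : ℂ) ≠ 0 := by exact_mod_cast hl.ne'
  have hl' : |((l * l - 0 * 0 : ℚ) : ℝ)| = (l : ℝ) * l := by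
    rw [abs_of_pos (by exact_mod_cast h)]; push_cast; ring
  simp only [denom, val_qm h.ne', hl', Pi.smul_apply, smul_eq_mul]
  simp only [Matrix.cons_val', Matrix.cons_val_zero, Matrix.cons_val_one, Matrix.cons_val_fin_one,
    Matrix.of_apply, ContinuousAlgEquiv.refl_apply]
  push_cast
  rw [zero_mul, zero_add, mul_zpow, mul_comm (φ τ) _, mul_assoc ((l : ℂ) ^ (k - 1)) _ (φ τ)]
  rw [show k - 2 = (k - 1) + ((k - 1) + -k) by ring, zpow_add₀ this, zpow_add₀ this]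
  ring

/-- Upper triangular slash. -/
theorem slash_qm_upper (k : ℤ) (φ : ℍ → ℂ) (ha : 0 < a) (hd : 0 < d) (τ : ℍ) :
    ∃ τ' : ℍ, (τ' : ℂ) = ((a : ℂ) * τ + b) / d ∧
      (φ ∣[k] qm a b 0 d) τ = ((a : ℂ) * d) ^ (k - 1) * (d : ℂ) ^ (-k) * φ τ' := by
  have h : (0 : ℚ) < a * d - b * 0 := by simpa using mul_pos ha hd
  refine ⟨qm a b 0 d • τ, ?_, ?_⟩
  · rw [coe_smul_of_det_pos (by rw [val_det_qm h.ne']; exact_mod_cast h)]
    simp [num, denom, val_qm h.ne']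
  · rw [ModularForm.slash_apply, σ_qm h, val_det_qm h.ne', abs_of_pos (by exact_mod_cast h)]
    simp only [denom, val_qm h.ne', Matrix.cons_val', Matrix.cons_val_zero, Matrix.cons_val_one,
      Matrix.cons_val_fin_one, Matrix.of_apply, ContinuousAlgEquiv.refl_apply]
    push_cast
    rw [zero_mul, zero_add, mul_zero, sub_zero]
    ring

theorem rgl_smul_slash (k : ℤ) (g : GL (Fin 2) ℝ) (φ : ℍ → ℂ) (r : ℂ) (h : 0 < g.det.val) :
    (r • φ) ∣[k] g = r • (φ ∣[k] g) := by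
  rw [ModularForm.smul_slash, σ, if_pos h, ContinuousAlgEquiv.refl_apply]

theorem smul_slash_qm (k : ℤ) (h : 0 < a * d - b * c) (φ : ℍ → ℂ) (r : ℂ) :
    (r • φ) ∣[k] qm a b c d = r • (φ ∣[k] qm a b c d) := by
  rw [ModularForm.smul_slash, σ_qm h, ContinuousAlgEquiv.refl_apply]

/-- Holomorphic and zero at every rational cusp. -/
structure IsCuspFun (k : ℤ) (φ : ℍ → ℂ) : Prop where
  holo : MDiff φ
  zeroAt : ∀ g : GL (Fin 2) ℚ, IsZeroAtImInfty (φ ∣[k] rgl g)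

namespace IsCuspFun

variable {k : ℤ} {φ ψ : ℍ → ℂ}

theorem zero : IsCuspFun k (0 : ℍ → ℂ) :=
  ⟨mdifferentiable_const, fun g => by
    rw [SlashAction.zero_slash]; exact Filter.zero_zeroAtFilter _⟩

theorem add (hφ : IsCuspFun k φ) (hψ : IsCuspFun k ψ) : IsCuspFun k (φ + ψ) :=
  ⟨hφ.holo.add hψ.holo, fun g => by
    rw [SlashAction.add_slash]; exact (hφ.zeroAt g).add (hψ.zeroAt g)⟩

theorem smul (hφ : IsCuspFun k φ) (r : ℂ) : IsCuspFun k (r • φ) :=
  ⟨hφ.holo.const_smul r, fun g => by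
    rw [ModularForm.smul_slash]; exact Filter.ZeroAtFilter.smul _ (hφ.zeroAt g)⟩

theorem neg (hφ : IsCuspFun k φ) : IsCuspFun k (-φ) := by
  simpa using hφ.smul (-1)

theorem sub (hφ : IsCuspFun k φ) (hψ : IsCuspFun k ψ) : IsCuspFun k (φ - ψ) := by
  simpa [sub_eq_add_neg] using hφ.add hψ.neg

theorem sum {ι : Type*} (s : Finset ι) {Φ : ι → ℍ → ℂ} (h : ∀ i ∈ s, IsCuspFun k (Φ i)) :
    IsCuspFun k (∑ i ∈ s, Φ i) := by
  classical
  induction s using Finset.induction_on with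
  | empty => simpa using zero
  | @insert i t hi ih =>
    rw [Finset.sum_insert hi]
    exact (h i (Finset.mem_insert_self _ _)).add (ih fun j hj => h j (Finset.mem_insert_of_mem hj))

theorem slash_rgl (hφ : IsCuspFun k φ) (g : GL (Fin 2) ℚ) : IsCuspFun k (φ ∣[k] rgl g) :=
  ⟨hφ.holo.slash k _, fun g' => by rw [← SlashAction.slash_mul, ← map_mul]; exact hφ.zeroAt _⟩

/-- `IsCuspFun` is stable under slashing by rational matrices. -/
theorem slash_qm (hφ : IsCuspFun k φ) (a b c d : ℚ) : IsCuspFun k (φ ∣[k] qm a b c d) :=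
  hφ.slash_rgl _

theorem slash_SL (hφ : IsCuspFun k φ) (γ : SL(2, ℤ)) : IsCuspFun k (φ ∣[k] γ) := by
  rw [ModularForm.SL_slash, qm_SL]; exact hφ.slash_qm _ _ _ _

/-- Cusp forms are `IsCuspFun`. -/
theorem of_cuspForm {N : ℕ} [NeZero N] (f : CuspForm (Gamma0 N) k) : IsCuspFun k ⇑f := by
  refine ⟨CuspFormClass.holo f, fun g => ?_⟩
  rw [← OnePoint.isZeroAt_infty_iff, ← OnePoint.IsZeroAt.smul_iff]
  apply CuspFormClass.zero_at_cusps f
  rw [Subgroup.IsArithmetic.isCusp_iff_isCusp_SL2Z, isCusp_SL2Z_iff]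
  exact ⟨g • OnePoint.infty, by rw [← Rat.coe_castHom, OnePoint.map_smul]; rfl⟩

/-- Bundle as a cusp form on `Γ₀(M)`. -/
def toCuspForm (hφ : IsCuspFun k φ) {M : ℕ} [NeZero M]
    (hinv : ∀ γ ∈ Gamma0 M, φ ∣[k] γ = φ) : CuspForm (Gamma0 M) k where
  toFun := φ
  slash_action_eq' := by
    rintro _ ⟨γ, hγ, rfl⟩
    exact hinv γ hγ
  holo' := hφ.holo
  zero_at_cusps' {c} hc := by
    rw [Subgroup.IsArithmetic.isCusp_iff_isCusp_SL2Z] at hc
    rw [OnePoint.isZeroAt_iff_forall_SL2Z hc]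
    intro γ _
    rw [ModularForm.SL_slash, qm_SL]
    exact hφ.zeroAt _

@[simp] theorem coe_toCuspForm (hφ : IsCuspFun k φ) {M : ℕ} [NeZero M]
    (hinv : ∀ γ ∈ Gamma0 M, φ ∣[k] γ = φ) : ⇑(hφ.toCuspForm hinv) = φ := rfl

end IsCuspFun

/-- A cusp form is fixed by its level group. -/
theorem cuspForm_slash_SL {N : ℕ} {k : ℤ} (f : CuspForm (Gamma0 N) k) {γ : SL(2, ℤ)}
    (hγ : γ ∈ Gamma0 N) : (f : ℍ → ℂ) ∣[k] γ = f :=
  SlashInvariantFormClass.slash_action_eq f _ ⟨γ, hγ, rfl⟩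

theorem mem_Gamma0_iff {N : ℕ} {γ : SL(2, ℤ)} : γ ∈ Gamma0 N ↔ (N : ℤ) ∣ γ 1 0 := by
  rw [Gamma0_mem, ZMod.intCast_zmod_eq_zero_iff_dvd]

theorem det_SL (γ : SL(2, ℤ)) : γ 0 0 * γ 1 1 - γ 0 1 * γ 1 0 = 1 := by
  have h := γ.det_coe
  rwa [Matrix.det_fin_two] at h

end Fermat.Agent.Newform

end
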