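import Fermat.Agent.Newform.BadPrimes
import Fermat.Agent.Newform.MultOne

/-!
# `NewformBadPrimeCoeff` for every level

For a weight-two newform of level `N` and a prime `q ∣ N`: `a_q = 0` if `q² ∣ N`, and `a_q² = 1`
otherwise (via the Atkin–Lehner involution and multiplicity one).
-/

set_option autoImplicit false

noncomputable section

open UpperHalfPlane CongruenceSubgroup ModularFormClass
open scoped MatrixGroups ModularForm Manifold

namespace Fermat.Agent.Newform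

variable {N q : ℕ}

/-- A form of level `M ∣ N`, `M ≠ N`, cannot have the same expansion as a newform of level `N`. -/
theorem not_coe_eq_of_isNewform [NeZero N] {f : CuspForm (Gamma0 N) 2} (hf : f.IsNewform) {M : ℕ}
    [NeZero M] (hMN : M ∣ N) (hne : M ≠ N) (G : CuspForm (Gamma0 M) 2) :
    (⇑G : ℍ → ℂ) ≠ ⇑f := by
  intro hG
  have hQ : ∀ n, qCoeff ⇑G n = qCoeff ⇑f n := fun n => by rw [hG]
  have hG0 : G ≠ 0 := fun h0 => hf.ne_zero (DFunLike.coe_injective (by rw [← hG, h0]; simp))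
  obtain ⟨g, hg, hga⟩ := exists_eigenform_of_eigenvector {ℓ | ℓ ∣ N} (fun ℓ => qCoeff ⇑f ℓ) hG0
    fun ℓ hℓ hℓM hℓN => Hecke.ext_qCoeff fun n => by
      rw [Hecke.qCoeff_heckeTLin_two, Hecke.qCoeff_smul, hQ, hQ, hQ,
        ← Hecke.qCoeff_heckeTLin_two hℓ hℓN, Hecke.heckeTLin_eigenform hf.1 hℓ hℓN,
        Hecke.qCoeff_smul]
  refine hf.2 M hMN hne ⟨g, hg, fun ℓ hℓ hℓN => hga ℓ hℓ (fun h => hℓN (h.trans hMN)) hℓN⟩

/-- If `q² ∣ N` a newform has `a_q = 0`. -/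
theorem qCoeff_eq_zero_of_sq_dvd [NeZero N] {f : CuspForm (Gamma0 N) 2} (hf : f.IsNewform)
    (hq : q.Prime) (hq2 : q ^ 2 ∣ N) : qCoeff ⇑f q = 0 := by
  by_contra hne
  have hqN : q ∣ N := (dvd_pow_self q two_ne_zero).trans hq2
  have : NeZero (N / q) := neZero_div (Nat.mem_primeFactors.mpr ⟨hq, hqN, NeZero.ne N⟩)
  let G := (isCuspFun_heckeU (IsCuspFun.of_cuspForm f) hq.pos).toCuspForm (M := N / q)
    fun γ hγ => heckeU_slash_eq_self_of_sq_dvd hq hq2 (fun δ hδ => cuspForm_slash_SL f hδ) hγ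
  have hG : (⇑G : ℍ → ℂ) = qCoeff ⇑f q • ⇑f := by
    have := congrArg (fun F : CuspForm (Gamma0 N) 2 => (⇑F : ℍ → ℂ))
      (Hecke.heckeULin_eigenform hf.1 hq hqN)
    simpa [G] using this
  refine not_coe_eq_of_isNewform hf (Nat.div_dvd_of_dvd hqN)
    (Nat.div_lt_self (NeZero.pos N) hq.one_lt).ne ((qCoeff ⇑f q)⁻¹ • G) ?_
  rw [FunLike.coe_smul, hG, smul_smul, inv_mul_cancel₀ hne, one_smul]

/-- If `q ∥ N` a newform has `a_q² = 1`. -/
theorem qCoeff_sq_eq_one_of_not_sq_dvd [NeZero N] {f : CuspForm (Gamma0 N) 2} (hf : f.IsNewform)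
    (hq : q.Prime) (hqN : q ∣ N) (hq2 : ¬ q ^ 2 ∣ N) : qCoeff ⇑f q ^ 2 = 1 := by
  obtain ⟨W⟩ := exists_ALData hq hqN hq2
  have : NeZero (N / q) := neZero_div (Nat.mem_primeFactors.mpr ⟨hq, hqN, NeZero.ne N⟩)
  have hfinv : ∀ δ ∈ Gamma0 N, (f : ℍ → ℂ) ∣[(2 : ℤ)] δ = f := fun δ hδ => cuspForm_slash_SL f hδ
  have hWcusp : IsCuspFun 2 ((f : ℍ → ℂ) ∣[(2 : ℤ)] W.mat) :=
    isCuspFun_zm (IsCuspFun.of_cuspForm f) _ _ _ _
  let g := hWcusp.toCuspForm (M := N) fun γ hγ => ALData.slash_mat_slash hq.pos hqN hfinv hγ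
  have hge : ∀ (ℓ : ℕ) (hℓ : ℓ.Prime) (hℓN : ¬ ℓ ∣ N), ℓ ∉ (∅ : Finset ℕ) →
      CuspForm.heckeTLin 2 hℓ hℓN g = qCoeff ⇑f ℓ • g := by
    intro ℓ hℓ hℓN _
    apply DFunLike.coe_injective
    have h1 := congrArg (fun F : CuspForm (Gamma0 N) 2 => (⇑F : ℍ → ℂ))
      (Hecke.heckeTLin_eigenform hf.1 hℓ hℓN)
    simp only [CuspForm.coe_heckeTLin_apply, FunLike.coe_smul] at h1 ⊢
    simp only [g, IsCuspFun.coe_toCuspForm]
    rw [ALData.heckeT_slash_mat hqN hq.pos hℓ hℓN hfinv, h1, ALData.mat, zm,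
      smul_slash_qm 2 (by
        have hdm := ALData.det_mat (W := W) hqN
        have : (0 : ℤ) < (q : ℤ) * ((q : ℤ) * W.u) - W.y * (N : ℤ) := by
          rw [hdm]; exact_mod_cast hq.pos
        exact_mod_cast this)]
  have hgc := eq_smul_of_isNewform hf ∅ hge
  set c := qCoeff ⇑g 1 with hc
  have hWf : (f : ℍ → ℂ) ∣[(2 : ℤ)] W.mat = c • ⇑f := by
    have := congrArg (fun F : CuspForm (Gamma0 N) 2 => (⇑F : ℍ → ℂ)) hgc
    simpa [g] using this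
  have hsmul : ∀ (φ : ℍ → ℂ) (r : ℂ),
      (r • φ) ∣[(2 : ℤ)] W.mat = r • (φ ∣[(2 : ℤ)] W.mat) := by
    intro φ r
    have hdm := ALData.det_mat (W := W) hqN
    have : (0 : ℤ) < (q : ℤ) * ((q : ℤ) * W.u) - W.y * (N : ℤ) := by
      rw [hdm]; exact_mod_cast hq.pos
    exact smul_slash_qm 2 (by exact_mod_cast this) φ r
  have hc2 : c * c = 1 := by
    obtain ⟨δ, hδ, hWW⟩ := ALData.mat_mul_mat (W := W) hqN hq.pos
    have h2 : ((f : ℍ → ℂ) ∣[(2 : ℤ)] W.mat) ∣[(2 : ℤ)] W.mat = f := by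
      rw [← SlashAction.slash_mul, hWW, SlashAction.slash_mul, slash_zm_scalar_two _ hq.pos,
        slash_mapGL_eq_self hfinv _ hδ]
    rw [hWf, hsmul, hWf, smul_smul] at h2
    have h3 : (c * c) • f = (1 : ℂ) • f := DFunLike.coe_injective (by simpa using h2)
    exact smul_left_injective ℂ hf.ne_zero h3
  have hcusp : IsCuspFun 2 ((f : ℍ → ℂ) + ModularForm.heckeU 2 q ((f : ℍ → ℂ) ∣[(2 : ℤ)] W.mat)) :=
    (IsCuspFun.of_cuspForm f).add (isCuspFun_heckeU hWcusp hq.pos)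
  let F := hcusp.toCuspForm (M := N / q) fun γ hγ => ALData.trace_slash_eq_self hq hqN hfinv hγ
  have hF : (⇑F : ℍ → ℂ) = (1 + c * qCoeff ⇑f q) • ⇑f := by
    have h1 := congrArg (fun G : CuspForm (Gamma0 N) 2 => (⇑G : ℍ → ℂ))
      (Hecke.heckeULin_eigenform hf.1 hq hqN)
    simp only [CuspForm.coe_heckeULin_apply, FunLike.coe_smul] at h1
    simp only [F, IsCuspFun.coe_toCuspForm]
    rw [hWf, ModularForm.heckeU_smul, h1, smul_smul, add_smul, one_smul]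
  have hz : 1 + c * qCoeff ⇑f q = 0 := by
    by_contra hne
    refine not_coe_eq_of_isNewform hf (Nat.div_dvd_of_dvd hqN)
      (Nat.div_lt_self (NeZero.pos N) hq.one_lt).ne ((1 + c * qCoeff ⇑f q)⁻¹ • F) ?_
    rw [FunLike.coe_smul, hF, smul_smul, inv_mul_cancel₀ hne, one_smul]
  linear_combination (c * qCoeff ⇑f q - 1) * hz - qCoeff ⇑f q ^ 2 * hc2

/-- `NewformBadPrimeCoeff` holds at every level. -/
theorem newformBadPrimeCoeff (N : ℕ) [NeZero N] : CuspForm.NewformBadPrimeCoeff N :=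
  fun _ hf _ hq hqN =>
    ⟨qCoeff_sq_eq_one_of_not_sq_dvd hf hq hqN, qCoeff_eq_zero_of_sq_dvd hf hq⟩

end Fermat.Agent.Newform

end
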