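import Fermat.Agent.Newform.LevelUnique

/-!
# The decomposition of `S₂(Γ₀(L))` into newforms and their dilates
-/

set_option autoImplicit false

noncomputable section

open UpperHalfPlane CongruenceSubgroup ModularFormClass
open scoped MatrixGroups ModularForm ComplexConjugate

namespace Fermat.Agent.Newform

open Fermat.Agent.Petersson

variable {L M D p d q : ℕ}

theorem degen_degen [NeZero L] [NeZero D] [NeZero M] (h : D * p ∣ L) (h' : M * d ∣ D)
    (g : CuspForm (Gamma0 M) 2) :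
    degen L D p 2 h (degen D M d 2 h' g) =
      degen L M (d * p) 2 (by
        rw [← mul_assoc]; exact (Nat.mul_dvd_mul_right h' p).trans h) g := by
  refine Hecke.ext_qCoeff fun n => ?_
  simp only [qCoeff_degen]
  have hp : 0 < p := pos_of_mul_dvd h
  by_cases hpn : p ∣ n
  · obtain ⟨m, rfl⟩ := hpn
    rw [if_pos (dvd_mul_right p m), Nat.mul_div_cancel_left _ hp]
    have : p * d ∣ p * m ↔ d ∣ m := Nat.mul_dvd_mul_iff_left hp
    simp only [mul_comm d p, this, Nat.mul_div_mul_left _ _ hp]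
  · rw [if_neg hpn, if_neg fun hd => hpn ((dvd_mul_left p d).trans hd)]

/-- The span of all dilates of newforms of levels dividing `L`. -/
def newSpan (L : ℕ) [NeZero L] : Submodule ℂ (CuspForm (Gamma0 L) 2) :=
  Submodule.span ℂ {F | ∃ (M d : ℕ) (_ : NeZero M) (h : M * d ∣ L) (g : CuspForm (Gamma0 M) 2),
    g.IsNewform ∧ F = degen L M d 2 h g}

/-- **Oldform decomposition**: `S₂(Γ₀(L))` is spanned by the `g(dτ)`, `g` a newform of level `M`,
`M d ∣ L`. -/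
theorem newSpan_eq_top : ∀ (L : ℕ) [NeZero L], newSpan L = ⊤ := by
  intro L
  induction L using Nat.strong_induction_on with
  | _ L ih =>
  intro hL
  have hold : LinearMap.range (oldMap L 2) ≤ newSpan L := by
    rintro _ ⟨x, rfl⟩
    simp only [oldMap, LinearMap.sum_apply, LinearMap.comp_apply, LinearMap.proj_apply]
    refine Submodule.sum_mem _ fun p _ => ?_
    have := neZero_div p.2
    have hlt : L / (p : ℕ) < L :=
      Nat.div_lt_self (NeZero.pos L) (Nat.prime_of_mem_primeFactors p.2).one_lt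
    have hx : x p ∈ newSpan (L / (p : ℕ)) := by rw [ih _ hlt]; exact Submodule.mem_top
    generalize x p = y at hx ⊢
    induction hx using Submodule.span_induction with
    | mem F hF =>
      obtain ⟨M, d, hM, h, g, hg, rfl⟩ := hF
      rw [degen_degen]
      exact Submodule.subset_span ⟨M, _, hM, _, g, hg, rfl⟩
    | zero => rw [map_zero]; exact Submodule.zero_mem _
    | add a b _ _ ha hb => rw [map_add]; exact Submodule.add_mem _ ha hb
    | smul c a _ ha => rw [map_smul]; exact Submodule.smul_mem _ c ha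
  rw [eq_top_iff, ← iSup_eigenspace_goodT (N := L)]
  refine iSup_le fun χ v hv => ?_
  simp only [Submodule.mem_iInf, Module.End.mem_eigenspace_iff] at hv
  rcases eq_or_ne v 0 with rfl | hv0
  · exact Submodule.zero_mem _
  obtain ⟨f, hf, hfa⟩ := exists_eigenform_of_eigenvector ∅
    (fun ℓ => if h : ℓ.Prime ∧ ¬ ℓ ∣ L then χ ⟨ℓ, h⟩ else 0) hv0
    fun ℓ hℓ hℓL _ => by rw [dif_pos ⟨hℓ, hℓL⟩]; exact hv ⟨ℓ, hℓ, hℓL⟩
  obtain ⟨M, hML, g, hg, hga⟩ := exists_isNewform_goodEigensystem hf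
  have : NeZero M := ⟨fun h0 => NeZero.ne L (by simpa [h0] using hML)⟩
  set G := degen L M 1 2 (by simpa using hML) g
  set w := v - qCoeff ⇑v 1 • G
  have hw : w ∈ LinearMap.range (oldMap L 2) :=
    (qCoeff_eq_zero_of_eigen_finite w ∅ (fun ℓ => qCoeff ⇑g ℓ)
      (fun ℓ hℓ hℓL _ => by
        rw [map_sub, map_smul, isNormalizedEigenform_heckeT hg.1 L _ hℓ hℓL, hga ℓ hℓ hℓL,
          hfa ℓ hℓ hℓL (Set.notMem_empty _), dif_pos ⟨hℓ, hℓL⟩,
          show CuspForm.heckeTLin 2 hℓ hℓL v = χ ⟨ℓ, hℓ, hℓL⟩ • v from hv ⟨ℓ, hℓ, hℓL⟩,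
          smul_sub, smul_comm])
      (by simp only [w, G, Hecke.qCoeff_sub, Hecke.qCoeff_smul, qCoeff_degen_one]
          rw [hg.1.qCoeff_one, mul_one, sub_self])).2
  rw [show v = w + qCoeff ⇑v 1 • G from (sub_add_cancel _ _).symm]
  exact Submodule.add_mem _ (hold hw) (Submodule.smul_mem _ _
    (Submodule.subset_span ⟨M, 1, inferInstance, _, g, hg, rfl⟩))

/-- The span in level `L` of the dilates of one form. -/
def dilateSpan (L : ℕ) [NeZero L] [NeZero M] (g : CuspForm (Gamma0 M) 2) :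
    Submodule ℂ (CuspForm (Gamma0 L) 2) :=
  Submodule.span ℂ {F | ∃ (d : ℕ) (h : M * d ∣ L), F = degen L M d 2 h g}

theorem heckeTLin_of_mem_dilateSpan [NeZero L] [NeZero M] {g : CuspForm (Gamma0 M) 2}
    (hg : g.IsNormalizedEigenform) {ℓ : ℕ} (hℓ : ℓ.Prime) (hℓL : ¬ ℓ ∣ L) (hℓM : ¬ ℓ ∣ M)
    {F : CuspForm (Gamma0 L) 2} (hF : F ∈ dilateSpan L g) :
    CuspForm.heckeTLin 2 hℓ hℓL F = qCoeff ⇑g ℓ • F := by
  induction hF using Submodule.span_induction with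
  | mem F hF =>
    obtain ⟨d, h, rfl⟩ := hF
    rw [heckeTLin_degen h hℓ hℓL hℓM, Hecke.heckeTLin_eigenform hg hℓ hℓM, map_smul]
  | zero => simp
  | add a b _ _ ha hb => rw [map_add, ha, hb, smul_add]
  | smul c a _ ha => rw [map_smul, ha, smul_comm]

/-- **The eigenspace of a newform's system is spanned by its dilates.** -/
theorem mem_dilateSpan_of_eigen [NeZero L] [NeZero M] {g : CuspForm (Gamma0 M) 2}
    (hg : g.IsNewform) (S : Finset ℕ) {v : CuspForm (Gamma0 L) 2}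
    (hv : ∀ (ℓ : ℕ) (hℓ : ℓ.Prime) (hℓL : ¬ ℓ ∣ L), ℓ ∉ S →
      CuspForm.heckeTLin 2 hℓ hℓL v = qCoeff ⇑g ℓ • v) : v ∈ dilateSpan L g := by
  classical
  set S' := S ∪ L.primeFactors ∪ M.primeFactors
  let O : Submodule ℂ (CuspForm (Gamma0 L) 2) := Submodule.span ℂ
    {F | ∃ (M' d : ℕ) (_ : NeZero M') (h : M' * d ∣ L) (f : CuspForm (Gamma0 M') 2),
      f.IsNewform ∧ (⇑f : ℍ → ℂ) ≠ ⇑g ∧ F = degen L M' d 2 h f}
  have hle : newSpan L ≤ dilateSpan L g ⊔ O := Submodule.span_le.mpr <| by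
    rintro _ ⟨M', d, hM', h, f, hf, rfl⟩
    by_cases hfg : (⇑f : ℍ → ℂ) = ⇑g
    · refine Submodule.mem_sup_left (Submodule.subset_span ?_)
      obtain rfl := level_eq_of_agree hf hg ∅ fun ℓ _ _ => by rw [hfg]
      exact ⟨d, h, by rw [DFunLike.coe_injective hfg]⟩
    · exact Submodule.mem_sup_right (Submodule.subset_span ⟨M', d, hM', h, f, hf, hfg, rfl⟩)
  obtain ⟨e, he, w, hw, rfl⟩ := Submodule.mem_sup.mp
    (hle (by rw [newSpan_eq_top]; exact Submodule.mem_top : v ∈ newSpan L))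
  have hS' : ∀ ℓ : ℕ, ℓ.Prime → ℓ ∉ S' → ℓ ∉ S ∧ ¬ ℓ ∣ L ∧ ¬ ℓ ∣ M := fun ℓ hℓ h => by
    simp only [S', Finset.mem_union, not_or, Nat.mem_primeFactors] at h
    exact ⟨h.1.1, fun hd => h.1.2 ⟨hℓ, hd, NeZero.ne L⟩, fun hd => h.2 ⟨hℓ, hd, NeZero.ne M⟩⟩
  have hweig : ∀ (ℓ : ℕ) (hℓ : ℓ.Prime) (hℓL : ¬ ℓ ∣ L), ℓ ∉ S' →
      CuspForm.heckeTLin 2 hℓ hℓL w = qCoeff ⇑g ℓ • w := fun ℓ hℓ hℓL hS => by
    have := hv ℓ hℓ hℓL (hS' ℓ hℓ hS).1
    rwa [map_add, heckeTLin_of_mem_dilateSpan hg.1 hℓ hℓL (hS' ℓ hℓ hS).2.2 he, smul_add,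
      add_right_inj] at this
  suffices pairing0 L w w = 0 by rwa [pairing0_self_eq_zero w this, add_zero]
  suffices ∀ y ∈ O, pairing0 L w y = 0 from this w hw
  intro y hy
  induction hy using Submodule.span_induction with
  | mem F hF =>
    obtain ⟨M', d, hM', h, f, hf, hfg, rfl⟩ := hF
    obtain ⟨ℓ, hℓ, hℓS, hne⟩ : ∃ ℓ : ℕ, ℓ.Prime ∧ ℓ ∉ S' ∧ qCoeff ⇑f ℓ ≠ qCoeff ⇑g ℓ := by
      by_contra hcon
      push Not at hcon
      exact hfg (qCoeff_eq_of_isNewform_agree hf hg S' hcon)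
    obtain ⟨-, hℓL, hℓM⟩ := hS' ℓ hℓ hℓS
    have hℓM' : ¬ ℓ ∣ M' := fun hd => hℓL (hd.trans ((dvd_mul_right M' d).trans h))
    have key := pairing0_heckeTLin hℓ hℓL w (degen L M' d 2 h f)
    rw [hweig ℓ hℓ hℓL hℓS, heckeTLin_degen h hℓ hℓL hℓM', Hecke.heckeTLin_eigenform hf.1 hℓ hℓM',
      (pairing0 L).map_smulₛₗ, LinearMap.smul_apply, conj_qCoeff_eigenform hg.1 hℓ hℓM, map_smul,
      map_smul, smul_eq_mul, smul_eq_mul, ← sub_eq_zero, ← sub_mul,
      mul_eq_zero, sub_eq_zero] at key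
    exact key.resolve_left (Ne.symm hne)
  | zero => simp
  | add a b _ _ ha hb => rw [map_add, ha, hb, add_zero]
  | smul c a _ ha => rw [map_smul, ha, smul_zero]

/-- A nonzero eigenvector with the system of a newform of level `M` forces `M ∣ L`. -/
theorem level_dvd_of_eigen [NeZero L] [NeZero M] {g : CuspForm (Gamma0 M) 2} (hg : g.IsNewform)
    (S : Finset ℕ) {v : CuspForm (Gamma0 L) 2} (hv0 : v ≠ 0)
    (hv : ∀ (ℓ : ℕ) (hℓ : ℓ.Prime) (hℓL : ¬ ℓ ∣ L), ℓ ∉ S →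
      CuspForm.heckeTLin 2 hℓ hℓL v = qCoeff ⇑g ℓ • v) : M ∣ L := by
  by_contra hML
  have : dilateSpan L g = ⊥ := Submodule.span_eq_bot.mpr fun F ⟨d, h, _⟩ =>
    absurd ((dvd_mul_right M d).trans h) hML
  exact hv0 ((Submodule.mem_bot ℂ).mp (this ▸ mem_dilateSpan_of_eigen hg S hv))

variable [NeZero L] [NeZero M] {f : CuspForm (Gamma0 L) 2} {g : CuspForm (Gamma0 M) 2}

/-- The data of the old-space relation. -/
theorem mem_dilateSpan_of_agree (hf : f.IsNormalizedEigenform) (hg : g.IsNewform) (S : Finset ℕ)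
    (h : ∀ ℓ : ℕ, ℓ.Prime → ℓ ∉ S → qCoeff ⇑f ℓ = qCoeff ⇑g ℓ) :
    M ∣ L ∧ f ∈ dilateSpan L g := by
  have hev : ∀ (ℓ : ℕ) (hℓ : ℓ.Prime) (hℓL : ¬ ℓ ∣ L), ℓ ∉ S →
      CuspForm.heckeTLin 2 hℓ hℓL f = qCoeff ⇑g ℓ • f := fun ℓ hℓ hℓL hS => by
    rw [Hecke.heckeTLin_eigenform hf hℓ hℓL, h ℓ hℓ hS]
  exact ⟨level_dvd_of_eigen hg S hf.ne_zero hev, mem_dilateSpan_of_eigen hg S hev⟩

omit [NeZero L] in
theorem qCoeff_pow_of_eigenform (hf : f.IsNormalizedEigenform) (hq : q.Prime) (hqL : q ∣ L) :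
    ∀ k, qCoeff ⇑f (q ^ k) = qCoeff ⇑f q ^ k
  | 0 => by simpa using hf.qCoeff_one
  | k + 1 => by
    have := Hecke.eigenform_rec hf hq (q ^ k)
    rw [if_pos hqL, add_zero, qCoeff_pow_of_eigenform hf hq hqL k] at this
    rw [pow_succ, this, pow_succ, mul_comm]

/-- **`a_q` of an old eigenform**: a root of `X^k (X² - a_q(g) X + q [q ∤ M])` once
`v_q(L/M) ≤ k + 1`. -/
theorem qCoeff_oldform_relation (hf : f.IsNormalizedEigenform) (hg : g.IsNewform) (S : Finset ℕ)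
    (h : ∀ ℓ : ℕ, ℓ.Prime → ℓ ∉ S → qCoeff ⇑f ℓ = qCoeff ⇑g ℓ) (hq : q.Prime) (hqL : q ∣ L)
    {k : ℕ} (hk : (L / M).factorization q ≤ k + 1) :
    qCoeff ⇑f q ^ k * (qCoeff ⇑f q ^ 2 - qCoeff ⇑g q * qCoeff ⇑f q +
      if q ∣ M then 0 else (q : ℂ)) = 0 := by
  obtain ⟨hML, hmem⟩ := mem_dilateSpan_of_agree hf hg S h
  set a := qCoeff ⇑g q
  set c : ℂ := if q ∣ M then 0 else (q : ℂ) with hc
  suffices ∀ F ∈ dilateSpan L g,
      qCoeff ⇑F (q ^ (k + 2)) - a * qCoeff ⇑F (q ^ (k + 1)) + c * qCoeff ⇑F (q ^ k) = 0 by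
    have h0 := this f hmem
    simp only [qCoeff_pow_of_eigenform hf hq hqL] at h0
    rw [← h0]; ring
  intro F hF
  induction hF using Submodule.span_induction with
  | mem F hF =>
    obtain ⟨d, hd, rfl⟩ := hF
    simp only [qCoeff_degen]
    by_cases hdk : d ∣ q ^ (k + 2)
    · obtain ⟨i, hi, rfl⟩ := (Nat.dvd_prime_pow hq).mp hdk
      have hie : i ≤ k + 1 := by
        have h1 : q ^ i ∣ L / M := Nat.dvd_div_of_mul_dvd hd
        have h2 := (hq.pow_dvd_iff_le_factorization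
          (Nat.div_pos (Nat.le_of_dvd (NeZero.pos L) hML) (NeZero.pos M)).ne').mp h1
        omega
      rw [if_pos hdk, if_pos (pow_dvd_pow q hie), Nat.pow_div hi hq.pos, Nat.pow_div hie hq.pos]
      rcases hie.lt_or_eq with hik | rfl
      · obtain ⟨j, rfl⟩ : ∃ j, k = i + j := ⟨k - i, by omega⟩
        rw [if_pos (pow_dvd_pow q (by omega)), Nat.pow_div (by omega) hq.pos,
          show i + j + 2 - i = j + 2 by omega, show i + j + 1 - i = j + 1 by omega,
          show i + j - i = j by omega]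
        have hrec := Hecke.eigenform_rec hg.1 hq (q ^ (j + 1))
        rw [← pow_succ, show j + 1 + 1 = j + 2 from rfl,
          if_pos (dvd_pow_self q (Nat.succ_ne_zero j)),
          pow_succ q j, Nat.mul_div_cancel _ hq.pos, ← pow_succ] at hrec
        rw [hc, ← hrec]
        split_ifs <;> ring
      · rw [if_neg, show k + 2 - (k + 1) = 1 by omega, show k + 1 - (k + 1) = 0 by omega, pow_one,
          pow_zero, hg.1.qCoeff_one]
        · ring
        · rw [Nat.pow_dvd_pow_iff_le_right hq.one_lt]; omega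
    · rw [if_neg hdk, if_neg fun h' => hdk (h'.trans (pow_dvd_pow q (by omega))),
        if_neg fun h' => hdk (h'.trans (pow_dvd_pow q (by omega)))]
      ring
  | zero => simp
  | add x y _ _ hx hy =>
    simp only [Hecke.qCoeff_add]
    linear_combination hx + hy
  | smul r x _ hx =>
    simp only [Hecke.qCoeff_smul]
    linear_combination r * hx

/-- At primes not dividing `L/M` the coefficients of `f` and `g` agree. -/
theorem qCoeff_eq_of_not_dvd_div (hf : f.IsNormalizedEigenform) (hg : g.IsNewform) (S : Finset ℕ)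
    (h : ∀ ℓ : ℕ, ℓ.Prime → ℓ ∉ S → qCoeff ⇑f ℓ = qCoeff ⇑g ℓ) (hq : q.Prime)
    (hqd : ¬ q ∣ L / M) : qCoeff ⇑f q = qCoeff ⇑g q := by
  obtain ⟨-, hmem⟩ := mem_dilateSpan_of_agree hf hg S h
  suffices ∀ F ∈ dilateSpan L g, qCoeff ⇑F q = qCoeff ⇑g q * qCoeff ⇑F 1 by
    rw [this f hmem, hf.qCoeff_one, mul_one]
  intro F hF
  induction hF using Submodule.span_induction with
  | mem F hF =>
    obtain ⟨d, hd, rfl⟩ := hF
    simp only [qCoeff_degen]
    rcases eq_or_ne d 1 with rfl | hd1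
    · simp [hg.1.qCoeff_one]
    · rw [if_neg fun h' => ?_, if_neg fun h' => hd1 (Nat.dvd_one.mp h'), mul_zero]
      rcases (Nat.dvd_prime hq).mp h' with h1 | h1
      · exact hd1 h1
      · exact hqd (h1 ▸ Nat.dvd_div_of_mul_dvd hd)
  | zero => simp
  | add x y _ _ hx hy => simp only [Hecke.qCoeff_add]; linear_combination hx + hy
  | smul r x _ hx => simp only [Hecke.qCoeff_smul]; linear_combination r * hx

/-- At a prime `q ∤ M` dividing `L/M` exactly once, `a_q(f)` is a root of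
`X² - a_q(g) X + q`. -/
theorem qCoeff_root_of_exactly_dvd (hf : f.IsNormalizedEigenform) (hg : g.IsNewform) (S : Finset ℕ)
    (h : ∀ ℓ : ℕ, ℓ.Prime → ℓ ∉ S → qCoeff ⇑f ℓ = qCoeff ⇑g ℓ) (hq : q.Prime) (hqL : q ∣ L)
    (hqM : ¬ q ∣ M) (hk : (L / M).factorization q ≤ 1) :
    qCoeff ⇑f q ^ 2 - qCoeff ⇑g q * qCoeff ⇑f q + (q : ℂ) = 0 := by
  simpa [hqM] using qCoeff_oldform_relation hf hg S h hq hqL (k := 0) hk

end Fermat.Agent.Newform

end
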