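import Fermat.Agent.Newform.Cosets

/-!
# Level-lowering operators at a prime `q` of the level

`U_q` lowers the level to `N/q` if `q² ∣ N`; for exact `q ∣ N` the Atkin–Lehner matrix normalises
`Γ₀(N)`, commutes with the good `T_ℓ`, and gives a trace to level `N/q`.
-/

set_option autoImplicit false

noncomputable section

open UpperHalfPlane CongruenceSubgroup ModularFormClass
open scoped MatrixGroups ModularForm Manifold

namespace Fermat.Agent.Newform

variable {N q : ℕ}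

theorem slash_mapGL_eq_self {M : ℕ} {k : ℤ} {φ : ℍ → ℂ}
    (h : ∀ γ ∈ Gamma0 M, φ ∣[k] γ = φ) (δ : GL (Fin 2) ℝ)
    (hδ : δ ∈ Subgroup.map (Matrix.SpecialLinearGroup.mapGL ℝ) (Gamma0 M)) :
    φ ∣[k] δ = φ := by
  obtain ⟨γ, hγ, rfl⟩ := hδ
  exact h γ hγ

theorem isCuspFun_heckeU {k : ℤ} {φ : ℍ → ℂ} (h : IsCuspFun k φ) (hq : 0 < q) :
    IsCuspFun k (ModularForm.heckeU k q φ) := by
  rw [heckeU_eq_sum_zm k hq]
  exact IsCuspFun.sum _ fun (j : Fin q) _ => h.slash_qm _ _ _ _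

theorem isCuspFun_zm {k : ℤ} {φ : ℍ → ℂ} (h : IsCuspFun k φ) (a b c d : ℤ) :
    IsCuspFun k (φ ∣[k] zm a b c d) := h.slash_qm _ _ _ _

theorem slash_zm_scalar_two (φ : ℍ → ℂ) {n : ℕ} (hn : 0 < n) :
    φ ∣[(2 : ℤ)] zm n 0 0 n = φ := by
  have h := slash_qm_scalar 2 (l := (n : ℚ)) (by exact_mod_cast hn) φ
  simpa [zm] using h

/-- For `q² ∣ N`, the image of `U_q` has level `N/q`. -/
theorem heckeU_slash_eq_self_of_sq_dvd (hq : q.Prime) (hq2 : q ^ 2 ∣ N) {k : ℤ} {φ : ℍ → ℂ}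
    (hφ : ∀ γ ∈ Gamma0 N, φ ∣[k] γ = φ) {γ : SL(2, ℤ)} (hγ : γ ∈ Gamma0 (N / q)) :
    ModularForm.heckeU k q φ ∣[k] γ = ModularForm.heckeU k q φ := by
  have hqN : q ∣ N := (dvd_pow_self q two_ne_zero).trans hq2
  have hqP : Prime (q : ℤ) := Nat.prime_iff_prime_int.mp hq
  have hq0 : (q : ℤ) ≠ 0 := by exact_mod_cast hq.ne_zero
  have hcq : ((N / q : ℕ) : ℤ) ∣ γ 1 0 := mem_Gamma0_iff.mp hγ
  have hNqc : (N : ℤ) ∣ (q : ℤ) * γ 1 0 := by
    have := mul_dvd_mul_left (q : ℤ) hcq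
    rwa [show (q : ℤ) * ((N / q : ℕ) : ℤ) = (N : ℤ) from by
      exact_mod_cast Nat.mul_div_cancel' hqN] at this
  have hqc : (q : ℤ) ∣ γ 1 0 := by
    refine (Int.natCast_dvd_natCast.mpr ?_).trans hcq
    exact Nat.dvd_div_of_mul_dvd (by rwa [← sq])
  have hd := det_SL γ
  rw [heckeU_eq_sum_zm k hq.pos, ModularForm.SL_slash, SL_eq_zm γ]
  refine sum_slash_slash_eq_self k φ _ (fun δ hδ => slash_mapGL_eq_self hφ δ hδ) _ _
    (fun i i' δ hδ h => upperReps_distinct hq.pos hδ h) fun i => ?_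
  have ha : ¬ (q : ℤ) ∣ γ 0 0 + i * γ 1 0 := by
    intro h
    have h0 : (q : ℤ) ∣ γ 0 0 := (dvd_add_left (dvd_mul_of_dvd_right hqc _)).mp h
    exact hqP.not_dvd_one (hd ▸ dvd_sub (dvd_mul_of_dvd_left h0 _) (dvd_mul_of_dvd_right hqc _))
  obtain ⟨u, v, huv⟩ := hqP.coprime_iff_not_dvd.mpr ha
  set x := v * (γ 0 1 + i * γ 1 1) with hx
  set j : ℕ := (x % q).toNat with hj
  have hj0 : 0 ≤ x % (q : ℤ) := Int.emod_nonneg x hq0
  have hjl : j < q := by
    have := Int.emod_lt_of_pos x (show (0 : ℤ) < q by exact_mod_cast hq.pos)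
    omega
  obtain ⟨e, he⟩ : (q : ℤ) ∣ (γ 0 1 + i * γ 1 1) - (γ 0 0 + i * γ 1 0) * j := by
    refine ⟨u * (γ 0 1 + i * γ 1 1) + (γ 0 0 + i * γ 1 0) * (x / q), ?_⟩
    rw [hj, Int.toNat_of_nonneg hj0]
    linear_combination (-(γ 0 1 + i * γ 1 1)) * huv -
      (γ 0 0 + i * γ 1 0) * Int.mul_ediv_add_emod x q + (γ 0 0 + i * γ 1 0) * hx
  have hdet : (γ 0 0 + i * γ 1 0) * (γ 1 1 - γ 1 0 * j) - e * ((q : ℤ) * γ 1 0) = 1 := by
    linear_combination hd + γ 1 0 * he
  refine ⟨⟨j, hjl⟩, _, mem_mapGL_Gamma0 hdet hNqc, ?_⟩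
  rw [zm_mul (by simpa using hq0) (by omega), zm_mul (by omega) (by simpa using hq0)]
  congr 1 <;> linarith

/-- An Atkin–Lehner matrix `(q y; N qu)` at `q`, of determinant `q`. -/
structure ALData (N q : ℕ) where
  y : ℤ
  u : ℤ
  det_eq : (q : ℤ) * u - ((N / q : ℕ) : ℤ) * y = 1

/-- Atkin–Lehner data exist at every exact prime divisor of `N`. -/
theorem exists_ALData (hq : q.Prime) (hqN : q ∣ N) (hq2 : ¬ q ^ 2 ∣ N) : Nonempty (ALData N q) := by
  have h : ¬ q ∣ N / q := fun h => hq2 <| by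
    rw [sq]; exact (Nat.mul_dvd_mul_left q h).trans (Nat.mul_div_cancel' hqN).dvd
  obtain ⟨u, y, huy⟩ := (Nat.isCoprime_iff_coprime.mpr
    ((Nat.Prime.coprime_iff_not_dvd hq).mpr h) : IsCoprime (q : ℤ) ((N / q : ℕ) : ℤ))
  exact ⟨⟨-y, u, by linear_combination huy⟩⟩

namespace ALData

variable (W : ALData N q)

/-- The matrix. -/
def mat : GL (Fin 2) ℝ := zm q W.y N ((q : ℤ) * W.u)

variable {W}

theorem det_mat (hqN : q ∣ N) :
    (q : ℤ) * ((q : ℤ) * W.u) - W.y * (N : ℤ) = q := by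
  have : (N : ℤ) = (q : ℤ) * ((N / q : ℕ) : ℤ) := by exact_mod_cast (Nat.mul_div_cancel' hqN).symm
  rw [this]; linear_combination (q : ℤ) * W.det_eq

/-- `W` normalises the integral matrices with lower left entry divisible by `N`. -/
theorem exists_conj (hq : 0 < q) (hqN : q ∣ N) {a b c d D : ℤ} (hD : a * d - b * c = D)
    (hD0 : D ≠ 0) (hc : (N : ℤ) ∣ c) :
    ∃ a' b' c' d' : ℤ, a' * d' - b' * c' = D ∧ (N : ℤ) ∣ c' ∧
      W.mat * zm a b c d = zm a' b' c' d' * W.mat := by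
  obtain ⟨c₁, rfl⟩ := hc
  set m : ℤ := ((N / q : ℕ) : ℤ) with hm
  have hN : (N : ℤ) = q * m := by rw [hm]; exact_mod_cast (Nat.mul_div_cancel' hqN).symm
  have hW := W.det_eq
  have hdm := det_mat (W := W) hqN
  have hq0 : (q : ℤ) ≠ 0 := by exact_mod_cast hq.ne'
  have e : (W.u * ((q : ℤ) * a + W.y * N * c₁) - m * (q * b + W.y * d)) *
      (-(W.y * m * a) - W.y * W.u * (N * c₁) + N * b + q * W.u * d) -
      (-(W.y * a) + q * b + W.y * d - W.y ^ 2 * m * c₁) *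
        (N * (W.u * a + q * W.u ^ 2 * c₁ - m * b - W.u * d)) = D := by
    rw [← hD, hN]
    linear_combination ((a * d - b * ((q : ℤ) * m * c₁)) * ((q : ℤ) * W.u - m * W.y + 1)) * hW
  refine ⟨_, _, _, _, e, dvd_mul_right _ _, ?_⟩
  rw [mat, zm_mul (by rw [hdm]; exact hq0) (by rw [hD]; exact hD0),
    zm_mul (by rw [e]; exact hD0) (by rw [hdm]; exact hq0)]
  rw [hN]
  congr 1
  · linear_combination (-((q : ℤ) * a + W.y * ((q : ℤ) * m * c₁))) * hW
  · linear_combination (-((q : ℤ) * b + W.y * d)) * hW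
  · linear_combination (-((q : ℤ) * m * a + (q : ℤ) * W.u * ((q : ℤ) * m * c₁))) * hW
  · linear_combination (-((q : ℤ) * m * b + (q : ℤ) * W.u * d)) * hW

/-- The Atkin–Lehner matrix normalises the level group. -/
theorem slash_mat_slash (hq : 0 < q) (hqN : q ∣ N) {k : ℤ} {φ : ℍ → ℂ}
    (hφ : ∀ γ ∈ Gamma0 N, φ ∣[k] γ = φ) {γ : SL(2, ℤ)} (hγ : γ ∈ Gamma0 N) :
    (φ ∣[k] W.mat) ∣[k] γ = φ ∣[k] W.mat := by
  obtain ⟨a', b', c', d', h1, h2, h3⟩ := exists_conj (W := W) hq hqN (det_SL γ) one_ne_zero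
    (mem_Gamma0_iff.mp hγ)
  rw [ModularForm.SL_slash, SL_eq_zm γ, ← SlashAction.slash_mul, h3, SlashAction.slash_mul,
    slash_mapGL_eq_self hφ _ (mem_mapGL_Gamma0 h1 h2)]

theorem mat_mul_mat (hqN : q ∣ N) (hq : 0 < q) :
    ∃ δ ∈ Subgroup.map (Matrix.SpecialLinearGroup.mapGL ℝ) (Gamma0 N),
      W.mat * W.mat = zm q 0 0 q * δ := by
  set m : ℤ := ((N / q : ℕ) : ℤ) with hm
  have hN : (N : ℤ) = q * m := by rw [hm]; exact_mod_cast (Nat.mul_div_cancel' hqN).symm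
  have hW := W.det_eq
  have hdm := det_mat (W := W) hqN
  have hq0 : (q : ℤ) ≠ 0 := by exact_mod_cast hq.ne'
  have h1 : ((q : ℤ) + W.y * m) * (W.y * m + q * W.u ^ 2) -
      W.y * (1 + W.u) * ((N : ℤ) * (1 + W.u)) = 1 := by
    rw [hN]; linear_combination ((q : ℤ) * W.u - m * W.y + 1) * hW
  refine ⟨_, mem_mapGL_Gamma0 h1 (dvd_mul_right _ _), ?_⟩
  rw [mat, zm_mul (by rw [hdm]; exact hq0) (by rw [hdm]; exact hq0),
    zm_mul (by simpa using hq0) (by rw [h1]; exact one_ne_zero)]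
  rw [hN]
  congr 1 <;> ring

/-- The Atkin–Lehner matrix commutes with `T_ℓ`, `ℓ ∤ N`. -/
theorem heckeT_slash_mat (hqN : q ∣ N) (hq : 0 < q) {ℓ : ℕ} (hℓ : ℓ.Prime) (hℓN : ¬ ℓ ∣ N)
    {k : ℤ} {φ : ℍ → ℂ} (hφ : ∀ γ ∈ Gamma0 N, φ ∣[k] γ = φ) :
    ModularForm.heckeT k ℓ (φ ∣[k] W.mat) = ModularForm.heckeT k ℓ φ ∣[k] W.mat := by
  rw [heckeT_eq_sum_heckeReps k hℓ.pos, heckeT_eq_sum_heckeReps k hℓ.pos, SlashAction.sum_slash]
  simp only [← SlashAction.slash_mul]
  refine sum_slash_eq_of_cosets k φ (Subgroup.map (Matrix.SpecialLinearGroup.mapGL ℝ) (Gamma0 N))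
    (fun δ hδ => slash_mapGL_eq_self hφ δ hδ) _ _ ?_ fun i => ?_
  · intro i i' δ hδ h
    obtain ⟨a, b, c, d, hdet, hc, rfl⟩ := exists_zm_of_mem_mapGL hδ
    -- conjugate `δ` back by `W`
    obtain ⟨a', b', c', d', h1, h2, h3⟩ := exists_conj (W := W) hq hqN hdet one_ne_zero hc
    obtain ⟨e₂, he₂, hWW⟩ := mat_mul_mat (W := W) hqN hq
    refine heckeReps_distinct hℓ.one_lt
      (δ := e₂⁻¹ * zm a' b' c' d' * e₂)
      (mul_mem (mul_mem (inv_mem he₂) (mem_mapGL_Gamma0 h1 h2)) he₂) ?_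
    have hz : ∀ A : GL (Fin 2) ℝ, zm q 0 0 q * A = A * zm q 0 0 q := fun A => by
      have hs : (q : ℚ) * (q : ℚ) - (0 : ℚ) * 0 ≠ 0 := by
        simp; omega
      apply Units.ext
      rw [Units.val_mul, Units.val_mul]
      simp only [zm, Int.cast_natCast, Int.cast_zero, val_qm hs]
      ext i j
      fin_cases i <;> fin_cases j <;> simp [Matrix.mul_apply, Fin.sum_univ_two, mul_comm]
    have h4 : zm q 0 0 q * (e₂ * heckeReps ℓ i) =
          zm q 0 0 q * (zm a' b' c' d' * e₂ * heckeReps ℓ i') := by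
      calc zm q 0 0 q * (e₂ * heckeReps ℓ i) = W.mat * (W.mat * heckeReps ℓ i) := by
            rw [← mul_assoc, ← mul_assoc, hWW]
        _ = W.mat * (zm a b c d * (W.mat * heckeReps ℓ i')) := by rw [h]
        _ = zm a' b' c' d' * (W.mat * W.mat) * heckeReps ℓ i' := by
            rw [← mul_assoc W.mat (zm a b c d), h3]; simp only [mul_assoc]
        _ = zm q 0 0 q * (zm a' b' c' d' * e₂ * heckeReps ℓ i') := by
            rw [hWW, ← mul_assoc (zm a' b' c' d') (zm q 0 0 q), ← hz]; simp only [mul_assoc]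
    have h5 := mul_left_cancel h4
    rw [mul_assoc, mul_assoc, ← mul_assoc (zm a' b' c' d'), ← h5, inv_mul_cancel_left]
  · have hr : ∃ a b c d : ℤ, a * d - b * c = ℓ ∧ (N : ℤ) ∣ c ∧ heckeReps ℓ i = zm a b c d := by
      cases i with
      | none => exact ⟨ℓ, 0, 0, 1, by ring, dvd_zero _, rfl⟩
      | some j => exact ⟨1, (j : ℕ), 0, ℓ, by ring, dvd_zero _, rfl⟩
    obtain ⟨a, b, c, d, hdet, hc, hri⟩ := hr
    obtain ⟨a', b', c', d', h1, h2, h3⟩ := exists_conj (W := W) hq hqN hdet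
      (by exact_mod_cast hℓ.ne_zero) hc
    obtain ⟨j, δ, hδ, hj⟩ := exists_heckeRep hℓ hℓN h1 h2
    exact ⟨j, δ, hδ, by rw [hri, h3, hj, mul_assoc]⟩

/-- The trace to level `N/q` of a level `N` function. -/
theorem trace_slash_eq_self (hq : q.Prime) (hqN : q ∣ N) {φ : ℍ → ℂ}
    (hφ : ∀ γ ∈ Gamma0 N, φ ∣[(2 : ℤ)] γ = φ) {γ : SL(2, ℤ)} (hγ : γ ∈ Gamma0 (N / q)) :
    (φ + ModularForm.heckeU 2 q (φ ∣[(2 : ℤ)] W.mat)) ∣[(2 : ℤ)] γ =
      φ + ModularForm.heckeU 2 q (φ ∣[(2 : ℤ)] W.mat) := by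
  classical
  set m : ℤ := ((N / q : ℕ) : ℤ) with hm
  have hN : (N : ℤ) = q * m := by rw [hm]; exact_mod_cast (Nat.mul_div_cancel' hqN).symm
  have hW := W.det_eq
  have hq0 : (q : ℤ) ≠ 0 := by exact_mod_cast hq.ne_zero
  have hqP : Prime (q : ℤ) := Nat.prime_iff_prime_int.mp hq
  have hqm : ¬ (q : ℤ) ∣ m := fun h => hqP.not_dvd_one
    ⟨W.u - (h.choose) * W.y, by linear_combination -hW - W.y * h.choose_spec⟩
  have hdm := det_mat (W := W) hqN
  set r : Option (Fin q) → GL (Fin 2) ℝ := fun i =>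
    match i with
    | none => zm 1 0 0 1
    | some j => zm 1 (j + W.y) m (m * j + q * W.u) with hr
  have hrdet : ∀ j : Fin q, (1 : ℤ) * (m * j + q * W.u) - (j + W.y) * m = 1 := fun j => by
    linear_combination hW
  have hsum : φ + ModularForm.heckeU 2 q (φ ∣[(2 : ℤ)] W.mat) = ∑ i, φ ∣[(2 : ℤ)] r i := by
    rw [Fintype.sum_option, heckeU_eq_sum_zm 2 hq.pos]
    congr 1
    · simp [hr, zm, qm_one]
    · refine Finset.sum_congr rfl fun j _ => ?_
      rw [← SlashAction.slash_mul]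
      have e : W.mat * zm 1 (j : ℕ) 0 q = zm q 0 0 q * r (some j) := by
        rw [mat, hr, zm_mul (by rw [hdm]; exact hq0) (by simpa using hq0),
          zm_mul (by simpa using hq0) (by rw [hrdet j]; exact one_ne_zero)]
        rw [hN]
        congr 1 <;> ring
      rw [e, SlashAction.slash_mul, slash_zm_scalar_two φ hq.pos]
  have hcls : ∀ a b c d : ℤ, a * d - b * c = 1 → m ∣ c →
      ∃ i, ∃ δ ∈ Subgroup.map (Matrix.SpecialLinearGroup.mapGL ℝ) (Gamma0 N),
        zm a b c d = δ * r i := by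
    intro a b c d hdet hmc
    obtain ⟨e, rfl⟩ := hmc
    by_cases hqc : (q : ℤ) ∣ m * e
    · refine ⟨none, zm a b (m * e) d, mem_mapGL_Gamma0 hdet ?_, ?_⟩
      · rw [hN, mul_comm (q : ℤ) m]
        exact mul_dvd_mul_left m ((hqP.dvd_or_dvd hqc).resolve_left hqm)
      · simp [hr, zm, qm_one]
    · obtain ⟨u, v, huv⟩ := hqP.coprime_iff_not_dvd.mpr hqc
      set x := v * d with hx
      set j : ℕ := (x % q).toNat with hj
      have hj0 : 0 ≤ x % (q : ℤ) := Int.emod_nonneg x hq0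
      have hjl : j < q := by
        have := Int.emod_lt_of_pos x (show (0 : ℤ) < q by exact_mod_cast hq.pos)
        omega
      obtain ⟨g, hg⟩ : (q : ℤ) ∣ e * (m * j + q * W.u) - d := by
        refine ⟨e * W.u - u * d - m * e * (x / q), ?_⟩
        rw [hj, Int.toNat_of_nonneg hj0]
        linear_combination d * huv + m * e * Int.mul_ediv_add_emod x q + m * e * hx
      have hdet' : (a * (m * j + q * W.u) - b * m) * (d * 1 - (m * e) * (j + W.y)) -
          (b * 1 - a * (j + W.y)) * (m * e * (m * j + q * W.u) - d * m) = 1 := by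
        linear_combination hdet + (a * d - b * (m * e)) * hW
      refine ⟨some ⟨j, hjl⟩, _, mem_mapGL_Gamma0 hdet' ?_, ?_⟩
      · exact ⟨g, by rw [hN]; linear_combination m * hg⟩
      · rw [hr, zm_mul (by rw [hdet']; exact one_ne_zero)
          (by rw [hrdet ⟨j, hjl⟩]; exact one_ne_zero)]
        congr 1
        · linear_combination (-a) * hW
        · linear_combination (-b) * hW
        · linear_combination (-(m * e)) * hW
        · linear_combination (-d) * hW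
  rw [hsum, ModularForm.SL_slash, SL_eq_zm γ]
  refine sum_slash_slash_eq_self 2 φ _ (fun δ hδ => slash_mapGL_eq_self hφ δ hδ) r _ ?_ fun i => ?_
  · intro i i' δ hδ h
    obtain ⟨a, b, c, d, hdet, hc, rfl⟩ := exists_zm_of_mem_mapGL hδ
    obtain ⟨c₁, rfl⟩ := hc
    match i, i' with
    | none, none => rfl
    | some j, some j' =>
      simp only [hr] at h
      rw [zm_mul (by omega) (by rw [hrdet j']; exact one_ne_zero)] at h
      obtain ⟨-, -, h3, h4⟩ := zm_inj (by rw [hrdet j]; exact one_ne_zero) (by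
        have e : ∀ A B C D A' B' C' D' : ℤ, (A * A' + B * C') * (C * B' + D * D') -
            (A * B' + B * D') * (C * A' + D * C') = (A * D - B * C) * (A' * D' - B' * C') :=
          fun _ _ _ _ _ _ _ _ => by ring
        rw [e, hdet, hrdet j']; exact one_ne_zero) h
      rw [hN] at h3 h4
      have hd1 : (q : ℤ) ∣ d - 1 := by
        have hh : (q : ℤ) ∣ m * (d - 1) := ⟨-(m * c₁), by linear_combination -h3⟩
        exact (hqP.dvd_or_dvd hh).resolve_left hqm
      obtain ⟨t, ht⟩ := hd1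
      have hjj : (q : ℤ) ∣ (j : ℤ) - j' := by
        refine (hqP.dvd_or_dvd (a := m) (b := (j : ℤ) - j') ?_).resolve_left hqm
        exact ⟨m * c₁ * ((j' : ℤ) + W.y) + t * (m * j' + q * W.u),
          by linear_combination h4 + (m * (j' : ℤ) + q * W.u) * ht⟩
      obtain ⟨s, hs⟩ := hjj
      congr 1
      ext
      rcases lt_trichotomy s 0 with hs0 | hs0 | hs0
      · have : (q : ℤ) * s ≤ -(q : ℤ) := by nlinarith
        omega
      · subst hs0; simp at hs; omega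
      · have : (q : ℤ) ≤ (q : ℤ) * s := by nlinarith
        omega
    | some j, none =>
      exfalso
      simp only [hr] at h
      rw [zm_mul (by omega) (by norm_num)] at h
      obtain ⟨-, -, h3, -⟩ := zm_inj (by rw [hrdet j]; exact one_ne_zero)
        (fun h0 => one_ne_zero (α := ℤ) (by linear_combination h0 - hdet)) h
      exact hqm ⟨m * c₁, by rw [hN] at h3; linear_combination h3⟩
    | none, some j =>
      exfalso
      simp only [hr] at h
      rw [zm_mul (by omega) (by rw [hrdet j]; exact one_ne_zero)] at h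
      obtain ⟨-, -, h3, h4⟩ := zm_inj (by norm_num) (by
        have e : ∀ A B C D A' B' C' D' : ℤ, (A * A' + B * C') * (C * B' + D * D') -
            (A * B' + B * D') * (C * A' + D * C') = (A * D - B * C) * (A' * D' - B' * C') :=
          fun _ _ _ _ _ _ _ _ => by ring
        rw [e, hdet, hrdet j]; exact one_ne_zero) h
      rw [hN] at h3 h4
      -- `d ≡ 0 (mod q)`, contradicting `a d - b c = 1`
      have hdq : (q : ℤ) ∣ d := by
        have hh : (q : ℤ) ∣ m * d := ⟨-(m * c₁), by linear_combination -h3⟩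
        exact (hqP.dvd_or_dvd hh).resolve_left hqm
      refine hqP.not_dvd_one (hdet ▸ dvd_sub (dvd_mul_of_dvd_right hdq a) ?_)
      rw [hN]
      exact dvd_mul_of_dvd_right (dvd_mul_of_dvd_left (dvd_mul_right _ _) _) _
  · cases i with
    | none =>
      simp only [hr]
      rw [zm_mul (by norm_num) (by rw [det_SL γ]; exact one_ne_zero)]
      simpa using hcls (γ 0 0) (γ 0 1) (γ 1 0) (γ 1 1) (det_SL γ) (mem_Gamma0_iff.mp hγ)
    | some j =>
      simp only [hr]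
      rw [zm_mul (by rw [hrdet j]; exact one_ne_zero) (by rw [det_SL γ]; exact one_ne_zero)]
      refine hcls _ _ _ _ ?_ (dvd_add (dvd_mul_right _ _)
        (dvd_mul_of_dvd_right (mem_Gamma0_iff.mp hγ) _))
      linear_combination ((1 : ℤ) * (m * j + q * W.u) - (j + W.y) * m) * det_SL γ + hrdet j

end ALData

end Fermat.Agent.Newform

end
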