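import Fermat.Agent.Newform.CuspFun
import Fermat.Prelude.Def_ModularForm_HeckeOperator

/-!
# Sums of slashes over coset representatives
-/

set_option autoImplicit false

noncomputable section

open UpperHalfPlane CongruenceSubgroup
open scoped MatrixGroups ModularForm

namespace Fermat.Agent.Newform

/-- Two families of coset representatives of the same left cosets give the same slash sum. -/
theorem sum_slash_eq_of_cosets {ι : Type*} [Fintype ι] (k : ℤ) (φ : ℍ → ℂ)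
    (Δ : Subgroup (GL (Fin 2) ℝ)) (hφ : ∀ δ ∈ Δ, φ ∣[k] δ = φ) (a b : ι → GL (Fin 2) ℝ)
    (ha : ∀ i i', ∀ δ ∈ Δ, a i = δ * a i' → i = i')
    (hab : ∀ i, ∃ j, ∃ δ ∈ Δ, a i = δ * b j) :
    ∑ i, φ ∣[k] a i = ∑ i, φ ∣[k] b i := by
  choose π δ hδ hπ using hab
  have hinj : Function.Injective π := fun i i' h => by
    refine ha i i' (δ i * (δ i')⁻¹) (mul_mem (hδ i) (inv_mem (hδ i'))) ?_
    rw [hπ i, hπ i', h, mul_assoc, inv_mul_cancel_left]
  conv_rhs => rw [← Equiv.sum_comp (Equiv.ofBijective π (Finite.injective_iff_bijective.mp hinj))]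
  refine Finset.sum_congr rfl fun i _ => ?_
  rw [Equiv.ofBijective_apply, hπ i, SlashAction.slash_mul, hφ _ (hδ i)]

/-- The same, for right translation of a family by `g`. -/
theorem sum_slash_slash_eq_self {ι : Type*} [Fintype ι] (k : ℤ) (φ : ℍ → ℂ)
    (Δ : Subgroup (GL (Fin 2) ℝ)) (hφ : ∀ δ ∈ Δ, φ ∣[k] δ = φ) (r : ι → GL (Fin 2) ℝ)
    (g : GL (Fin 2) ℝ) (hr : ∀ i i', ∀ δ ∈ Δ, r i = δ * r i' → i = i')
    (hg : ∀ i, ∃ j, ∃ δ ∈ Δ, r i * g = δ * r j) :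
    (∑ i, φ ∣[k] r i) ∣[k] g = ∑ i, φ ∣[k] r i := by
  rw [SlashAction.sum_slash]
  simp only [← SlashAction.slash_mul]
  exact sum_slash_eq_of_cosets k φ Δ hφ (fun i => r i * g) r
    (fun i i' δ hδ h => hr i i' δ hδ (mul_right_cancel (h.trans (mul_assoc δ _ _).symm))) hg

/-- The real matrix of an integral matrix. -/
def zm (a b c d : ℤ) : GL (Fin 2) ℝ := qm a b c d

theorem zm_det_ne {a b c d : ℤ} (h : a * d - b * c ≠ 0) :
    (a : ℚ) * d - (b : ℚ) * c ≠ 0 := by exact_mod_cast h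

theorem zm_mul {a b c d a' b' c' d' : ℤ} (h : a * d - b * c ≠ 0) (h' : a' * d' - b' * c' ≠ 0) :
    zm a b c d * zm a' b' c' d' =
      zm (a * a' + b * c') (a * b' + b * d') (c * a' + d * c') (c * b' + d * d') := by
  rw [zm, zm, zm, qm_mul (zm_det_ne h) (zm_det_ne h')]
  congr 1 <;> push_cast <;> rfl

theorem SL_eq_zm (γ : SL(2, ℤ)) :
    (γ : GL (Fin 2) ℝ) = zm (γ 0 0) (γ 0 1) (γ 1 0) (γ 1 1) := qm_SL γ

theorem zm_inj {a b c d a' b' c' d' : ℤ} (h : a * d - b * c ≠ 0) (h' : a' * d' - b' * c' ≠ 0)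
    (e : zm a b c d = zm a' b' c' d') : a = a' ∧ b = b' ∧ c = c' ∧ d = d' := by
  have := congrArg (fun g : GL (Fin 2) ℝ => (g : Matrix (Fin 2) (Fin 2) ℝ)) e
  simp only [zm, val_qm (zm_det_ne h), val_qm (zm_det_ne h')] at this
  refine ⟨?_, ?_, ?_, ?_⟩
  · simpa using congrFun (congrFun this 0) 0
  · simpa using congrFun (congrFun this 0) 1
  · simpa using congrFun (congrFun this 1) 0
  · simpa using congrFun (congrFun this 1) 1

theorem mem_mapGL_Gamma0 {N : ℕ} {a b c d : ℤ} (h : a * d - b * c = 1) (hN : (N : ℤ) ∣ c) :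
    zm a b c d ∈ Subgroup.map (Matrix.SpecialLinearGroup.mapGL ℝ) (Gamma0 N) := by
  refine ⟨slMk a b c d h, ?_, ?_⟩
  · change slMk a b c d h ∈ Gamma0 N
    rw [mem_Gamma0_iff]; exact hN
  · rw [zm, qm_slMk h]; rfl

theorem exists_zm_of_mem_mapGL {N : ℕ} {δ : GL (Fin 2) ℝ}
    (h : δ ∈ Subgroup.map (Matrix.SpecialLinearGroup.mapGL ℝ) (Gamma0 N)) :
    ∃ a b c d : ℤ, a * d - b * c = 1 ∧ (N : ℤ) ∣ c ∧ δ = zm a b c d := by
  obtain ⟨γ, hγ, rfl⟩ := h
  exact ⟨γ 0 0, γ 0 1, γ 1 0, γ 1 1, det_SL γ, mem_Gamma0_iff.mp hγ, SL_eq_zm γ⟩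

variable {ℓ N : ℕ}

/-- The representatives `(ℓ 0; 0 1)`, `(1 j; 0 ℓ)` of the double coset of determinant `ℓ`. -/
def heckeReps (ℓ : ℕ) : Option (Fin ℓ) → GL (Fin 2) ℝ
  | none => zm ℓ 0 0 1
  | some j => zm 1 j 0 ℓ

/-- `T_ℓ` as a sum over coset representatives. -/
theorem heckeT_eq_sum_heckeReps (k : ℤ) (hℓ : 0 < ℓ) (φ : ℍ → ℂ) :
    ModularForm.heckeT k ℓ φ = ∑ i, φ ∣[k] heckeReps ℓ i := by
  have hℓq : (ℓ : ℚ) ≠ 0 := by exact_mod_cast hℓ.ne'
  rw [ModularForm.heckeT_def, Fintype.sum_option, add_comm, ← Fin.sum_univ_eq_sum_range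
    (fun j => φ ∣[k] ModularForm.heckeMatrix ℓ j)]
  congr 1
  · congr 1
    apply Units.ext
    rw [ModularForm.val_heckeDiagMatrix hℓ.ne', heckeReps, zm, val_qm (by simpa using hℓq)]
    simp
  · refine Finset.sum_congr rfl fun j _ => ?_
    congr 1
    apply Units.ext
    rw [ModularForm.val_heckeMatrix hℓ.ne', heckeReps, zm, val_qm (by simpa using hℓq)]
    simp

/-- `U_ℓ` as a sum over upper triangular representatives. -/
theorem heckeU_eq_sum_zm (k : ℤ) (hℓ : 0 < ℓ) (φ : ℍ → ℂ) :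
    ModularForm.heckeU k ℓ φ = ∑ j : Fin ℓ, φ ∣[k] zm 1 j 0 ℓ := by
  have hℓq : (ℓ : ℚ) ≠ 0 := by exact_mod_cast hℓ.ne'
  rw [ModularForm.heckeU_def,
      ← Fin.sum_univ_eq_sum_range (fun j => φ ∣[k] ModularForm.heckeMatrix ℓ j)]
  refine Finset.sum_congr rfl fun j _ => ?_
  congr 1
  apply Units.ext
  rw [ModularForm.val_heckeMatrix hℓ.ne', zm, val_qm (by simpa using hℓq)]
  simp

theorem upperReps_distinct (hℓ : 0 < ℓ) {j j' : Fin ℓ} {δ : GL (Fin 2) ℝ}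
    (hδ : δ ∈ Subgroup.map (Matrix.SpecialLinearGroup.mapGL ℝ) (Gamma0 N))
    (h : zm 1 j 0 ℓ = δ * zm 1 j' 0 ℓ) : j = j' := by
  obtain ⟨a, b, c, d, hdet, -, rfl⟩ := exists_zm_of_mem_mapGL hδ
  have hne : (1 : ℤ) * (ℓ : ℤ) - (j : ℤ) * 0 ≠ 0 := by simp; omega
  rw [zm_mul (by omega) (by simp; omega)] at h
  obtain ⟨h1, h2, h3, h4⟩ := zm_inj hne
    (by
      have e : (a * 1 + b * 0) * (c * (j' : ℤ) + d * (ℓ : ℤ)) -
          (a * (j' : ℤ) + b * (ℓ : ℤ)) * (c * 1 + d * 0) = (a * d - b * c) * ℓ := by ring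
      rw [e, hdet, one_mul]; omega) h
  simp only [mul_one, mul_zero, add_zero] at h1 h3
  subst h1
  simp only [one_mul] at h2
  ext
  rcases lt_trichotomy b 0 with hb | hb | hb
  · have : b * (ℓ : ℤ) ≤ -(ℓ : ℤ) := by nlinarith
    omega
  · subst hb; simp at h2; omega
  · have : (ℓ : ℤ) ≤ b * (ℓ : ℤ) := by nlinarith
    omega

theorem heckeReps_distinct (hℓ : 1 < ℓ) {i i' : Option (Fin ℓ)} {δ : GL (Fin 2) ℝ}
    (hδ : δ ∈ Subgroup.map (Matrix.SpecialLinearGroup.mapGL ℝ) (Gamma0 N))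
    (h : heckeReps ℓ i = δ * heckeReps ℓ i') : i = i' := by
  match i, i' with
  | none, none => rfl
  | some j, some j' => exact congrArg some (upperReps_distinct (by omega) hδ h)
  | some j, none =>
    exfalso
    obtain ⟨a, b, c, d, hdet, -, rfl⟩ := exists_zm_of_mem_mapGL hδ
    rw [heckeReps, heckeReps, zm_mul (by omega) (by simp; omega)] at h
    obtain ⟨h1, -, -, -⟩ := zm_inj (by simp; omega) (by
      have e : (a * (ℓ : ℤ) + b * 0) * (c * 0 + d * 1) - (a * 0 + b * 1) * (c * (ℓ : ℤ) + d * 0) =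
          (a * d - b * c) * ℓ := by ring
      rw [e, hdet, one_mul]; omega) h
    simp only [mul_zero, add_zero] at h1
    have : (ℓ : ℤ) = 1 := Int.eq_one_of_mul_eq_one_left (by omega) h1.symm
    omega
  | none, some j =>
    exfalso
    obtain ⟨a, b, c, d, hdet, -, rfl⟩ := exists_zm_of_mem_mapGL hδ
    rw [heckeReps, heckeReps, zm_mul (by omega) (by simp; omega)] at h
    obtain ⟨-, -, h3, h4⟩ := zm_inj (by simp; omega) (by
      have e : (a * 1 + b * 0) * (c * (j : ℤ) + d * (ℓ : ℤ)) -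
          (a * (j : ℤ) + b * (ℓ : ℤ)) * (c * 1 + d * 0) = (a * d - b * c) * ℓ := by ring
      rw [e, hdet, one_mul]; omega) h
    simp only [mul_one, mul_zero, add_zero] at h3
    subst h3
    simp only [zero_mul, zero_add] at h4
    have : (ℓ : ℤ) = 1 := Int.eq_one_of_mul_eq_one_left (by omega) h4.symm
    omega

/-- Every integral matrix of determinant `ℓ ∤ N` with `N ∣ c` lies in some `Γ₀(N) r`. -/
theorem exists_heckeRep (hℓ : ℓ.Prime) (hℓN : ¬ ℓ ∣ N) {a b c d : ℤ}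
    (hdet : a * d - b * c = ℓ) (hc : (N : ℤ) ∣ c) :
    ∃ i, ∃ δ ∈ Subgroup.map (Matrix.SpecialLinearGroup.mapGL ℝ) (Gamma0 N),
      zm a b c d = δ * heckeReps ℓ i := by
  have hℓP : Prime (ℓ : ℤ) := Nat.prime_iff_prime_int.mp hℓ
  have hℓ0 : (ℓ : ℤ) ≠ 0 := by exact_mod_cast hℓ.ne_zero
  by_cases hac : (ℓ : ℤ) ∣ a ∧ (ℓ : ℤ) ∣ c
  · obtain ⟨⟨a', rfl⟩, ⟨c', rfl⟩⟩ := hac
    have h1 : a' * d - b * c' = 1 := by
      apply mul_left_cancel₀ hℓ0
      linear_combination hdet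
    have hcN : (N : ℤ) ∣ c' := by
      refine Int.dvd_of_dvd_mul_right_of_gcd_one hc ?_
      rw [Int.gcd_natCast_natCast]
      exact Nat.Coprime.symm ((Nat.Prime.coprime_iff_not_dvd hℓ).mpr hℓN)
    refine ⟨none, _, mem_mapGL_Gamma0 h1 hcN, ?_⟩
    rw [heckeReps, zm_mul (by omega) (by simp; exact hℓ.ne_zero)]
    congr 1 <;> ring
  · obtain ⟨x, hx1, hx2⟩ : ∃ x : ℤ, (ℓ : ℤ) ∣ b - a * x ∧ (ℓ : ℤ) ∣ d - c * x := by
      by_cases ha : (ℓ : ℤ) ∣ a
      · obtain ⟨u, v, huv⟩ := (hℓP.coprime_iff_not_dvd.mpr fun h => hac ⟨ha, h⟩)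
        refine ⟨v * d, (hℓP.dvd_or_dvd (a := c) (b := b - a * (v * d)) ?_).resolve_left
          fun h => hac ⟨ha, h⟩, ⟨u * d, by linear_combination (-d) * huv⟩⟩
        exact ⟨-1 + a * u * d, by linear_combination -hdet + (-(a * d)) * huv⟩
      · obtain ⟨u, v, huv⟩ := (hℓP.coprime_iff_not_dvd.mpr ha)
        refine ⟨v * b, ⟨u * b, by linear_combination (-b) * huv⟩,
          (hℓP.dvd_or_dvd (a := a) (b := d - c * (v * b)) ?_).resolve_left ha⟩
        exact ⟨1 + c * u * b, by linear_combination hdet + (-(c * b)) * huv⟩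
    set j : ℕ := (x % ℓ).toNat with hj
    have hj0 : 0 ≤ x % (ℓ : ℤ) := Int.emod_nonneg x hℓ0
    have hjl : j < ℓ := by
      have := Int.emod_lt_of_pos x (show (0 : ℤ) < ℓ by exact_mod_cast hℓ.pos)
      omega
    have hjx : (ℓ : ℤ) ∣ x - j := ⟨x / ℓ, by
      rw [hj, Int.toNat_of_nonneg hj0]; linear_combination (-1 : ℤ) * Int.mul_ediv_add_emod x ℓ⟩
    obtain ⟨b', hb'⟩ : (ℓ : ℤ) ∣ b - a * j := by
      have := dvd_add hx1 (dvd_mul_of_dvd_right hjx a)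
      rwa [show b - a * x + a * (x - j) = b - a * j by ring] at this
    obtain ⟨d', hd'⟩ : (ℓ : ℤ) ∣ d - c * j := by
      have := dvd_add hx2 (dvd_mul_of_dvd_right hjx c)
      rwa [show d - c * x + c * (x - j) = d - c * j by ring] at this
    have h1 : a * d' - b' * c = 1 := by
      apply mul_left_cancel₀ hℓ0
      linear_combination hdet + c * hb' - a * hd'
    refine ⟨some ⟨j, hjl⟩, _, mem_mapGL_Gamma0 h1 hc, ?_⟩
    rw [heckeReps, zm_mul (by omega) (by simp; exact hℓ.ne_zero)]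
    congr 1 <;> linarith

end Fermat.Agent.Newform

end
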