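import Fermat.Agent.Newform.Vanishing
import Fermat.Agent.Hecke.QCoeff

/-!
# Degeneracy maps `f ↦ f(dτ)` and the old space
-/

set_option autoImplicit false

noncomputable section

open UpperHalfPlane CongruenceSubgroup ModularFormClass
open scoped MatrixGroups ModularForm Manifold

namespace Fermat.Agent.Newform

variable {k : ℤ} {M N d : ℕ}

theorem pos_of_mul_dvd [NeZero N] (h : M * d ∣ N) : 0 < d := by
  rcases Nat.eq_zero_or_pos d with rfl | hd
  · exact absurd (by simpa using h) (NeZero.ne N)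
  · exact hd

theorem dilate_slash_eq_self {φ : ℍ → ℂ} (hd : 0 < d) (h : M * d ∣ N)
    (hφ : ∀ γ ∈ Gamma0 M, φ ∣[k] γ = φ) {γ : SL(2, ℤ)} (hγ : γ ∈ Gamma0 N) :
    (φ ∣[k] qm (d : ℚ) 0 0 1) ∣[k] γ = φ ∣[k] qm (d : ℚ) 0 0 1 := by
  obtain ⟨e, he⟩ : ((M : ℤ) * d) ∣ γ 1 0 :=
    (show ((M : ℤ) * d) ∣ (N : ℤ) from by exact_mod_cast h).trans (mem_Gamma0_iff.mp hγ)
  have hd0 := det_SL γ
  have hd' : γ 0 0 * γ 1 1 - (d : ℤ) * γ 0 1 * ((M : ℤ) * e) = 1 := by
    rw [he] at hd0; linarith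
  set γ' := slMk _ _ _ _ hd' with hγ'
  have hmem : γ' ∈ Gamma0 M := by
    rw [mem_Gamma0_iff]; exact dvd_mul_right _ _
  have hdq : (d : ℚ) ≠ 0 := by exact_mod_cast hd.ne'
  have hdQ : ((γ 0 0 : ℤ) : ℚ) * (γ 1 1 : ℤ) - (γ 0 1 : ℤ) * (γ 1 0 : ℤ) = 1 := by
    exact_mod_cast hd0
  have hdQ' : ((γ 0 0 : ℤ) : ℚ) * (γ 1 1 : ℤ) -
      (((d : ℤ) * γ 0 1 : ℤ) : ℚ) * (((M : ℤ) * e : ℤ) : ℚ) = 1 := by exact_mod_cast hd'
  have e1 : qm (d : ℚ) 0 0 1 * (γ : GL (Fin 2) ℝ) = (γ' : GL (Fin 2) ℝ) * qm (d : ℚ) 0 0 1 := by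
    rw [hγ', ← qm_slMk hd', qm_SL γ, qm_mul (by simpa using hdq) (by rw [hdQ]; exact one_ne_zero),
      qm_mul (by rw [hdQ']; exact one_ne_zero) (by simpa using hdq)]
    congr 1 <;> simp [he] <;> ring
  rw [ModularForm.SL_slash _ γ, ← SlashAction.slash_mul, e1, SlashAction.slash_mul,
    ← ModularForm.SL_slash, hφ γ' hmem]

/-- `f ↦ f(dτ)` from level `M` to any level divisible by `M d`, scaled so that the coefficient at
`d n` is `a_n(f)`. -/
def degen (N M d : ℕ) [NeZero N] [NeZero M] (k : ℤ) (h : M * d ∣ N) :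
    CuspForm (Gamma0 M) k →ₗ[ℂ] CuspForm (Gamma0 N) k where
  toFun f := ((IsCuspFun.of_cuspForm f).slash_qm (d : ℚ) 0 0 1 |>.smul
      ((d : ℂ) ^ (1 - k))).toCuspForm
    fun γ hγ => by
      rw [ModularForm.SL_smul_slash, dilate_slash_eq_self (pos_of_mul_dvd h) h
        (fun δ hδ => cuspForm_slash_SL f hδ) hγ]
  map_add' f g := DFunLike.coe_injective <| by
    simp [SlashAction.add_slash, smul_add]
  map_smul' c f := DFunLike.coe_injective <| by
    simp [smul_slash_qm k (a := (d : ℚ)) (b := 0) (c := 0) (d := 1)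
      (by simpa using pos_of_mul_dvd h), smul_comm c]

theorem coe_degen_apply [NeZero N] [NeZero M] (h : M * d ∣ N) (f : CuspForm (Gamma0 M) k) :
    ⇑(degen N M d k h f) = (d : ℂ) ^ (1 - k) • ((f : ℍ → ℂ) ∣[k] qm (d : ℚ) 0 0 1) := rfl

/-- The `q`-expansion of `degen` is that of `f(dτ)`. -/
theorem qCoeff_degen [NeZero N] [NeZero M] (h : M * d ∣ N) (f : CuspForm (Gamma0 M) k) (n : ℕ) :
    qCoeff ⇑(degen N M d k h f) n = if d ∣ n then qCoeff ⇑f (n / d) else 0 := by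
  have hd : 0 < d := pos_of_mul_dvd h
  refine HasQ.qCoeff_eq (c := fun n => if d ∣ n then qCoeff ⇑f (n / d) else 0) ?_ n
  rw [coe_degen_apply]
  refine (((hasQ_cuspForm f).dilate k hd).smul _).congr fun m => ?_
  have : (d : ℂ) ≠ 0 := by exact_mod_cast hd.ne'
  split_ifs
  · rw [← mul_assoc, ← zpow_add₀ this, show 1 - k + (k - 1) = 0 by ring, zpow_zero, one_mul]
  · rw [mul_zero]

/-- Degeneracy maps are injective. -/
theorem degen_injective [NeZero N] [NeZero M] (h : M * d ∣ N) :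
    Function.Injective (degen N M d k h) := by
  intro f g hfg
  refine Hecke.ext_qCoeff fun n => ?_
  have := congrArg (fun F : CuspForm (Gamma0 N) k => qCoeff ⇑F (d * n)) hfg
  simpa [qCoeff_degen, pos_of_mul_dvd h, Nat.mul_div_cancel_left _ (pos_of_mul_dvd h)] using this

/-- Degeneracy maps commute with `T_ℓ`, `ℓ ∤ N`. -/
theorem heckeTLin_degen [NeZero N] [NeZero M] (h : M * d ∣ N) {ℓ : ℕ} (hℓ : ℓ.Prime)
    (hℓN : ¬ ℓ ∣ N) (hℓM : ¬ ℓ ∣ M) (f : CuspForm (Gamma0 M) k) :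
    CuspForm.heckeTLin k hℓ hℓN (degen N M d k h f) =
      degen N M d k h (CuspForm.heckeTLin k hℓ hℓM f) := by
  refine Hecke.ext_qCoeff fun n => ?_
  have hd : d ∣ N := (dvd_mul_left d M).trans h
  have hcop : d.Coprime ℓ :=
    Nat.Coprime.symm ((Nat.Prime.coprime_iff_not_dvd hℓ).mpr fun hl => hℓN (hl.trans hd))
  rw [Hecke.qCoeff_heckeTLin hℓ hℓN]
  simp only [qCoeff_degen]
  by_cases hdn : d ∣ n
  · obtain ⟨m, rfl⟩ := hdn
    rw [if_pos (dvd_mul_of_dvd_left (dvd_mul_right d m) ℓ), if_pos (dvd_mul_right d m),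
      Hecke.qCoeff_heckeTLin hℓ hℓM, mul_assoc, Nat.mul_div_cancel_left _ (pos_of_mul_dvd h),
      Nat.mul_div_cancel_left _ (pos_of_mul_dvd h)]
    by_cases hlm : ℓ ∣ m
    · obtain ⟨r, rfl⟩ := hlm
      rw [if_pos ⟨d * r, by ring⟩, if_pos (dvd_mul_right ℓ r),
        show d * (ℓ * r) = ℓ * (d * r) by ring,
        Nat.mul_div_cancel_left _ hℓ.pos, Nat.mul_div_cancel_left _ hℓ.pos,
        if_pos (dvd_mul_right d r), Nat.mul_div_cancel_left _ (pos_of_mul_dvd h)]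
    · rw [if_neg fun h' => hlm (hcop.symm.dvd_of_dvd_mul_left h'), if_neg hlm]
  · rw [if_neg fun h' => hdn (hcop.dvd_of_dvd_mul_right h'), if_neg hdn]
    split_ifs with hl hd2
    · exact absurd (hd2.trans (Nat.div_dvd_of_dvd hl)) hdn
    · simp
    · simp

/-- Degeneracy maps commute with `U_q` for `q ∣ M` prime to `d`. -/
theorem heckeULin_degen [NeZero N] [NeZero M] (h : M * d ∣ N) {q : ℕ} (hqN : q ∣ N) (hqM : q ∣ M)
    (hqd : d.Coprime q) (f : CuspForm (Gamma0 M) k) :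
    CuspForm.heckeULin k hqN (degen N M d k h f) =
      degen N M d k h (CuspForm.heckeULin k hqM f) := by
  refine Hecke.ext_qCoeff fun n => ?_
  rw [Hecke.qCoeff_heckeULin]
  simp only [qCoeff_degen, Hecke.qCoeff_heckeULin]
  by_cases hdn : d ∣ n
  · obtain ⟨m, rfl⟩ := hdn
    rw [if_pos (dvd_mul_of_dvd_left (dvd_mul_right d m) q), if_pos (dvd_mul_right d m), mul_assoc,
      Nat.mul_div_cancel_left _ (pos_of_mul_dvd h), Nat.mul_div_cancel_left _ (pos_of_mul_dvd h)]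
  · rw [if_neg fun h' => hdn (hqd.dvd_of_dvd_mul_right h'), if_neg hdn]

/-- The level-raising inclusion does not change `q`-expansions. -/
theorem qCoeff_degen_one [NeZero N] [NeZero M] (h : M * 1 ∣ N) (f : CuspForm (Gamma0 M) k) (n : ℕ) :
    qCoeff ⇑(degen N M 1 k h f) n = qCoeff ⇑f n := by
  simp [qCoeff_degen]

theorem neZero_div [NeZero N] {p : ℕ} (hp : p ∈ N.primeFactors) : NeZero (N / p) :=
  ⟨(Nat.div_pos (Nat.le_of_mem_primeFactors hp) (Nat.pos_of_mem_primeFactors hp)).ne'⟩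

theorem div_mul_self_dvd {p : ℕ} (hp : p ∈ N.primeFactors) : N / p * p ∣ N :=
  (Nat.div_mul_cancel (Nat.dvd_of_mem_primeFactors hp)).dvd

/-- `⊕_{p ∣ N} S_k(Γ₀(N/p))`. -/
abbrev OldSource (N : ℕ) (k : ℤ) : Type :=
  (p : N.primeFactors) → CuspForm (Gamma0 (N / (p : ℕ))) k

/-- `(g_p) ↦ ∑_p g_p(pτ)`. -/
def oldMap (N : ℕ) [NeZero N] (k : ℤ) : OldSource N k →ₗ[ℂ] CuspForm (Gamma0 N) k :=
  ∑ p : N.primeFactors,
    (haveI := neZero_div p.2; degen N (N / (p : ℕ)) p k (div_mul_self_dvd p.2)).comp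
      (LinearMap.proj p)

/-- The main lemma in bundled form. -/
theorem mem_range_oldMap [NeZero N] (f : CuspForm (Gamma0 N) k) (P : Finset ℕ)
    (hP : ∀ p ∈ P, p.Prime)
    (h : ∀ n : ℕ, (∀ p ∈ P, ¬ p ∣ n) → qCoeff ⇑f n = 0) :
    f ∈ LinearMap.range (oldMap N k) := by
  classical
  obtain ⟨g, hg, hf⟩ := exists_sum_dilate f P hP h
  have hfil : ∀ p ∈ P.filter (· ∣ N), p ∈ N.primeFactors := fun p hp => by
    simp only [Finset.mem_filter] at hp
    exact Nat.mem_primeFactors.mpr ⟨hP p hp.1, hp.2, NeZero.ne N⟩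
  let G : OldSource N k := fun p =>
    if hp : (p : ℕ) ∈ P.filter (· ∣ N) then
      haveI := neZero_div p.2
      ((p : ℕ) : ℂ) ^ (k - 1) • (hg p hp).1.toCuspForm (hg p hp).2
    else 0
  refine ⟨G, DFunLike.coe_injective ?_⟩
  have hsum : ∀ (s : Finset N.primeFactors) (F : N.primeFactors → CuspForm (Gamma0 N) k),
      ⇑(∑ p ∈ s, F p) = ∑ p ∈ s, ⇑(F p) := fun s F => by
    induction s using Finset.induction_on with
    | empty => simp
    | insert a s ha ih => simp [Finset.sum_insert ha, ih]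
  simp only [oldMap, LinearMap.sum_apply, LinearMap.comp_apply, LinearMap.proj_apply]
  rw [hsum, hf]
  refine (Finset.sum_subset_zero_on_sdiff (s₁ := Finset.univ.filter fun p : N.primeFactors =>
    (p : ℕ) ∈ P.filter (· ∣ N)) (Finset.subset_univ _) (fun p hp => ?_)
        (fun p _ => rfl)).symm.trans ?_
  · simp only [Finset.mem_sdiff, Finset.mem_univ, true_and, Finset.mem_filter] at hp
    simp [G, Finset.mem_filter, hp]
  · refine Finset.sum_bij (fun p _ => (p : ℕ)) (fun p hp => (Finset.mem_filter.mp hp).2)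
      (fun p _ q _ h => Subtype.ext h)
      (fun p hp => ⟨⟨p, hfil p hp⟩, Finset.mem_filter.mpr ⟨Finset.mem_univ _, hp⟩, rfl⟩)
      fun p hp => ?_
    have hp' := (Finset.mem_filter.mp hp).2
    have hpos : (0 : ℚ) < (p : ℕ) := by exact_mod_cast Nat.pos_of_mem_primeFactors p.2
    have hp0 : ((p : ℕ) : ℂ) ≠ 0 := by exact_mod_cast (Nat.pos_of_mem_primeFactors p.2).ne'
    have := neZero_div p.2
    simp only [G, dif_pos hp']
    rw [coe_degen_apply, FunLike.coe_smul, IsCuspFun.coe_toCuspForm,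
      smul_slash_qm k (by simpa using hpos), smul_smul, ← zpow_add₀ hp0,
      show 1 - k + (k - 1) = 0 by ring, zpow_zero, one_smul]

end Fermat.Agent.Newform

end
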