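import Mathlib

/-!
# Carlton's lemma on fixed vectors in representations of finite groups
-/

set_option autoImplicit false

noncomputable section

namespace Fermat.Agent.Newform

variable {G V : Type*} [Group G] [Finite G] [AddCommGroup V] [Module ℂ V]

/-- Average of a representation over a subgroup. -/
def avgSubgroup (ρ : G →* Module.End ℂ V) (K : Subgroup G) : Module.End ℂ V :=
  letI := Fintype.ofFinite K
  (Nat.card K : ℂ)⁻¹ • ∑ x : K, ρ x

/-- Average of a representation over the powers `t^j`, `j < m`. -/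
def avgPowers (ρ : G →* Module.End ℂ V) (t : G) (m : ℕ) : Module.End ℂ V :=
  (m : ℂ)⁻¹ • ∑ j ∈ Finset.range m, ρ (t ^ j)

variable (ρ : G →* Module.End ℂ V)

theorem map_avgSubgroup_apply {K : Subgroup G} {y : G} (hy : y ∈ K) (v : V) :
    ρ y (avgSubgroup ρ K v) = avgSubgroup ρ K v := by
  let _ := Fintype.ofFinite K
  simp only [avgSubgroup, LinearMap.smul_apply, LinearMap.sum_apply, map_smul, map_sum]
  refine congrArg _ (Fintype.sum_equiv (Equiv.mulLeft ⟨y, hy⟩) _ _ fun x => ?_)
  simp

theorem avgSubgroup_apply_eq_self {K : Subgroup G} {v : V} (h : ∀ y ∈ K, ρ y v = v) :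
    avgSubgroup ρ K v = v := by
  let _ := Fintype.ofFinite K
  simp [avgSubgroup, LinearMap.sum_apply, h _ (SetLike.coe_mem _), Nat.card_eq_fintype_card,
    ← Nat.cast_smul_eq_nsmul ℂ, smul_smul]

theorem avgSubgroup_commute_of_normalizes {K : Subgroup G} {y : G}
    (h : ∀ x ∈ K, y * x * y⁻¹ ∈ K) (h' : ∀ x ∈ K, y⁻¹ * x * y ∈ K) :
    Commute (ρ y) (avgSubgroup ρ K) := by
  let _ := Fintype.ofFinite K
  refine Commute.smul_right ?_ _
  rw [Commute, SemiconjBy, Finset.mul_sum, Finset.sum_mul]
  refine Fintype.sum_equiv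
    { toFun := fun x => ⟨y * x * y⁻¹, h _ x.2⟩
      invFun := fun x => ⟨y⁻¹ * x * y, h' _ x.2⟩
      left_inv := fun x => by ext; simp [mul_assoc]
      right_inv := fun x => by ext; simp [mul_assoc] } _ _ fun x => ?_
  simp [← map_mul]

theorem avgSubgroup_commute {K : Subgroup G} {y : G} (h : ∀ x ∈ K, Commute y x) :
    Commute (ρ y) (avgSubgroup ρ K) := by
  refine avgSubgroup_commute_of_normalizes ρ (fun x hx => ?_) fun x hx => ?_
  · rwa [(h x hx).eq, mul_inv_cancel_right]
  · rwa [mul_assoc, ← (h x hx).eq, inv_mul_cancel_left]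

theorem avgSubgroup_commute_avgSubgroup {K L : Subgroup G}
    (h : ∀ x ∈ K, ∀ y ∈ L, Commute x y) : Commute (avgSubgroup ρ K) (avgSubgroup ρ L) := by
  let _ := Fintype.ofFinite K
  refine Commute.smul_left ?_ _
  refine Commute.sum_left Finset.univ (fun x : K => ρ (x : G)) _ fun x _ => ?_
  exact avgSubgroup_commute ρ (fun y hy => h (x : G) x.2 y hy)

theorem avgPowers_commute_avgSubgroup {K : Subgroup G} {t : G} {m : ℕ}
    (h : t ∈ K ∨ ∀ x ∈ K, Commute t x) : Commute (avgPowers ρ t m) (avgSubgroup ρ K) := by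
  refine (Commute.sum_left _ _ _ fun j _ => ?_).smul_left _
  rcases h with h | h
  · exact avgSubgroup_commute_of_normalizes ρ
      (fun x hx => mul_mem (mul_mem (pow_mem h j) hx) (inv_mem (pow_mem h j)))
      (fun x hx => mul_mem (mul_mem (inv_mem (pow_mem h j)) hx) (pow_mem h j))
  · exact avgSubgroup_commute ρ fun x hx => (h x hx).pow_left j

omit [Finite G] in
theorem map_avgPowers_apply {t : G} {m : ℕ} (hm : t ^ m = 1) (v : V) :
    ρ t (avgPowers ρ t m v) = avgPowers ρ t m v := by
  simp only [avgPowers, LinearMap.smul_apply, LinearMap.sum_apply, map_smul, map_sum]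
  refine congrArg _ ?_
  have e : ∀ j, ρ t (ρ (t ^ j) v) = ρ (t ^ (j + 1)) v := fun j => by
    rw [pow_succ', map_mul]; rfl
  simp only [e]
  have h1 := Finset.sum_range_succ' (fun j => ρ (t ^ j) v) m
  have h2 := Finset.sum_range_succ (fun j => ρ (t ^ j) v) m
  rw [hm] at h2
  simp only [pow_zero] at h1
  exact add_right_cancel (h1.symm.trans h2)

/-- The product of the `1 - e`. -/
def projCompl {ι : Type*} (e : ι → Module.End ℂ V) : List ι → Module.End ℂ V
  | [] => 1
  | i :: l => (1 - e i) * projCompl e l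

theorem commute_projCompl {ι : Type*} {e : ι → Module.End ℂ V} {A : Module.End ℂ V} :
    ∀ {l : List ι}, (∀ i ∈ l, Commute A (e i)) → Commute A (projCompl e l)
  | [], _ => Commute.one_right A
  | i :: _, h => ((Commute.one_right A).sub_right (h i (List.mem_cons_self ..))).mul_right
      (commute_projCompl fun j hj => h j (List.mem_cons_of_mem _ hj))

variable {ι : Type*} {s : List ι} (hs : s.Nodup) (H K : ι → Subgroup G) (t : ι → G) (m : ι → ℕ)
  (B : Subgroup G)
  (hHK : ∀ i ∈ s, H i ≤ K i) (htK : ∀ i ∈ s, t i ∈ K i) (htm : ∀ i ∈ s, t i ^ m i = 1)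
  (hcomm : ∀ i ∈ s, ∀ j ∈ s, i ≠ j → ∀ x ∈ K i, ∀ y ∈ K j, Commute x y)
  (hgen : ∀ i ∈ s, ∀ w : V, (∀ y ∈ H i, ρ y w = w) → ρ (t i) w = w → ∀ y ∈ K i, ρ y w = w)
  (hBK : ∀ i ∈ s, ∀ y ∈ B, ∀ x ∈ K i, y * x * y⁻¹ ∈ K i)

include hs hHK htK htm hcomm hgen in
theorem eq_zero_of_projCompl_avgPowers_eq_zero {l : List ι} (hl : l.Sublist s) {w : V}
    (hH : ∀ i ∈ l, ∀ y ∈ H i, ρ y w = w) (hK : ∀ i ∈ l, avgSubgroup ρ (K i) w = 0)
    (h0 : projCompl (fun i => avgPowers ρ (t i) (m i)) l w = 0) : w = 0 := by
  induction l generalizing w with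
  | nil => simpa [projCompl] using h0
  | cons i l ih =>
    have hlS : ∀ j ∈ i :: l, j ∈ s := fun j hj => hl.subset hj
    have hil : i ∉ l := (List.nodup_cons.mp (hs.sublist hl)).1
    have hne : ∀ j ∈ l, i ≠ j := fun j hj h => hil (h ▸ hj)
    have hi := hlS i (List.mem_cons_self ..)
    set E := projCompl (fun i => avgPowers ρ (t i) (m i)) l with hE
    set y := E w with hy
    have hfix : ∀ z ∈ H i, ρ z y = y := by
      intro z hz
      have hc : Commute (ρ z) E := commute_projCompl fun j hj => by
        refine (Commute.sum_right _ _ _ fun r _ => ?_).smul_right _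
        exact ((hcomm i hi j (hlS j (List.mem_cons_of_mem _ hj)) (hne j hj) z (hHK i hi hz)
          (t j) (htK j (hlS j (List.mem_cons_of_mem _ hj)))).pow_right r).map ρ
      have := LinearMap.congr_fun hc.eq w
      simp only [Module.End.mul_apply] at this
      rw [hy, this, hH i (List.mem_cons_self ..) z hz]
    have hKy : avgSubgroup ρ (K i) y = 0 := by
      have hc : Commute (avgSubgroup ρ (K i)) E := commute_projCompl fun j hj =>
        (avgPowers_commute_avgSubgroup ρ (Or.inr fun x hx =>
          (hcomm i hi j (hlS j (List.mem_cons_of_mem _ hj)) (hne j hj) x hx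
            (t j) (htK j (hlS j (List.mem_cons_of_mem _ hj)))).symm)).symm
      have := LinearMap.congr_fun hc.eq w
      simp only [Module.End.mul_apply] at this
      rw [hy, this, hK i (List.mem_cons_self ..), map_zero]
    have hty : avgPowers ρ (t i) (m i) y = y := by
      simp only [projCompl, Module.End.mul_apply, LinearMap.sub_apply, Module.End.one_apply,
        ← hE, ← hy, sub_eq_zero] at h0
      exact h0.symm
    have ht : ρ (t i) y = y := by rw [← hty, map_avgPowers_apply ρ (htm i hi)]
    have hy0 : y = 0 :=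
      (avgSubgroup_apply_eq_self ρ (hgen i hi y hfix ht)).symm.trans hKy
    exact ih ((List.sublist_cons_self i l).trans hl)
      (fun j hj => hH j (List.mem_cons_of_mem _ hj))
      (fun j hj => hK j (List.mem_cons_of_mem _ hj)) hy0

include hBK in
theorem exists_eq_sum_sub_projCompl_avgSubgroup {l : List ι} (hl : l.Sublist s) {v : V}
    (hB : ∀ y ∈ B, ρ y v = v) :
    ∃ w : List V, (∀ i ∈ l, ∀ y ∈ B,
        ρ y (projCompl (fun i => avgSubgroup ρ (K i)) l v) =
          projCompl (fun i => avgSubgroup ρ (K i)) l v) ∧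
      List.Forall₂ (fun i u => (∀ y ∈ K i, ρ y u = u) ∧ ∀ y ∈ B, ρ y u = u) l w ∧
      v - projCompl (fun i => avgSubgroup ρ (K i)) l v = w.sum := by
  induction l with
  | nil => exact ⟨[], by simp, List.Forall₂.nil, by simp [projCompl]⟩
  | cons i l ih =>
    obtain ⟨w, -, hw, hsum⟩ := ih ((List.sublist_cons_self i l).trans hl)
    have hi := hl.subset (List.mem_cons_self ..)
    have hBfix : ∀ (l' : List ι), l'.Sublist s → ∀ y ∈ B,
        ρ y (projCompl (fun i => avgSubgroup ρ (K i)) l' v) =
          projCompl (fun i => avgSubgroup ρ (K i)) l' v := by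
      intro l' hl' y hy
      have hc : Commute (ρ y) (projCompl (fun i => avgSubgroup ρ (K i)) l') :=
        commute_projCompl fun j hj =>
          avgSubgroup_commute_of_normalizes ρ (hBK j (hl'.subset hj) y hy) fun x hx => by
            simpa using hBK j (hl'.subset hj) y⁻¹ (inv_mem hy) x hx
      have := LinearMap.congr_fun hc.eq v
      simp only [Module.End.mul_apply] at this
      rw [this, hB y hy]
    set u := avgSubgroup ρ (K i) (projCompl (fun i => avgSubgroup ρ (K i)) l v) with hu
    refine ⟨u :: w, fun _ _ => hBfix _ hl,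
      List.Forall₂.cons ⟨fun y hy => ?_, fun y hy => ?_⟩ hw, ?_⟩
    · exact map_avgSubgroup_apply ρ hy _
    · have hc : Commute (ρ y) (avgSubgroup ρ (K i)) :=
        avgSubgroup_commute_of_normalizes ρ (hBK i hi y hy) fun x hx => by
          simpa using hBK i hi y⁻¹ (inv_mem hy) x hx
      have := LinearMap.congr_fun hc.eq (projCompl (fun i => avgSubgroup ρ (K i)) l v)
      simp only [Module.End.mul_apply] at this
      rw [hu, this, hBfix l ((List.sublist_cons_self i l).trans hl) y hy]
    · simp only [projCompl, Module.End.mul_apply, LinearMap.sub_apply, Module.End.one_apply,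
        List.sum_cons, ← hu, ← hsum]
      abel

include hs hHK htK htm hcomm hgen hBK in
/-- A vector fixed by every `H i` (inside `B`) and killed by every `∏ (1 - avg ⟨t i⟩)` is a sum of
vectors fixed by the various `K i` and `B`. -/
theorem exists_sum_eq_of_projCompl_eq_zero (hHB : ∀ i ∈ s, H i ≤ B) {v : V}
    (hB : ∀ y ∈ B, ρ y v = v)
    (h0 : projCompl (fun i => avgPowers ρ (t i) (m i)) s v = 0) :
    ∃ w : List V, List.Forall₂ (fun i u => (∀ y ∈ K i, ρ y u = u) ∧ ∀ y ∈ B, ρ y u = u) s w ∧
      v = w.sum := by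
  obtain ⟨w, hfix, hw, hsum⟩ :=
    exists_eq_sum_sub_projCompl_avgSubgroup ρ (s := s) K B hBK (List.Sublist.refl s) hB
  refine ⟨w, hw, ?_⟩
  set P := projCompl (fun i => avgSubgroup ρ (K i)) s with hP
  suffices hPv : P v = 0 by rw [← hsum, hPv, sub_zero]
  refine eq_zero_of_projCompl_avgPowers_eq_zero ρ hs H K t m hHK htK htm hcomm hgen
    (List.Sublist.refl s) (fun i hi y hy => hfix i hi y (hHB i hi hy)) (fun i hi => ?_) ?_
  · have key : ∀ l : List ι, l.Sublist s → i ∈ l →
        avgSubgroup ρ (K i) (projCompl (fun i => avgSubgroup ρ (K i)) l v) = 0 := by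
      intro l hl hil
      induction l with
      | nil => simp at hil
      | cons j l ih =>
        simp only [projCompl, Module.End.mul_apply, LinearMap.sub_apply, Module.End.one_apply]
        rcases eq_or_ne i j with rfl | hij
        · rw [map_sub, avgSubgroup_apply_eq_self ρ (fun y hy => map_avgSubgroup_apply ρ hy _),
            sub_self]
        · have hil' : i ∈ l := by simpa [hij] using hil
          have h2 := ih ((List.sublist_cons_self j l).trans hl) hil'
          have hc : Commute (avgSubgroup ρ (K i)) (avgSubgroup ρ (K j)) :=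
            avgSubgroup_commute_avgSubgroup ρ
              (hcomm i (hl.subset hil) j (hl.subset (List.mem_cons_self ..)) hij)
          have h3 := LinearMap.congr_fun hc.eq (projCompl (fun i => avgSubgroup ρ (K i)) l v)
          simp only [Module.End.mul_apply] at h3
          rw [map_sub, h2, h3, h2, map_zero, sub_zero]
    exact key s (List.Sublist.refl s) hi
  · have hc : Commute (projCompl (fun i => avgPowers ρ (t i) (m i)) s) P :=
      commute_projCompl fun j hj => (commute_projCompl fun i hi => by
        refine (avgPowers_commute_avgSubgroup ρ ?_).symm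
        rcases eq_or_ne i j with rfl | hij
        · exact Or.inl (htK i hi)
        · exact Or.inr fun x hx => hcomm i hi j hj hij _ (htK i hi) x hx).symm
    have h1 := LinearMap.congr_fun hc.eq v
    simp only [Module.End.mul_apply] at h1
    rw [h1, h0, map_zero]

end Fermat.Agent.Newform

end
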