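import Fermat.Agent.Newform.Orthogonal

/-!
# The level of a newform is determined by almost all its coefficients
-/

set_option autoImplicit false

noncomputable section

open UpperHalfPlane CongruenceSubgroup ModularFormClass
open scoped MatrixGroups ModularForm Manifold ComplexConjugate

namespace Fermat.Agent.Newform

open Fermat.Agent.Petersson

variable {L M M' p : ℕ}

section AvgU

variable [NeZero L]

/-- `avgU` on forms of a level divisible by `p²`. -/
def avgForm (hp : 0 < p) (h2 : p ^ 2 ∣ L) (f : CuspForm (Gamma0 L) 2) : CuspForm (Gamma0 L) 2 :=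
  ((IsCuspFun.of_cuspForm f).avgU p).toCuspForm fun _ hγ =>
    avgU_slash_eq_self hp dvd_rfl h2 (fun _ hδ => cuspForm_slash_SL f hδ) hγ

theorem qCoeff_avgForm (hp : 0 < p) (h2 : p ^ 2 ∣ L) (f : CuspForm (Gamma0 L) 2) (n : ℕ) :
    qCoeff ⇑(avgForm hp h2 f) n = if p ∣ n then qCoeff ⇑f n else 0 :=
  HasQ.qCoeff_eq (c := fun n => if p ∣ n then qCoeff ⇑f n else 0)
    ((hasQ_cuspForm f).avgU 2 hp) n

theorem avgU_eq_slash_heckeU [NeZero p] (φ : ℍ → ℂ) :
    avgU 2 p φ = (p : ℂ)⁻¹ • (ModularForm.heckeU 2 p φ ∣[(2 : ℤ)] (diagR p)⁻¹) := by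
  rw [avgU, heckeU_eq_sum_zm 2 (NeZero.pos p), SlashAction.sum_slash, ← Fin.sum_univ_eq_sum_range]
  congr 1
  refine Finset.sum_congr rfl fun j _ => ?_
  rw [← SlashAction.slash_mul]
  congr 1
  rw [eq_mul_inv_iff_mul_eq, diagR, zm, zm,
    qm_mul (by simp) (by simpa using NeZero.ne (p : ℚ))]
  congr 1 <;> simp [NeZero.ne (p : ℚ)]

/-- `avgU` is self-adjoint. -/
theorem pairing0_avgForm (hp : 0 < p) (h2 : p ^ 2 ∣ L) (f g : CuspForm (Gamma0 L) 2) :
    pairing0 L (avgForm hp h2 f) g = pairing0 L f (avgForm hp h2 g) := by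
  have : NeZero p := ⟨hp.ne'⟩
  have hpL : p ∣ L := (dvd_pow_self p two_ne_zero).trans h2
  set K := Gamma (L * p)
  have hK : ∀ a b : CuspForm (Gamma0 L) 2, pairing0 L a b = ip K ⇑a ⇑b := fun a b =>
    (ip_eq_of_le (Gamma_mono (dvd_mul_right L p)) (bd_cuspForm a) (bd_cuspForm b)
      (inv_of_dvd a dvd_rfl) (inv_of_dvd b dvd_rfl)).symm
  have key : ∀ a b : CuspForm (Gamma0 L) 2, ip K ⇑(avgForm hp h2 a) ⇑b =
      (p : ℂ)⁻¹ * ((p : ℂ)⁻¹ *
          ip K ⇑(CuspForm.heckeULin 2 hpL a) ⇑(CuspForm.heckeULin 2 hpL b)) := by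
    intro a b
    set u := CuspForm.heckeULin 2 hpL a with hu
    rw [show (⇑(avgForm hp h2 a) : ℍ → ℂ) = avgU 2 p ⇑a from rfl, avgU_eq_slash_heckeU,
      ip_smul_left, map_inv₀, Complex.conj_natCast,
      show ModularForm.heckeU 2 p ⇑a = ⇑u from rfl, ip_conj_symm (⇑b : ℍ → ℂ),
      ← ip_slash_diagR (bd_cuspForm b) (bd_cuspForm u) (inv_of_dvd b dvd_rfl)
        (inv_of_dvd u dvd_rfl), ← ip_conj_symm]
    congr 1
    have hrep : ∀ j : Fin p, (⇑b : ℍ → ℂ) ∣[(2 : ℤ)] zm 1 j 0 p =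
        ((⇑b : ℍ → ℂ) ∣[(2 : ℤ)] diagR p) ∣[(2 : ℤ)] (ModularGroup.T ^ (j : ℤ)) := fun j => by
      rw [upper_eq, map_one, map_one, one_mul, SlashAction.slash_mul, ← ModularForm.SL_slash]
    rw [CuspForm.coe_heckeULin_apply 2 hpL b, heckeU_eq_sum_zm 2 hp,
      ip_sum_right _ (fun j _ => by
        rw [hrep]; exact ((bd_cuspForm b).slash det_diagR_pos).slash_SL _) (bd_cuspForm u),
      Finset.sum_congr rfl (g := fun _ => ip K ⇑u ((⇑b : ℍ → ℂ) ∣[(2 : ℤ)] diagR p))
        fun (j : Fin p) _ => ?_,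
      Finset.sum_const, Finset.card_univ, Fintype.card_fin, nsmul_eq_mul,
      inv_mul_cancel_left₀ (by exact_mod_cast hp.ne')]
    rw [hrep]
    conv_lhs => rw [show (⇑u : ℍ → ℂ) = (⇑u : ℍ → ℂ) ∣[(2 : ℤ)] (ModularGroup.T ^ (j : ℤ)) from
      (cuspForm_slash_SL u (T_zpow_mem_Gamma0 L _)).symm]
    exact ip_slash_SL (bd_cuspForm u) ((bd_cuspForm b).slash det_diagR_pos)
      (inv_of_dvd u (dvd_mul_right L p)) (inv_slash_diagR (inv_of_dvd b dvd_rfl)) _
  rw [hK, hK, key, ip_conj_symm (⇑(avgForm hp h2 g) : ℍ → ℂ), key]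
  simp only [map_mul, map_inv₀, Complex.conj_natCast, ← ip_conj_symm]

/-- `∏ (1 - avgU p)` on forms. -/
def projForm (l : List ℕ) (h : ∀ p ∈ l, 0 < p ∧ p ^ 2 ∣ L) (f : CuspForm (Gamma0 L) 2) :
    CuspForm (Gamma0 L) 2 :=
  ((IsCuspFun.of_cuspForm f).projU l).toCuspForm
    (projU_slash_eq_self (fun _ hδ => cuspForm_slash_SL f hδ) (fun q hq => (h q hq).1) dvd_rfl
      fun q hq => (h q hq).2)

theorem qCoeff_projForm (l : List ℕ) (h : ∀ p ∈ l, 0 < p ∧ p ^ 2 ∣ L)
    (f : CuspForm (Gamma0 L) 2) (n : ℕ) :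
    qCoeff ⇑(projForm l h f) n = if ∀ p ∈ l, ¬ p ∣ n then qCoeff ⇑f n else 0 :=
  HasQ.qCoeff_eq (c := fun n => if ∀ p ∈ l, ¬ p ∣ n then qCoeff ⇑f n else 0)
    ((hasQ_cuspForm f).projU fun q hq => (h q hq).1) n

theorem pairing0_projForm :
    ∀ (l : List ℕ) (h : ∀ p ∈ l, 0 < p ∧ p ^ 2 ∣ L) (f g : CuspForm (Gamma0 L) 2),
      pairing0 L (projForm l h f) g = pairing0 L f (projForm l h g)
  | [], _, f, g => rfl
  | p :: l, h, f, g => by
    have hl : ∀ q ∈ l, 0 < q ∧ q ^ 2 ∣ L := fun q hq => h q (List.mem_cons_of_mem _ hq)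
    obtain ⟨hp, hp2⟩ := h p (List.mem_cons_self ..)
    have e1 : projForm (p :: l) h f = projForm l hl f - avgForm hp hp2 (projForm l hl f) :=
      DFunLike.coe_injective rfl
    have e2 : projForm (p :: l) h g = projForm l hl g - projForm l hl (avgForm hp hp2 g) := by
      refine Hecke.ext_qCoeff fun n => ?_
      simp only [Hecke.qCoeff_sub, qCoeff_projForm, qCoeff_avgForm]
      by_cases h1 : p ∣ n <;> by_cases h2 : ∀ q ∈ l, ¬ q ∣ n <;> simp [h1, h2]
    rw [e1, e2, map_sub, LinearMap.sub_apply, map_sub, pairing0_avgForm,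
      pairing0_projForm l hl, pairing0_projForm l hl]

end AvgU

variable [NeZero M] [NeZero M']

/-- The level of a newform divides, prime by prime, every level at which its system occurs as a
newform. -/
theorem factorization_le_of_agree {g : CuspForm (Gamma0 M) 2} {g' : CuspForm (Gamma0 M') 2}
    (hg : g.IsNewform) (hg' : g'.IsNewform) (S : Finset ℕ)
    (h : ∀ ℓ : ℕ, ℓ.Prime → ℓ ∉ S → qCoeff ⇑g ℓ = qCoeff ⇑g' ℓ) (q : ℕ) :
    M'.factorization q ≤ M.factorization q := by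
  classical
  by_contra hlt
  push Not at hlt
  have hq : q.Prime := Nat.prime_of_mem_primeFactors (n := M') <| by
    rw [← Nat.support_factorization, Finsupp.mem_support_iff]; omega
  have hqM' : q ∣ M' := Nat.dvd_of_factorization_pos (by omega)
  set L₀ := Nat.lcm M M'
  have hL₀ : L₀ ≠ 0 := Nat.lcm_ne_zero (NeZero.ne M) (NeZero.ne M')
  set s := L₀.primeFactors.erase q
  set π := ∏ r ∈ s, r ^ 2
  have hπ : π ≠ 0 := Finset.prod_ne_zero_iff.mpr fun r hr =>
    pow_ne_zero 2 (Nat.prime_of_mem_primeFactors (Finset.mem_of_mem_erase hr)).ne_zero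
  set L := L₀ * π
  have : NeZero L := ⟨mul_ne_zero hL₀ hπ⟩
  have hvL : L.factorization q = M'.factorization q := by
    rw [Nat.factorization_mul hL₀ hπ, Finsupp.add_apply, Nat.factorization_eq_zero_of_not_dvd
      (n := π) (p := q), add_zero, Nat.factorization_lcm (NeZero.ne M) (NeZero.ne M'),
      Finsupp.sup_apply, max_eq_right hlt.le]
    intro hd
    obtain ⟨r, hr, hrd⟩ := (hq.prime.dvd_finsetProd_iff _).mp hd
    exact Finset.ne_of_mem_erase hr ((Nat.prime_dvd_prime_iff_eq hq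
      (Nat.prime_of_mem_primeFactors (Finset.mem_of_mem_erase hr))).mp (hq.dvd_of_dvd_pow hrd)).symm
  have hML : M ∣ L := (Nat.dvd_lcm_left M M').trans (dvd_mul_right _ _)
  have hM'L : M' ∣ L := (Nat.dvd_lcm_right M M').trans (dvd_mul_right _ _)
  have hqL : q ∣ L := hqM'.trans hM'L
  set K := L / q
  have : NeZero K := neZero_div (Nat.mem_primeFactors.mpr ⟨hq, hqL, NeZero.ne L⟩)
  have hKL : K ∣ L := Nat.div_dvd_of_dvd hqL
  have hKf : ∀ r, K.factorization r = L.factorization r - if r = q then 1 else 0 := fun r => by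
    rw [Nat.factorization_div hqL, hq.factorization, Finsupp.tsub_apply, Finsupp.single_apply]
    simp [eq_comm]
  have hMK : M ∣ K := (Nat.factorization_le_iff_dvd (NeZero.ne M) (NeZero.ne K)).mp fun r => by
    have h1 := (Nat.factorization_le_iff_dvd (NeZero.ne M) (NeZero.ne L)).mpr hML r
    rw [hKf]
    split_ifs with hr
    · subst hr; omega
    · omega
  have hM'K : ¬ M' ∣ K := fun hd => by
    have h1 := (Nat.factorization_le_iff_dvd (NeZero.ne M') (NeZero.ne K)).mpr hd q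
    rw [hKf, if_pos rfl] at h1
    omega
  have hDK : M' / q ∣ K := Nat.div_dvd_div hqM' hM'L
  have hl : ∀ r ∈ s.toList, 0 < r ∧ r ^ 2 ∣ L := fun r hr =>
    ⟨(Nat.prime_of_mem_primeFactors (Finset.mem_of_mem_erase (Finset.mem_toList.mp hr))).pos,
      (show r ^ 2 ∣ π from Finset.dvd_prod_of_mem (fun t => t ^ 2) (Finset.mem_toList.mp hr)).trans
        (dvd_mul_left π L₀)⟩
  have hlK : ∀ r ∈ s.toList, 0 < r ∧ r ^ 2 ∣ K := fun r hr => by
    refine ⟨(hl r hr).1, ?_⟩
    have hr' := Finset.mem_toList.mp hr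
    rw [show K = L₀ / q * π from Nat.mul_div_right_comm
      (hqM'.trans (Nat.dvd_lcm_right M M')) π]
    exact (show r ^ 2 ∣ π from Finset.dvd_prod_of_mem (fun t => t ^ 2) hr').trans (dvd_mul_left π _)
  set G := degen L M 1 2 (by simpa using hML) g
  set G' := degen L M' 1 2 (by simpa using hM'L) g'
  set A := projForm s.toList hl G
  set B := projForm s.toList hl G'
  have hagree : ∀ n, (∀ r ∈ L.primeFactors, ¬ r ∣ n) → qCoeff ⇑(G - G') n = 0 :=
    (qCoeff_eq_zero_of_eigen_finite (G - G') S (fun r => qCoeff ⇑g r)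
      (fun r hr hrL hrS => by
        rw [map_sub, isNormalizedEigenform_heckeT hg.1 L _ hr hrL,
          isNormalizedEigenform_heckeT hg'.1 L _ hr hrL, ← h r hr hrS, smul_sub])
      (by simp only [Hecke.qCoeff_sub, G, G', qCoeff_degen_one]
          rw [hg.1.qCoeff_one, hg'.1.qCoeff_one, sub_self])).1
  -- `A - B` is supported on multiples of `q`
  have hsupp : ∀ n, (∀ r ∈ ({q} : Finset ℕ), ¬ r ∣ n) → qCoeff ⇑(A - B) n = 0 := by
    intro n hn
    simp only [Finset.mem_singleton, forall_eq] at hn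
    simp only [Hecke.qCoeff_sub, A, B, qCoeff_projForm]
    split_ifs with hc
    · have := hagree n fun r hr hd => ?_
      · rwa [Hecke.qCoeff_sub] at this
      have hr' := Nat.prime_of_mem_primeFactors hr
      by_cases hrq : r = q
      · exact hn (hrq ▸ hd)
      refine hc r (Finset.mem_toList.mpr (Finset.mem_erase.mpr ⟨hrq, ?_⟩)) hd
      rw [Nat.mem_primeFactors]
      refine ⟨hr', ?_, hL₀⟩
      rcases hr'.dvd_mul.mp (Nat.dvd_of_mem_primeFactors hr) with hh | hh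
      · exact hh
      · obtain ⟨t, ht, htd⟩ := (hr'.prime.dvd_finsetProd_iff _).mp hh
        rw [(Nat.prime_dvd_prime_iff_eq hr' (Nat.prime_of_mem_primeFactors
          (Finset.mem_of_mem_erase ht))).mp (hr'.dvd_of_dvd_pow htd)]
        exact Nat.dvd_of_mem_primeFactors (Finset.mem_of_mem_erase ht)
    · rw [sub_zero]
  obtain ⟨u, hu, hAB⟩ := exists_sum_dilate_of_primes_dvd (A - B) {q}
    (fun r hr => by rw [Finset.mem_singleton] at hr; subst hr; exact ⟨hq, hqL⟩) hsupp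
  rw [Finset.sum_singleton] at hAB
  let x : CuspForm (Gamma0 K) 2 :=
    ((hu q (Finset.mem_singleton_self q)).1).toCuspForm (hu q (Finset.mem_singleton_self q)).2
  -- both `A` and `A - B` are orthogonal to `G'`
  have hPP : ∀ F : CuspForm (Gamma0 L) 2,
      projForm s.toList hl (projForm s.toList hl F) = projForm s.toList hl F := fun F =>
    Hecke.ext_qCoeff fun n => by simp only [qCoeff_projForm]; split_ifs <;> rfl
  have hA : pairing0 L G' A = 0 := by
    have : (⇑A : ℍ → ℂ) = ⇑(projForm s.toList hlK (degen K M 1 2 (by simpa using hMK) g)) := by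
      show projU 2 s.toList ⇑G = projU 2 s.toList ⇑(degen K M 1 2 _ g)
      simp only [G, coe_degen_one]
    rw [pairing0, pairing_apply, this, show (⇑G' : ℍ → ℂ) = ⇑g' from coe_degen_one _ _]
    exact ip_newform_of_not_dvd hg' hq hqM' hDK hM'K hM'L hKL _
  have hF : pairing0 L G' (A - B) = 0 := by
    have : NeZero q := ⟨hq.ne_zero⟩
    have e : ip (Gamma (L * q)) ⇑G' ⇑(A - B) = 0 := by
      rw [show (⇑G' : ℍ → ℂ) = ⇑g' from coe_degen_one _ _, hAB]
      simpa [zm, x] using ip_newform_dilate hg' hq hqM' hDK hM'K hM'L hKL x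
    rwa [pairing0, pairing_apply, ← ip_eq_of_le (Gamma_mono (dvd_mul_right L q))
      (bd_cuspForm G') (bd_cuspForm (A - B)) (inv_of_dvd G' dvd_rfl) (inv_of_dvd _ dvd_rfl)]
  have hB : pairing0 L B B = 0 := by
    have : B = A - (A - B) := by abel
    rw [show pairing0 L B B = pairing0 L G' B from by rw [pairing0_projForm, hPP], this, map_sub,
      hA, hF, sub_zero]
  have h1 := congrArg (fun F : CuspForm (Gamma0 L) 2 => qCoeff ⇑F 1) (pairing0_self_eq_zero B hB)
  simp only [B, qCoeff_projForm, Hecke.qCoeff_zero_form] at h1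
  rw [if_pos fun r hr hd => (Nat.prime_of_mem_primeFactors
      (Finset.mem_of_mem_erase (Finset.mem_toList.mp hr))).not_dvd_one hd] at h1
  simp only [G', qCoeff_degen_one, hg'.1.qCoeff_one, one_ne_zero] at h1

/-- **The newform attached to a system of eigenvalues is unique, level included.** -/
theorem level_eq_of_agree {g : CuspForm (Gamma0 M) 2} {g' : CuspForm (Gamma0 M') 2}
    (hg : g.IsNewform) (hg' : g'.IsNewform) (S : Finset ℕ)
    (h : ∀ ℓ : ℕ, ℓ.Prime → ℓ ∉ S → qCoeff ⇑g ℓ = qCoeff ⇑g' ℓ) : M = M' :=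
  Nat.eq_of_factorization_eq (NeZero.ne M) (NeZero.ne M') fun q =>
    le_antisymm (factorization_le_of_agree hg' hg S (fun ℓ hℓ hS => (h ℓ hℓ hS).symm) q)
      (factorization_le_of_agree hg hg' S h q)

/-- Newforms with almost all coefficients equal have the same expansion. -/
theorem qCoeff_eq_of_isNewform_agree {g : CuspForm (Gamma0 M) 2} {g' : CuspForm (Gamma0 M') 2}
    (hg : g.IsNewform) (hg' : g'.IsNewform) (S : Finset ℕ)
    (h : ∀ ℓ : ℕ, ℓ.Prime → ℓ ∉ S → qCoeff ⇑g ℓ = qCoeff ⇑g' ℓ) : (⇑g : ℍ → ℂ) = ⇑g' := by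
  obtain rfl := level_eq_of_agree hg hg' S h
  rw [eq_of_isNewform hg hg'.1 S fun ℓ hℓ _ hS => (h ℓ hℓ hS).symm]

end Fermat.Agent.Newform

end
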