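import Fermat.Agent.Newform.Expansion
import Fermat.Agent.Newform.GroupAvg

/-!
# The Atkin–Lehner main lemma for primes dividing the level (Carlton's proof)

If `f ∈ S_k(Γ₀(N))` has vanishing coefficients at all exponents divisible by none of the primes
`p ∈ P` (all dividing `N`), then `f = ∑_{p ∈ P} g_p(pτ)` with `g_p ∈ S_k(Γ₀(N/p))`.
-/

set_option autoImplicit false

noncomputable section

open UpperHalfPlane CongruenceSubgroup ModularGroup
open scoped MatrixGroups ModularForm Manifold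

namespace Fermat.Agent.Newform

/-- The subgroup `Γ⁰(n)`: upper right entry divisible by `n`. -/
def GammaUp (n : ℕ) : Subgroup SL(2, ℤ) where
  carrier := {γ | (n : ℤ) ∣ γ 0 1}
  one_mem' := by simp
  mul_mem' := by
    intro x y hx hy
    simp only [Set.mem_ofPred_eq, Matrix.SpecialLinearGroup.coe_mul, Matrix.mul_apply,
      Fin.sum_univ_two] at hx hy ⊢
    exact dvd_add (dvd_mul_of_dvd_right hy _) (dvd_mul_of_dvd_left hx _)
  inv_mem' := by
    intro x hx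
    simpa [Matrix.SpecialLinearGroup.SL2_inv_expl] using hx

@[simp] theorem mem_GammaUp {n : ℕ} {γ : SL(2, ℤ)} : γ ∈ GammaUp n ↔ (n : ℤ) ∣ γ 0 1 := Iff.rfl

theorem GammaUp_anti {m n : ℕ} (h : m ∣ n) : GammaUp n ≤ GammaUp m :=
  fun _ hx => (Int.natCast_dvd_natCast.mpr h).trans hx

theorem T_zpow_apply (j : ℤ) : (T ^ j : SL(2, ℤ)) 0 0 = 1 ∧ (T ^ j : SL(2, ℤ)) 0 1 = j ∧
    (T ^ j : SL(2, ℤ)) 1 0 = 0 ∧ (T ^ j : SL(2, ℤ)) 1 1 = 1 := by
  simp [ModularGroup.coe_T_zpow]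

theorem T_zpow_mem_GammaUp {n : ℕ} {j : ℤ} (h : (n : ℤ) ∣ j) : T ^ j ∈ GammaUp n := by
  simpa [(T_zpow_apply j).2.1] using h

theorem mem_Gamma_iff_dvd {n : ℕ} {γ : SL(2, ℤ)} : γ ∈ Gamma n ↔
    (n : ℤ) ∣ γ 0 0 - 1 ∧ (n : ℤ) ∣ γ 0 1 ∧ (n : ℤ) ∣ γ 1 0 ∧ (n : ℤ) ∣ γ 1 1 - 1 := by
  simp [Gamma_mem, ← ZMod.intCast_zmod_eq_zero_iff_dvd, sub_eq_zero]

section Levels

variable {N p : ℕ}

/-- The prime-to-`p` part of `N`. -/
def coLevel (N p : ℕ) : ℕ := N / p ^ N.factorization p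

theorem coLevel_dvd (N p : ℕ) : coLevel N p ∣ N := Nat.ordCompl_dvd N p

theorem coLevel_dvd_div (hp : p.Prime) (hN : N ≠ 0) (hpN : p ∣ N) : coLevel N p ∣ N / p := by
  apply Nat.dvd_div_of_mul_dvd
  exact (Nat.Coprime.mul_dvd_of_dvd_of_dvd ((Nat.Prime.coprime_iff_not_dvd hp).mpr
    (Nat.not_dvd_ordCompl hp hN)) hpN (coLevel_dvd N p))

theorem dvd_of_coLevel_dvd {q : ℕ} (hp : p.Prime) (hq : q.Prime) (hpq : p ≠ q) (hN : N ≠ 0)
    {x : ℤ} (h1 : (coLevel N p : ℤ) ∣ x) (h2 : (coLevel N q : ℤ) ∣ x) : (N : ℤ) ∣ x := by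
  rw [Int.natCast_dvd] at h1 h2 ⊢
  have h3 : p ^ N.factorization p ∣ coLevel N q := by
    apply Nat.Coprime.dvd_of_dvd_mul_left
      (((Nat.coprime_primes hp hq).mpr hpq).pow (N.factorization p) (N.factorization q))
    rw [coLevel, Nat.ordProj_mul_ordCompl_eq_self N q]
    exact Nat.ordProj_dvd N p
  rw [← Nat.ordProj_mul_ordCompl_eq_self N p]
  exact Nat.Coprime.mul_dvd_of_dvd_of_dvd
    (Nat.Coprime.pow_left _ ((Nat.Prime.coprime_iff_not_dvd hp).mpr (Nat.not_dvd_ordCompl hp hN)))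
    (h3.trans h2) h1

theorem commutator_mem_Gamma {q : ℕ} (hp : p.Prime) (hq : q.Prime) (hpq : p ≠ q) (hN : N ≠ 0)
    {x y : SL(2, ℤ)} (hx : x ∈ Gamma (coLevel N p)) (hy : y ∈ Gamma (coLevel N q)) :
    (x * y)⁻¹ * (y * x) ∈ Gamma N := by
  have e : (x * y)⁻¹ * (y * x) = y⁻¹ * (x⁻¹ * y * x) := by group
  have e' : (x * y)⁻¹ * (y * x) = (y⁻¹ * x⁻¹ * y) * x := by group
  have h1 : (x * y)⁻¹ * (y * x) ∈ Gamma (coLevel N q) := by
    rw [e]
    refine mul_mem (inv_mem hy) ?_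
    simpa using (Gamma_normal (coLevel N q)).conj_mem y hy x⁻¹
  have h2 : (x * y)⁻¹ * (y * x) ∈ Gamma (coLevel N p) := by
    rw [e']
    refine mul_mem ?_ hx
    simpa using (Gamma_normal (coLevel N p)).conj_mem x⁻¹ (inv_mem hx) y⁻¹
  rw [mem_Gamma_iff_dvd] at h1 h2 ⊢
  exact ⟨dvd_of_coLevel_dvd hp hq hpq hN h2.1 h1.1, dvd_of_coLevel_dvd hp hq hpq hN h2.2.1 h1.2.1,
    dvd_of_coLevel_dvd hp hq hpq hN h2.2.2.1 h1.2.2.1,
    dvd_of_coLevel_dvd hp hq hpq hN h2.2.2.2 h1.2.2.2⟩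

theorem exists_T_mul_mul_T_mem (hp : p.Prime) (hpN : p ∣ N) {x : SL(2, ℤ)}
    (hx : x ∈ GammaUp (N / p)) :
    ∃ i j : ℤ, T ^ (i * (N / p : ℕ)) * x * T ^ (j * (N / p : ℕ)) ∈ GammaUp N := by
  obtain ⟨e, he⟩ : ((N / p : ℕ) : ℤ) ∣ x 0 1 := hx
  have hdet : x 0 0 * x 1 1 - x 0 1 * x 1 0 = 1 := det_SL x
  set M : ℤ := ((N / p : ℕ) : ℤ) with hM
  have hpP : Prime (p : ℤ) := Nat.prime_iff_prime_int.mp hp
  obtain ⟨i, hi⟩ : ∃ i : ℤ, ¬ (p : ℤ) ∣ x 0 0 + i * M * x 1 0 := by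
    by_cases ha : (p : ℤ) ∣ x 0 0
    · refine ⟨1, fun h => hpP.not_dvd_one ?_⟩
      have hMc : (p : ℤ) ∣ M * x 1 0 := by simpa using dvd_sub h ha
      rw [← hdet, he, show M * e * x 1 0 = e * (M * x 1 0) by ring]
      exact dvd_sub (dvd_mul_of_dvd_left ha _) (dvd_mul_of_dvd_right hMc _)
    · exact ⟨0, by simpa using ha⟩
  obtain ⟨u, v, huv⟩ := (hpP.coprime_iff_not_dvd.mpr hi).symm
  refine ⟨i, -(e + i * x 1 1) * u, ?_⟩
  obtain ⟨hA00, hA01, hA10, hA11⟩ := T_zpow_apply (i * M)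
  obtain ⟨hB00, hB01, hB10, hB11⟩ := T_zpow_apply (-(e + i * x 1 1) * u * M)
  have hNp : (N : ℤ) = M * p := by rw [hM]; exact_mod_cast (Nat.div_mul_cancel hpN).symm
  rw [mem_GammaUp]
  simp only [Matrix.SpecialLinearGroup.coe_mul, Matrix.mul_apply, Fin.sum_univ_two, hA00, hA01,
    hB01, hB11, he]
  rw [hNp]
  refine ⟨(e + i * x 1 1) * v, ?_⟩
  linear_combination (-(M * (e + i * x 1 1))) * huv

end Levels

section Rep

variable (N : ℕ) [NeZero N] (k : ℤ)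

instance gammaNormal : (Gamma N).Normal := Gamma_normal N

/-- Cusp functions of weight `k` invariant under `Γ(N)`. -/
def fixedSpace : Submodule ℂ (ℍ → ℂ) where
  carrier := {φ | IsCuspFun k φ ∧ ∀ γ ∈ Gamma N, φ ∣[k] γ = φ}
  zero_mem' := ⟨IsCuspFun.zero, fun γ _ => SlashAction.zero_slash k γ⟩
  add_mem' := fun hx hy => ⟨hx.1.add hy.1, fun γ hγ => by
    rw [SlashAction.add_slash, hx.2 γ hγ, hy.2 γ hγ]⟩
  smul_mem' := fun r x hx => ⟨hx.1.smul r, fun γ hγ => by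
    rw [ModularForm.SL_smul_slash, hx.2 γ hγ]⟩

omit [NeZero N] in
theorem slash_mem_fixedSpace {φ : ℍ → ℂ} (h : φ ∈ fixedSpace N k) (γ : SL(2, ℤ)) :
    φ ∣[k] γ ∈ fixedSpace N k :=
  ⟨h.1.slash_SL γ, fun δ hδ => by
    have : γ * δ * γ⁻¹ ∈ Gamma N := (Gamma_normal N).conj_mem δ hδ γ
    rw [← SlashAction.slash_mul, show γ * δ = (γ * δ * γ⁻¹) * γ by group, SlashAction.slash_mul,
      h.2 _ this]⟩

/-- The action of `SL₂(ℤ)` on `fixedSpace N k`. -/
def slashRep : SL(2, ℤ) →* Module.End ℂ (fixedSpace N k) where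
  toFun γ :=
    { toFun := fun v => ⟨(v : ℍ → ℂ) ∣[k] γ⁻¹, slash_mem_fixedSpace N k v.2 γ⁻¹⟩
      map_add' := fun v w => Subtype.ext (SlashAction.add_slash k γ⁻¹ _ _)
      map_smul' := fun r v => Subtype.ext (ModularForm.SL_smul_slash k γ⁻¹ _ r) }
  map_one' := LinearMap.ext fun v => Subtype.ext <| by simp
  map_mul' γ δ := LinearMap.ext fun v => Subtype.ext <| by
    simp [mul_inv_rev, SlashAction.slash_mul]

omit [NeZero N] in
theorem coe_slashRep_apply (γ : SL(2, ℤ)) (v : fixedSpace N k) :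
    ((slashRep N k γ v : fixedSpace N k) : ℍ → ℂ) = (v : ℍ → ℂ) ∣[k] γ⁻¹ := rfl

/-- The action of `SL₂(ℤ) ⧸ Γ(N)`. -/
def quotRep : SL(2, ℤ) ⧸ Gamma N →* Module.End ℂ (fixedSpace N k) :=
  QuotientGroup.lift _ (slashRep N k) fun γ hγ => LinearMap.ext fun v => Subtype.ext <| by
    rw [coe_slashRep_apply]; exact v.2.2 _ (inv_mem hγ)

omit [NeZero N] in
theorem quotRep_mk (γ : SL(2, ℤ)) :
    quotRep N k (QuotientGroup.mk' (Gamma N) γ) = slashRep N k γ :=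
  QuotientGroup.lift_mk' _ _ _

omit [NeZero N] in
theorem quotRep_fix_iff (v : fixedSpace N k) (S : Subgroup SL(2, ℤ)) :
    (∀ y ∈ S.map (QuotientGroup.mk' (Gamma N)), quotRep N k y v = v) ↔
      ∀ γ ∈ S, (v : ℍ → ℂ) ∣[k] γ = v := by
  constructor
  · intro h γ hγ
    have := congrArg Subtype.val (h _ (Subgroup.mem_map_of_mem _ (inv_mem hγ)))
    rwa [quotRep_mk, coe_slashRep_apply, inv_inv] at this
  · rintro h _ ⟨γ, hγ, rfl⟩
    exact Subtype.ext (by rw [quotRep_mk, coe_slashRep_apply]; exact h _ (inv_mem hγ))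

variable {N k}

/-- Iterated projection `∏ (1 - avgU p)`. -/
def projU (k : ℤ) : List ℕ → (ℍ → ℂ) → (ℍ → ℂ)
  | [], φ => φ
  | p :: l, φ => projU k l φ - avgU k p (projU k l φ)

/-- `projU l` keeps the coefficients whose index is divisible by no element of `l`. -/
theorem HasQ.projU {φ : ℍ → ℂ} {c : ℕ → ℂ} (h : HasQ φ c) :
    ∀ {l : List ℕ}, (∀ p ∈ l, 0 < p) →
      HasQ (projU k l φ) (fun n => if ∀ p ∈ l, ¬ p ∣ n then c n else 0)
  | [], _ => by simpa [Newform.projU] using h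
  | p :: l, hl => by
    have ih := HasQ.projU h (fun q hq => hl q (List.mem_cons_of_mem _ hq))
    refine (ih.sub (ih.avgU k (hl p (List.mem_cons_self ..)))).congr fun n => ?_
    by_cases hp : p ∣ n <;> by_cases hq : ∀ q ∈ l, ¬ q ∣ n <;> simp [hp, hq]

theorem IsCuspFun.projU {φ : ℍ → ℂ} (h : IsCuspFun k φ) : ∀ (l : List ℕ), IsCuspFun k (projU k l φ)
  | [] => h
  | p :: l => (IsCuspFun.projU h l).sub ((IsCuspFun.projU h l).avgU p)

omit [NeZero N] in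
theorem coe_avgPowers_apply (γ : SL(2, ℤ)) (m : ℕ) (u : fixedSpace N k) :
    ((avgPowers (quotRep N k) (QuotientGroup.mk' (Gamma N) γ) m u : fixedSpace N k) : ℍ → ℂ) =
      (m : ℂ)⁻¹ • ∑ j ∈ Finset.range m, (u : ℍ → ℂ) ∣[k] (γ ^ j)⁻¹ := by
  simp only [avgPowers, LinearMap.smul_apply, LinearMap.sum_apply, Submodule.coe_smul,
    Submodule.coe_sum]
  refine congrArg _ (Finset.sum_congr rfl fun j _ => ?_)
  rw [← map_pow, quotRep_mk, coe_slashRep_apply]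

theorem exists_fun_of_forall₂ {ι V : Type*} [AddCommMonoid V] {Q : ι → V → Prop} :
    ∀ {s : List ι} {w : List V}, s.Nodup → List.Forall₂ Q s w →
      ∃ g : ι → V, (∀ i ∈ s, Q i (g i)) ∧ w.sum = (s.map g).sum
  | [], _, _, .nil => ⟨fun _ => 0, by simp, rfl⟩
  | i :: s, _, hs, .cons (b := u) hu hw => by
    classical
    obtain ⟨g, hg, hsum⟩ := exists_fun_of_forall₂ (List.nodup_cons.mp hs).2 hw
    refine ⟨Function.update g i u, ?_, ?_⟩
    · intro j hj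
      rcases eq_or_ne j i with rfl | hne
      · simpa using hu
      · rw [Function.update_of_ne hne]
        exact hg j (by simpa [hne] using hj)
    · have : s.map (Function.update g i u) = s.map g := List.map_congr_left fun j hj =>
        Function.update_of_ne (fun h => (List.nodup_cons.mp hs).1 (by subst h; exact hj)) _ _
      simp [this, hsum]

/-- **Main lemma** for primes dividing the level. -/
theorem exists_sum_dilate_of_primes_dvd (f : CuspForm (Gamma0 N) k) (P : Finset ℕ)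
    (hP : ∀ p ∈ P, p.Prime ∧ p ∣ N)
    (h : ∀ n : ℕ, (∀ p ∈ P, ¬ p ∣ n) → ModularFormClass.qCoeff f n = 0) :
    ∃ g : ℕ → ℍ → ℂ, (∀ p ∈ P, IsCuspFun k (g p) ∧ ∀ γ ∈ Gamma0 (N / p), g p ∣[k] γ = g p) ∧
      (f : ℍ → ℂ) = ∑ p ∈ P, g p ∣[k] qm (p : ℕ) 0 0 1 := by
  classical
  have hN0 : N ≠ 0 := NeZero.ne N
  have hNq : (N : ℚ) ≠ 0 := by exact_mod_cast hN0
  -- move to `Γ⁰(N)`
  set δ := qm 1 0 0 (N : ℚ) with hδ
  set φ : ℍ → ℂ := (f : ℍ → ℂ) ∣[k] δ with hφ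
  have hinvUp : ∀ γ ∈ GammaUp N, φ ∣[k] γ = φ := by
    intro γ hγ
    obtain ⟨b', hb'⟩ : (N : ℤ) ∣ γ 0 1 := hγ
    have hd := det_SL γ
    have hd' : γ 0 0 * γ 1 1 - b' * ((N : ℤ) * γ 1 0) = 1 := by rw [hb'] at hd; linarith
    have hmem : slMk (γ 0 0) b' ((N : ℤ) * γ 1 0) (γ 1 1) hd' ∈ Gamma0 N := by
      rw [mem_Gamma0_iff]; exact ⟨γ 1 0, rfl⟩
    rw [hφ, ModularForm.SL_slash _ γ, ← SlashAction.slash_mul, qm_SL γ, hδ]
    have hdQ : ((γ 0 0 : ℤ) : ℚ) * (γ 1 1 : ℤ) - (γ 0 1 : ℤ) * (γ 1 0 : ℤ) = 1 := by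
      exact_mod_cast hd
    have e : qm 1 0 0 (N : ℚ) * qm (γ 0 0 : ℤ) (γ 0 1 : ℤ) (γ 1 0 : ℤ) (γ 1 1 : ℤ) =
        (slMk (γ 0 0) b' ((N : ℤ) * γ 1 0) (γ 1 1) hd' : GL (Fin 2) ℝ) * qm 1 0 0 (N : ℚ) := by
      have hdQ' : ((γ 0 0 : ℤ) : ℚ) * (γ 1 1 : ℤ) - (b' : ℤ) * (((N : ℤ) * γ 1 0 : ℤ) : ℚ) = 1 := by
        exact_mod_cast hd'
      rw [← qm_slMk hd', qm_mul (by simpa using hNq) (by rw [hdQ]; exact one_ne_zero),
        qm_mul (by rw [hdQ']; exact one_ne_zero) (by simpa using hNq)]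
      congr 1 <;> simp [hb', mul_comm]
    rw [e, SlashAction.slash_mul, ← ModularForm.SL_slash, cuspForm_slash_SL f hmem]
  have hφmem : φ ∈ fixedSpace N k :=
    ⟨(IsCuspFun.of_cuspForm f).slash_qm _ _ _ _, fun γ hγ => hinvUp γ (mem_Gamma_iff_dvd.mp hγ).2.1⟩
  set v : fixedSpace N k := ⟨φ, hφmem⟩ with hv
  -- group data
  set π := QuotientGroup.mk' (Gamma N) with hπ
  set H : ℕ → Subgroup (SL(2, ℤ) ⧸ Gamma N) :=
    fun p => (Gamma (coLevel N p) ⊓ GammaUp N).map π with hH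
  set K : ℕ → Subgroup (SL(2, ℤ) ⧸ Gamma N) :=
    fun p => (Gamma (coLevel N p) ⊓ GammaUp (N / p)).map π with hK
  set t : ℕ → SL(2, ℤ) ⧸ Gamma N := fun p => π (T ^ (-((N / p : ℕ) : ℤ))) with ht
  set B := (GammaUp N).map π with hB
  have hTm : ∀ p ∈ P, ∀ j : ℤ, T ^ (j * (N / p : ℕ)) ∈ Gamma (coLevel N p) ⊓ GammaUp (N / p) :=
    fun p hp j => Subgroup.mem_inf.mpr ⟨by
      simpa only [Int.natAbs_natCast] using ModularGroup_T_pow_mem_Gamma (coLevel N p : ℤ) _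
        (dvd_mul_of_dvd_right
          (Int.natCast_dvd_natCast.mpr (coLevel_dvd_div (hP p hp).1 hN0 (hP p hp).2)) j),
      T_zpow_mem_GammaUp (dvd_mul_left _ _)⟩
  have hs : P.toList.Nodup := P.nodup_toList
  have hmemP : ∀ p, p ∈ P.toList ↔ p ∈ P := fun p => Finset.mem_toList
  -- the projection vanishes
  have hE0 : projU k P.toList (f : ℍ → ℂ) = 0 := by
    funext τ
    have hQ := HasQ.projU (k := k) (hasQ_cuspForm f) (l := P.toList)
      fun p hp => (hP p ((hmemP p).mp hp)).1.pos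
    refine (hQ τ).unique ?_
    have e : ∀ n, (if ∀ p ∈ P.toList, ¬ p ∣ n then ModularFormClass.qCoeff f n else 0) = 0 :=
      fun n => by
        split_ifs with hc
        · exact h n fun p hp => hc p ((hmemP p).mpr hp)
        · rfl
    simp only [e, zero_mul]
    exact hasSum_zero
  have hproj : ∀ l : List ℕ, (∀ p ∈ l, p ∈ P) →
      ((projCompl (fun p => avgPowers (quotRep N k) (t p) p) l v : fixedSpace N k) : ℍ → ℂ) =
        projU k l (f : ℍ → ℂ) ∣[k] δ := by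
    intro l hl
    induction l with
    | nil => rfl
    | cons p l ih =>
      have ih := ih fun q hq => hl q (List.mem_cons_of_mem _ hq)
      have hp := hP p (hl p (List.mem_cons_self ..))
      simp only [projCompl, projU, Module.End.mul_apply, LinearMap.sub_apply, Module.End.one_apply,
        Submodule.coe_sub]
      rw [show t p = QuotientGroup.mk' (Gamma N) (T ^ (-((N / p : ℕ) : ℤ))) from rfl,
        coe_avgPowers_apply, ih, sub_eq_add_neg (projU k l (f : ℍ → ℂ)), SlashAction.add_slash,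
        SlashAction.neg_slash, avgU, hδ, smul_slash_qm k (by simpa using Nat.pos_of_ne_zero hN0),
        SlashAction.sum_slash, ← sub_eq_add_neg]
      congr 2
      refine Finset.sum_congr rfl fun j _ => ?_
      rw [← zpow_natCast, ← zpow_mul,
        ← zpow_neg, ModularForm.SL_slash, ← SlashAction.slash_mul, ← SlashAction.slash_mul, qm_SL]
      congr 1
      obtain ⟨h00, h01, h10, h11⟩ := T_zpow_apply (-(-((N / p : ℕ) : ℤ) * (j : ℤ)))
      rw [h00, h01, h10, h11, qm_mul (by simpa using hNq) (by simp),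
        qm_mul (by simp) (by simpa using hNq)]
      have hNp : ((N / p : ℕ) : ℚ) = (N : ℚ) / p :=
        Nat.cast_div hp.2 (by exact_mod_cast hp.1.ne_zero)
      congr 1 <;> simp only [Int.cast_neg, Int.cast_mul, Int.cast_natCast, Int.cast_one,
        Int.cast_zero, hNp] <;> field_simp <;> ring
  have hB' : ∀ y ∈ B, quotRep N k y v = v := (quotRep_fix_iff N k v _).mpr hinvUp
  obtain ⟨w, hw, hsum⟩ := exists_sum_eq_of_projCompl_eq_zero (quotRep N k) hs H K t id B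
    (fun p hp => Subgroup.map_mono (inf_le_inf_left _
      (GammaUp_anti (Nat.div_dvd_of_dvd (hP p ((hmemP p).mp hp)).2))))
    (fun p hp => Subgroup.mem_map_of_mem _ (by
      simpa using hTm p ((hmemP p).mp hp) (-1)))
    (fun p hp => by
      have hp' := hP p ((hmemP p).mp hp)
      show π (T ^ (-((N / p : ℕ) : ℤ))) ^ p = 1
      rw [← map_pow, hπ, QuotientGroup.mk'_apply, QuotientGroup.eq_one_iff, ← zpow_natCast,
        ← zpow_mul]
      have hd : (N : ℤ) ∣ -((N / p : ℕ) : ℤ) * (p : ℤ) := by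
        rw [neg_mul, dvd_neg]
        exact_mod_cast (Nat.div_mul_cancel hp'.2).symm.dvd
      simpa using ModularGroup_T_pow_mem_Gamma _ _ hd)
    (fun p hp q hq hpq x hx y hy => by
      obtain ⟨x, hx, rfl⟩ := hx
      obtain ⟨y, hy, rfl⟩ := hy
      rw [Commute, SemiconjBy, ← map_mul, ← map_mul, hπ, QuotientGroup.mk'_apply,
        QuotientGroup.mk'_apply, QuotientGroup.eq]
      exact commutator_mem_Gamma (hP p ((hmemP p).mp hp)).1 (hP q ((hmemP q).mp hq)).1 hpq hN0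
        hx.1 hy.1)
    (fun p hp u hu htu => by
      have hp' := hP p ((hmemP p).mp hp)
      have hu' := (quotRep_fix_iff N k u _).mp hu
      have htu' : (u : ℍ → ℂ) ∣[k] (T ^ ((N / p : ℕ) : ℤ)) = u := by
        have := congrArg Subtype.val htu
        rwa [ht, hπ, quotRep_mk, coe_slashRep_apply, ← zpow_neg, neg_neg] at this
      have hpow : ∀ j : ℤ, (u : ℍ → ℂ) ∣[k] (T ^ (j * (N / p : ℕ))) = u := by
        intro j
        rw [mul_comm, zpow_mul]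
        induction j using Int.induction_on with
        | zero => simp
        | succ j ih => rw [zpow_add_one, SlashAction.slash_mul, ih, htu']
        | pred j ih =>
          rw [zpow_sub_one, SlashAction.slash_mul, ih]
          conv_lhs => rw [← htu']
          rw [← SlashAction.slash_mul, mul_inv_cancel, SlashAction.slash_one]
      refine (quotRep_fix_iff N k u _).mpr fun x hx => ?_
      obtain ⟨i, j, hij⟩ := exists_T_mul_mul_T_mem hp'.1 hp'.2 hx.2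
      set A := T ^ (i * ((N / p : ℕ) : ℤ))
      set C := T ^ (j * ((N / p : ℕ) : ℤ))
      have hm : A * x * C ∈ Gamma (coLevel N p) :=
        mul_mem (mul_mem (hTm p ((hmemP p).mp hp) i).1 hx.1) (hTm p ((hmemP p).mp hp) j).1
      have h1 : (u : ℍ → ℂ) ∣[k] (A * x * C) = u := hu' _ ⟨hm, hij⟩
      rw [SlashAction.slash_mul, SlashAction.slash_mul, hpow i] at h1
      have h2 : (u : ℍ → ℂ) ∣[k] x = (u : ℍ → ℂ) ∣[k] C⁻¹ := by
        conv_rhs => rw [← h1]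
        rw [← SlashAction.slash_mul (g := C), mul_inv_cancel, SlashAction.slash_one]
      rw [h2, ← zpow_neg, ← neg_mul, hpow])
    (fun p hp y hy x hx => by
      obtain ⟨y, hy, rfl⟩ := hy
      obtain ⟨x, hx, rfl⟩ := hx
      have hp' := hP p ((hmemP p).mp hp)
      refine ⟨y * x * y⁻¹, ⟨(Gamma_normal _).conj_mem x hx.1 y, ?_⟩, by simp⟩
      have hy' : y ∈ GammaUp (N / p) := GammaUp_anti (Nat.div_dvd_of_dvd hp'.2) hy
      exact (GammaUp (N / p)).mul_mem ((GammaUp (N / p)).mul_mem hy' hx.2)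
        ((GammaUp (N / p)).inv_mem hy'))
    (fun p _ => Subgroup.map_mono inf_le_right) hB'
    (Subtype.ext <| by
      have h2 : projCompl (fun i => avgPowers (quotRep N k) (t i) (id i)) P.toList v =
          projCompl (fun p => avgPowers (quotRep N k) (t p) p) P.toList v := rfl
      rw [h2, hproj P.toList fun p hp => (hmemP p).mp hp, hE0, SlashAction.zero_slash]
      rfl)
  obtain ⟨g, hg, hgsum⟩ := exists_fun_of_forall₂ hs hw
  refine ⟨fun p => (g p : ℍ → ℂ) ∣[k] qm (1 / (p : ℚ)) 0 0 (1 / (N : ℚ)), fun p hp => ?_, ?_⟩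
  · obtain ⟨hp1, hp2⟩ := hP p hp
    obtain ⟨hgK, hgB⟩ := hg p ((hmemP p).mpr hp)
    have hK' := (quotRep_fix_iff N k (g p) _).mp hgK
    have hB'' := (quotRep_fix_iff N k (g p) _).mp hgB
    refine ⟨(g p).2.1.slash_qm _ _ _ _, fun γ hγ => ?_⟩
    obtain ⟨c', hc'⟩ : ((N / p : ℕ) : ℤ) ∣ γ 1 0 := mem_Gamma0_iff.mp hγ
    have hd := det_SL γ
    have hd' : γ 0 0 * γ 1 1 - (γ 0 1 * (N / p : ℕ)) * c' = 1 := by rw [hc'] at hd; linarith
    set γ' := slMk (γ 0 0) (γ 0 1 * (N / p : ℕ)) c' (γ 1 1) hd' with hγ'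
    have hγ'up : γ' ∈ GammaUp (N / p) := by
      rw [mem_GammaUp]; exact ⟨γ 0 1, by simp [hγ', slMk, mul_comm]⟩
    have hfix : (g p : ℍ → ℂ) ∣[k] γ' = g p := by
      obtain ⟨i, j, hij⟩ := exists_T_mul_mul_T_mem hp1 hp2 hγ'up
      have e1 : γ' = (T ^ (i * ((N / p : ℕ) : ℤ)))⁻¹ *
          (T ^ (i * ((N / p : ℕ) : ℤ)) * γ' * T ^ (j * ((N / p : ℕ) : ℤ))) *
          (T ^ (j * ((N / p : ℕ) : ℤ)))⁻¹ := by group
      rw [e1, SlashAction.slash_mul, SlashAction.slash_mul, hK' _ (inv_mem (hTm p hp i)),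
        hB'' _ hij, hK' _ (inv_mem (hTm p hp j))]
    have hp0 : (p : ℚ) ≠ 0 := by exact_mod_cast hp1.ne_zero
    have hdQ : ((γ 0 0 : ℤ) : ℚ) * (γ 1 1 : ℤ) - (γ 0 1 : ℤ) * (γ 1 0 : ℤ) = 1 := by
      exact_mod_cast hd
    have hdQ' : ((γ 0 0 : ℤ) : ℚ) * (γ 1 1 : ℤ) -
        ((γ 0 1 * (N / p : ℕ) : ℤ) : ℚ) * (c' : ℤ) = 1 := by exact_mod_cast hd'
    rw [ModularForm.SL_slash _ γ, ← SlashAction.slash_mul, qm_SL γ]
    have e : qm (1 / (p : ℚ)) 0 0 (1 / (N : ℚ)) *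
          qm (γ 0 0 : ℤ) (γ 0 1 : ℤ) (γ 1 0 : ℤ) (γ 1 1 : ℤ) =
        (γ' : GL (Fin 2) ℝ) * qm (1 / (p : ℚ)) 0 0 (1 / (N : ℚ)) := by
      rw [hγ', ← qm_slMk hd', qm_mul (by simp [hp0, hNq]) (by rw [hdQ]; exact one_ne_zero),
        qm_mul (by rw [hdQ']; exact one_ne_zero) (by simp [hp0, hNq])]
      have hNp : ((N / p : ℕ) : ℚ) = (N : ℚ) / p := Nat.cast_div hp2 hp0
      congr 1 <;> (try simp only [hc', Int.cast_mul, Int.cast_natCast, hNp]) <;>
        (try field_simp) <;> (try ring)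
    rw [e, SlashAction.slash_mul, ← ModularForm.SL_slash, hfix]
  · have hfv : (f : ℍ → ℂ) = φ ∣[k] qm 1 0 0 (1 / (N : ℚ)) := by
      rw [hφ, ← SlashAction.slash_mul, hδ, qm_mul (by simpa using hNq) (by simp [hNq])]
      simp [hNq, qm_one]
    have hval : φ = ∑ p ∈ P, (g p : ℍ → ℂ) := by
      have := congrArg Subtype.val (hsum.trans hgsum)
      rw [Finset.sum_map_toList, Submodule.coe_sum] at this
      exact this
    rw [hfv, hval, SlashAction.sum_slash]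
    refine Finset.sum_congr rfl fun p hp => ?_
    have hp0 : (p : ℚ) ≠ 0 := by exact_mod_cast (hP p hp).1.ne_zero
    rw [← SlashAction.slash_mul, qm_mul (by simp [hp0, hNq]) (by simpa using hp0)]
    simp [hp0]

end Rep

end Fermat.Agent.Newform

end
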