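import Fermat.Agent.Newform.MultOne
import Fermat.Agent.Petersson.Hecke

/-!
# A newform is orthogonal to the forms which are old at a prime of its level
-/

set_option autoImplicit false

noncomputable section

open UpperHalfPlane CongruenceSubgroup ModularFormClass
open scoped MatrixGroups ModularForm Manifold ComplexConjugate

namespace Fermat.Agent.Newform

open Fermat.Agent.Petersson

variable {M D K L q : ℕ}

theorem coe_degen_one [NeZero L] [NeZero M] (h : M * 1 ∣ L) (f : CuspForm (Gamma0 M) 2) :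
    (⇑(degen L M 1 2 h f) : ℍ → ℂ) = ⇑f := by
  rw [coe_degen_apply, Nat.cast_one, one_zpow, one_smul, Nat.cast_one, qm_one,
    SlashAction.slash_one]

theorem Gamma_le_Gamma0_of_dvd (h : M ∣ L) : Gamma L ≤ Gamma0 M :=
  (Gamma_mono h).trans (Gamma_le_Gamma0' M)

theorem inv_of_dvd [NeZero M] (f : CuspForm (Gamma0 M) 2) (h : M ∣ L) : Inv (Gamma L) ⇑f :=
  (inv_cuspForm f).mono (Gamma_le_Gamma0_of_dvd h)

/-- Eigenvalues of `T_ℓ`, `ℓ ∤ N`, are real. -/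
theorem conj_qCoeff_eigenform [NeZero M] {f : CuspForm (Gamma0 M) 2}
    (hf : f.IsNormalizedEigenform) {ℓ : ℕ} (hℓ : ℓ.Prime) (hℓM : ¬ ℓ ∣ M) :
    conj (qCoeff ⇑f ℓ) = qCoeff ⇑f ℓ := by
  have h := pairing0_heckeTLin hℓ hℓM f f
  rw [Hecke.heckeTLin_eigenform hf hℓ hℓM, LinearMap.map_smulₛₗ, LinearMap.smul_apply,
    map_smul, smul_eq_mul, smul_eq_mul] at h
  exact mul_right_cancel₀ (fun h0 => hf.ne_zero (pairing0_self_eq_zero f h0)) h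

/-- A newform is orthogonal to forms of every proper divisor of its level. -/
theorem pairing0_newform_degen_one [NeZero M] [NeZero D] {g : CuspForm (Gamma0 M) 2}
    (hg : g.IsNewform) (hD : D * 1 ∣ M) (hne : D ≠ M) (x : CuspForm (Gamma0 D) 2) :
    pairing0 M g (degen M D 1 2 hD x) = 0 := by
  have hx : x ∈ ⨆ χ : GoodPrime D → ℂ, ⨅ i, (goodT i).eigenspace (χ i) := by
    rw [iSup_eigenspace_goodT]; exact Submodule.mem_top
  have hDM : D ∣ M := by simpa using hD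
  induction hx using Submodule.iSup_induction' with
  | zero => simp
  | add a b _ _ ha hb => rw [map_add, map_add, ha, hb, add_zero]
  | mem χ y hy =>
    simp only [Submodule.mem_iInf, Module.End.mem_eigenspace_iff] at hy
    rcases eq_or_ne y 0 with rfl | hy0
    · simp
    obtain ⟨f, hf, hfa⟩ := exists_eigenform_of_eigenvector ∅
      (fun ℓ => if h : ℓ.Prime ∧ ¬ ℓ ∣ D then χ ⟨ℓ, h⟩ else 0) hy0
      fun ℓ hℓ hℓD _ => by rw [dif_pos ⟨hℓ, hℓD⟩]; exact hy ⟨ℓ, hℓ, hℓD⟩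
    obtain ⟨ℓ, hℓ, hℓM, hdiff⟩ : ∃ ℓ : ℕ, ℓ.Prime ∧ ¬ ℓ ∣ M ∧ qCoeff ⇑g ℓ ≠ qCoeff ⇑f ℓ := by
      by_contra hcon
      push Not at hcon
      exact not_agree_outside_finite_of_isNewform hg hDM hne hf ∅ fun ℓ hℓ hℓM _ => hcon ℓ hℓ hℓM
    have hℓD : ¬ ℓ ∣ D := fun h => hℓM (h.trans hDM)
    have h := pairing0_heckeTLin hℓ hℓM g (degen M D 1 2 hD y)
    rw [Hecke.heckeTLin_eigenform hg.1 hℓ hℓM, LinearMap.map_smulₛₗ, LinearMap.smul_apply,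
      conj_qCoeff_eigenform hg.1 hℓ hℓM, heckeTLin_degen hD hℓ hℓM hℓD,
      show CuspForm.heckeTLin 2 hℓ hℓD y = χ ⟨ℓ, hℓ, hℓD⟩ • y from hy ⟨ℓ, hℓ, hℓD⟩,
      map_smul, map_smul, smul_eq_mul, smul_eq_mul] at h
    have hχ : qCoeff ⇑f ℓ = χ ⟨ℓ, hℓ, hℓD⟩ := by
      rw [hfa ℓ hℓ hℓD (Set.notMem_empty _), dif_pos ⟨hℓ, hℓD⟩]
    rw [← sub_eq_zero, ← sub_mul, mul_eq_zero, sub_eq_zero, ← hχ] at h
    exact h.resolve_left hdiff

theorem ip_newform_of_level_lt [NeZero M] [NeZero D] [NeZero L] {g : CuspForm (Gamma0 M) 2}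
    (hg : g.IsNewform) (hD : D ∣ M) (hne : D ≠ M) (hML : M ∣ L) (x : CuspForm (Gamma0 D) 2) :
    ip (Gamma L) ⇑g ⇑x = 0 := by
  rw [ip_eq_of_le (Gamma_mono hML) (bd_cuspForm g) (bd_cuspForm x) (inv_of_dvd g dvd_rfl)
    (inv_of_dvd x hD)]
  have := pairing0_newform_degen_one hg (D := D) (by simpa using hD) hne x
  rwa [pairing0, pairing_apply, coe_degen_one] at this

/-- For `γ ∈ Γ₀(M/q)` some element of `Γ₀(K) γ` lies in `Γ₀(M)`, if `M/q ∣ K`, `M ∤ K`. -/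
theorem exists_mul_mem_Gamma0 (hq : q.Prime) (hqM : q ∣ M) (hDK : M / q ∣ K) (hMK : ¬ M ∣ K)
    {γ : SL(2, ℤ)} (hγ : γ ∈ Gamma0 (M / q)) : ∃ β ∈ Gamma0 K, β * γ ∈ Gamma0 M := by
  suffices ∀ γ : SL(2, ℤ), γ ∈ Gamma0 (M / q) → ¬ (q : ℤ) ∣ γ 0 0 →
      ∃ β ∈ Gamma0 K, β * γ ∈ Gamma0 M by
    by_cases ha : (q : ℤ) ∣ γ 0 0
    · obtain ⟨β, hβ, hβγ⟩ := this (ModularGroup.T * γ)
        (mul_mem (by simp [Gamma0_mem, ModularGroup.coe_T]) hγ) fun h => by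
        have e : (ModularGroup.T * γ) 0 0 = γ 0 0 + γ 1 0 := by
          simp [Matrix.SpecialLinearGroup.coe_mul, ModularGroup.coe_T, Matrix.mul_apply]
        rw [e] at h
        have hc : (q : ℤ) ∣ γ 1 0 := (dvd_add_right ha).mp h
        have := dvd_sub (dvd_mul_of_dvd_left ha (γ 1 1)) (dvd_mul_of_dvd_right hc (γ 0 1))
        rw [det_SL] at this
        exact (Nat.prime_iff_prime_int.mp hq).not_dvd_one this
      exact ⟨β * ModularGroup.T, mul_mem hβ (by simp [Gamma0_mem, ModularGroup.coe_T]),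
        by rwa [mul_assoc]⟩
    · exact this γ hγ ha
  intro γ hγ ha
  obtain ⟨c₁, hc₁⟩ := mem_Gamma0_iff.mp hγ
  obtain ⟨k₁, hk₁⟩ := hDK
  have hk : ¬ (q : ℤ) ∣ k₁ := fun h => hMK <| by
    obtain ⟨e, rfl⟩ := Int.natCast_dvd_natCast.mp h
    exact ⟨e, by rw [hk₁, ← mul_assoc, Nat.div_mul_cancel hqM]⟩
  have hqp : Prime (q : ℤ) := Nat.prime_iff_prime_int.mp hq
  obtain ⟨u, v, huv⟩ := hqp.coprime_iff_not_dvd.mpr
    (fun h => (hqp.dvd_or_dvd h).elim hk ha : ¬ (q : ℤ) ∣ (k₁ : ℤ) * γ 0 0)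
  set β : SL(2, ℤ) := slMk 1 0 (-(v * c₁) * K) 1 (by ring) with hβ
  refine ⟨β, mem_Gamma0_iff.mpr ⟨-(v * c₁), by simp [hβ, slMk]; ring⟩, mem_Gamma0_iff.mpr ?_⟩
  have e : (β * γ) 1 0 = -(v * c₁) * K * γ 0 0 + γ 1 0 := by
    rw [Matrix.SpecialLinearGroup.coe_mul, Matrix.mul_apply, Fin.sum_univ_two]
    simp [hβ, slMk]
  refine ⟨c₁ * u, ?_⟩
  have hMq : (M : ℤ) = ((M / q : ℕ) : ℤ) * q := by exact_mod_cast (Nat.div_mul_cancel hqM).symm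
  rw [e, hc₁, hMq, show (K : ℤ) = ((M / q : ℕ) : ℤ) * k₁ from by exact_mod_cast hk₁]
  linear_combination (-(((M / q : ℕ) : ℤ)) * c₁) * huv

/-- Orthogonality at a prime, untwisted. -/
theorem ip_newform_of_not_dvd [NeZero M] [NeZero K] [NeZero L] {g : CuspForm (Gamma0 M) 2}
    (hg : g.IsNewform) (hq : q.Prime) (hqM : q ∣ M) (hDK : M / q ∣ K) (hMK : ¬ M ∣ K)
    (hML : M ∣ L) (hKL : K ∣ L) (x : CuspForm (Gamma0 K) 2) :
    ip (Gamma L) ⇑g ⇑x = 0 := by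
  classical
  set D := M / q
  have : NeZero D := neZero_div (Nat.mem_primeFactors.mpr ⟨hq, hqM, NeZero.ne M⟩)
  set R := ↥(Gamma0 D) ⧸ (Gamma0 K).subgroupOf (Gamma0 D)
  have : Finite R := inferInstance
  let : Fintype R := Fintype.ofFinite R
  set φ : R → ℍ → ℂ := fun r => (⇑x : ℍ → ℂ) ∣[(2 : ℤ)] ((r.out : SL(2, ℤ))⁻¹) with hφ
  have hinv : ∀ γ ∈ Gamma0 D, (∑ r, φ r) ∣[(2 : ℤ)] γ = ∑ r, φ r := by
    intro γ hγ
    let σ : R ≃ R := MulAction.toPerm (⟨γ, hγ⟩⁻¹ : Gamma0 D)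
    rw [ModularForm.SL_slash, SlashAction.sum_slash, ← Equiv.sum_comp σ φ]
    refine Finset.sum_congr rfl fun r _ => ?_
    rw [← ModularForm.SL_slash]
    show ((⇑x : ℍ → ℂ) ∣[(2 : ℤ)] ((r.out : SL(2, ℤ))⁻¹)) ∣[(2 : ℤ)] γ =
      (⇑x : ℍ → ℂ) ∣[(2 : ℤ)] (((σ r).out : SL(2, ℤ))⁻¹)
    have hσ : σ r = (((⟨γ, hγ⟩ : Gamma0 D)⁻¹ * r.out : Gamma0 D) : R) := by
      conv_lhs => rw [← QuotientGroup.out_eq' r]
      rfl
    obtain ⟨h, hh⟩ := QuotientGroup.mk_out_eq_mul ((Gamma0 K).subgroupOf (Gamma0 D))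
      ((⟨γ, hγ⟩ : Gamma0 D)⁻¹ * r.out)
    rw [hσ, hh]
    simp only [Subgroup.coe_mul, Subgroup.coe_inv, mul_inv_rev, inv_inv, SlashAction.slash_mul]
    have hhK : ((h : Gamma0 D) : SL(2, ℤ))⁻¹ ∈ Gamma0 K :=
      inv_mem (Subgroup.mem_subgroupOf.mp h.2)
    rw [cuspForm_slash_SL x hhK]
  let x' := (IsCuspFun.sum Finset.univ fun r _ =>
    (IsCuspFun.of_cuspForm x).slash_SL ((r.out : SL(2, ℤ))⁻¹)).toCuspForm (M := D) hinv
  have hterm : ∀ r : R, ip (Gamma L) ⇑g (φ r) = ip (Gamma L) ⇑g ⇑x := by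
    intro r
    obtain ⟨β, hβ, hm⟩ := exists_mul_mem_Gamma0 hq hqM hDK hMK (inv_mem (r.out).2)
    have e : φ r = (⇑x : ℍ → ℂ) ∣[(2 : ℤ)] (β * ((r.out : SL(2, ℤ))⁻¹)) := by
      rw [SlashAction.slash_mul, cuspForm_slash_SL x hβ]
    conv_lhs => rw [e, show (⇑g : ℍ → ℂ) = (⇑g : ℍ → ℂ) ∣[(2 : ℤ)]
      (β * ((r.out : SL(2, ℤ))⁻¹)) from (cuspForm_slash_SL g hm).symm]
    exact ip_slash_SL (bd_cuspForm g) (bd_cuspForm x) (inv_of_dvd g hML) (inv_of_dvd x hKL) _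
  have h0 : ip (Gamma L) ⇑g ⇑x' = 0 :=
    ip_newform_of_level_lt hg (Nat.div_dvd_of_dvd hqM)
      (Nat.div_lt_self (NeZero.pos M) hq.one_lt).ne hML x'
  rw [show (⇑x' : ℍ → ℂ) = ∑ r, φ r from rfl,
    ip_sum_right _ (fun r _ => (bd_cuspForm x).slash_SL _) (bd_cuspForm g),
    Finset.sum_congr rfl fun r _ => hterm r, Finset.sum_const, Finset.card_univ, nsmul_eq_mul,
    mul_eq_zero] at h0
  exact h0.resolve_left (Nat.cast_ne_zero.mpr Fintype.card_ne_zero)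

/-- Orthogonality at a prime, after `τ ↦ qτ`. -/
theorem ip_newform_dilate [NeZero M] [NeZero K] [NeZero L] [NeZero q]
    {g : CuspForm (Gamma0 M) 2} (hg : g.IsNewform) (hq : q.Prime) (hqM : q ∣ M) (hDK : M / q ∣ K)
    (hMK : ¬ M ∣ K) (hML : M ∣ L) (hKL : K ∣ L) (x : CuspForm (Gamma0 K) 2) :
    ip (Gamma (L * q)) ⇑g ((⇑x : ℍ → ℂ) ∣[(2 : ℤ)] zm q 0 0 1) = 0 := by
  have hgL := inv_of_dvd g hML
  have hxL := inv_of_dvd x hKL
  rw [← slash_diag_eq, ← ip_slash_diagR (bd_cuspForm g) (bd_cuspForm x) hgL hxL]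
  have hsum : ip (Gamma (L * q)) (∑ j : Fin q, (⇑g : ℍ → ℂ) ∣[(2 : ℤ)] zm 1 j 0 q) ⇑x =
      (q : ℂ) * ip (Gamma (L * q)) ((⇑g : ℍ → ℂ) ∣[(2 : ℤ)] diagR q) ⇑x := by
    rw [ip_sum_left _ (fun (j : Fin q) _ => ?_) (bd_cuspForm x)]
    · rw [Finset.sum_congr rfl (g := fun _ => ip (Gamma (L * q))
        ((⇑g : ℍ → ℂ) ∣[(2 : ℤ)] diagR q) ⇑x) fun (j : Fin q) _ => ?_]
      · rw [Finset.sum_const, Finset.card_univ, Fintype.card_fin, nsmul_eq_mul]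
      · rw [upper_eq, map_one, map_one, one_mul, SlashAction.slash_mul, ← ModularForm.SL_slash]
        conv_lhs => rw [show (⇑x : ℍ → ℂ) = (⇑x : ℍ → ℂ) ∣[(2 : ℤ)] (ModularGroup.T ^ (j : ℤ)) from
          (cuspForm_slash_SL x (T_zpow_mem_Gamma0 K _)).symm]
        exact ip_slash_SL ((bd_cuspForm g).slash det_diagR_pos) (bd_cuspForm x)
          (inv_slash_diagR hgL) (inv_of_dvd x (hKL.trans (dvd_mul_right L q))) _
    · rw [upper_eq, map_one, map_one, one_mul, SlashAction.slash_mul, ← ModularForm.SL_slash]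
      exact ((bd_cuspForm g).slash det_diagR_pos).slash_SL _
  have hU : (∑ j : Fin q, (⇑g : ℍ → ℂ) ∣[(2 : ℤ)] zm 1 j 0 q) = qCoeff ⇑g q • ⇑g := by
    rw [← heckeU_eq_sum_zm 2 hq.pos]
    simpa using congrArg (fun F : CuspForm (Gamma0 M) 2 => (⇑F : ℍ → ℂ))
      (Hecke.heckeULin_eigenform hg.1 hq hqM)
  rw [hU, ip_smul_left, ip_newform_of_not_dvd hg hq hqM hDK hMK (hML.trans (dvd_mul_right L q))
    (hKL.trans (dvd_mul_right L q)) x, mul_zero, eq_comm, mul_eq_zero] at hsum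
  exact hsum.resolve_left (by exact_mod_cast hq.ne_zero)

end Fermat.Agent.Newform

end
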